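import Fermat.Agent.S55.Defs3

/-!
# S55-T : basic lemmas on level-constant cochains, differentials, restriction, push-forward
-/

set_option autoImplicit false

namespace Fermat.Agent.S55

section one

variable {k : Type} [CommRing k] {H : Type} [Group H] {𝒰 : Lev H}
variable {A : Type} [AddCommGroup A] [Module k A] {ρ : Representation k H A}

theorem d1_d0 (a : A) : d1 ρ (d0 ρ a) = 0 := by
  ext p
  simp only [d1_apply, d0_apply, map_sub, map_mul, Module.End.mul_apply, Pi.zero_apply]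
  abel
theorem d2_d1 (x : H → A) : d2 ρ (d1 ρ x) = 0 := by
  ext p
  simp only [d2_apply, d1_apply, map_sub, map_add, map_mul, Module.End.mul_apply, Pi.zero_apply,
    mul_assoc]
  abel

/-- finitely many conditions: a common normal level below two given ones -/
theorem Lev.exists_normal_le (𝒰 : Lev H) {U V : Subgroup H} (hU : U ∈ 𝒰.mem) (hV : V ∈ 𝒰.mem) :
    ∃ W ∈ 𝒰.mem, W.Normal ∧ W ≤ U ∧ W ≤ V := by
  obtain ⟨W₀, hW₀, h1, h2⟩ := 𝒰.directed U hU V hV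
  obtain ⟨W, hW, h3, hn⟩ := 𝒰.normal W₀ hW₀
  exact ⟨W, hW, hn, h3.trans h1, h3.trans h2⟩

private theorem basic_conj_mul_mem {W : Subgroup H} (hn : W.Normal) {s s' : H} (hs : s ∈ W)
    (hs' : s' ∈ W) (h : H) : h⁻¹ * s * h * s' ∈ W := by
  refine W.mul_mem ?_ hs'
  have := hn.conj_mem s hs h⁻¹
  simpa using this

private theorem basic_mul_eq (g s h s' : H) : g * s * (h * s') = g * h * (h⁻¹ * s * h * s') := by
  group

theorem LC1_d0 (hρ : Smooth ρ 𝒰) (a : A) : LC1 𝒰 (d0 ρ a) := by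
  obtain ⟨U, hU, h⟩ := hρ
  refine ⟨U, hU, fun g s hs => ?_⟩
  simp only [d0_apply, map_mul, Module.End.mul_apply, h s hs, Module.End.one_apply]
theorem LC2_d1 (hρ : Smooth ρ 𝒰) {x : H → A} (hx : LC1 𝒰 x) : LC2 𝒰 (d1 ρ x) := by
  obtain ⟨U, hU, h⟩ := hρ
  obtain ⟨V, hV, h'⟩ := hx
  obtain ⟨W, hW, hn, hWU, hWV⟩ := 𝒰.exists_normal_le hU hV
  refine ⟨W, hW, fun g g' s s' hs hs' => ?_⟩
  simp only [d1_apply, map_mul, Module.End.mul_apply, h s (hWU hs), Module.End.one_apply]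
  rw [basic_mul_eq, h' (g * g') _ (hWV (basic_conj_mul_mem hn hs hs' g')), h' g' s' (hWV hs'),
    h' g s (hWV hs)]
theorem LC3_d2 (hρ : Smooth ρ 𝒰) {f : H × H → A} (hf : LC2 𝒰 f) : LC3 𝒰 (d2 ρ f) := by
  obtain ⟨U, hU, h⟩ := hρ
  obtain ⟨V, hV, h'⟩ := hf
  obtain ⟨W, hW, hn, hWU, hWV⟩ := 𝒰.exists_normal_le hU hV
  refine ⟨W, hW, fun g g' g'' s s' s'' hs hs' hs'' => ?_⟩
  simp only [d2_apply, map_mul, Module.End.mul_apply, h s (hWU hs), Module.End.one_apply]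
  rw [basic_mul_eq g s g' s', basic_mul_eq g' s' g'' s'',
    h' (g * g') g'' _ s'' (hWV (basic_conj_mul_mem hn hs hs' g')) (hWV hs''),
    h' g (g' * g'') s _ (hWV hs) (hWV (basic_conj_mul_mem hn hs' hs'' g'')),
    h' g' g'' s' s'' (hWV hs') (hWV hs''), h' g g' s s' (hWV hs) (hWV hs')]
theorem B1_le_Z1 (hρ : Smooth ρ 𝒰) : B1 ρ ≤ Z1 𝒰 ρ := by
  rintro _ ⟨a, rfl⟩
  exact ⟨LC1_d0 hρ a, d1_d0 a⟩
theorem B2_le_Z2 (hρ : Smooth ρ 𝒰) : B2 𝒰 ρ ≤ Z2 𝒰 ρ := by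
  rintro _ ⟨y, hy, rfl⟩
  exact ⟨LC2_d1 hρ hy, d2_d1 y⟩

/-- a 1-cocycle vanishes at `1` -/
theorem Z1_one {x : H → A} (hx : d1 ρ x = 0) : x 1 = 0 := by
  have h := congrFun hx (1, 1)
  simpa using h
/-- the cocycle relation -/
theorem Z1_mul {x : H → A} (hx : d1 ρ x = 0) (g h : H) : x (g * h) = x g + ρ g (x h) := by
  have h1 := congrFun hx (g, h)
  simp only [d1_apply, Pi.zero_apply] at h1
  have h2 : x (g * h) = ρ g (x h) - x (g * h) + x g + x (g * h) := by rw [h1, zero_add]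
  rw [h2]; abel
/-- a level-constant 1-cocycle vanishes on a level -/
theorem Z1_vanish {x : H → A} (hx : x ∈ Z1 𝒰 ρ) : ∃ U ∈ 𝒰.mem, ∀ s ∈ U, x s = 0 := by
  obtain ⟨⟨U, hU, h⟩, hd⟩ := hx
  refine ⟨U, hU, fun s hs => ?_⟩
  have := h 1 s hs
  rw [one_mul] at this
  rw [this]
  exact Z1_one hd

end one

section res

variable {k : Type} [CommRing k] {H G : Type} [Group H] [Group G] (r : H →* G)
variable {𝒱 : Lev H} {𝒰 : Lev G}
variable {A : Type} [AddCommGroup A] [Module k A] {ρ : Representation k G A}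

theorem res1_d0 (a : A) : res1 (k := k) r (d0 ρ a) = d0 (ρ.comp r) a := rfl
theorem res2_d1 (x : G → A) : res2 (k := k) r (d1 ρ x) = d1 (ρ.comp r) (res1 (k := k) r x) := by
  ext p
  simp only [res2_apply, d1_apply, res1_apply, map_mul, MonoidHom.comp_apply]
theorem res3_d2 (x : G × G → A) :
    res3 (k := k) r (d2 ρ x) = d2 (ρ.comp r) (res2 (k := k) r x) := by
  ext p
  simp only [res3_apply, d2_apply, res2_apply, map_mul, MonoidHom.comp_apply]

variable (hc : ∀ W ∈ 𝒰.mem, W.comap r ∈ 𝒱.mem)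
include hc

theorem LC1_res {X : Type} {x : G → X} (hx : LC1 𝒰 x) : LC1 𝒱 (fun g => x (r g)) := by
  obtain ⟨U, hU, h⟩ := hx
  refine ⟨U.comap r, hc U hU, fun g s hs => ?_⟩
  simp only [map_mul]
  exact h _ _ hs
theorem LC2_res {X : Type} {x : G × G → X} (hx : LC2 𝒰 x) :
    LC2 𝒱 (fun p : H × H => x (r p.1, r p.2)) := by
  obtain ⟨U, hU, h⟩ := hx
  refine ⟨U.comap r, hc U hU, fun g g' s s' hs hs' => ?_⟩
  simp only [map_mul]
  exact h _ _ _ _ hs hs'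
theorem Smooth.comp (hρ : Smooth ρ 𝒰) : Smooth (ρ.comp r) 𝒱 := by
  obtain ⟨U, hU, h⟩ := hρ
  exact ⟨U.comap r, hc U hU, fun s hs => h _ hs⟩
theorem res1_mem_Z1 {x : G → A} (hx : x ∈ Z1 𝒰 ρ) : res1 (k := k) r x ∈ Z1 𝒱 (ρ.comp r) := by
  refine ⟨LC1_res r hc hx.1, ?_⟩
  have h2 : d1 ρ x = 0 := hx.2
  show d1 (ρ.comp r) (res1 (k := k) r x) = 0
  rw [← res2_d1, h2, map_zero]
theorem res2_mem_Z2 {x : G × G → A} (hx : x ∈ Z2 𝒰 ρ) :
    res2 (k := k) r x ∈ Z2 𝒱 (ρ.comp r) := by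
  refine ⟨LC2_res r hc hx.1, ?_⟩
  have h2 : d2 ρ x = 0 := hx.2
  show d2 (ρ.comp r) (res2 (k := k) r x) = 0
  rw [← res3_d2, h2, map_zero]
theorem res2_mem_B2 {x : G × G → A} (hx : x ∈ B2 𝒰 ρ) :
    res2 (k := k) r x ∈ B2 𝒱 (ρ.comp r) := by
  obtain ⟨y, hy, rfl⟩ := hx
  exact ⟨res1 (k := k) r y, LC1_res r hc hy, (res2_d1 r y).symm⟩
omit hc in
theorem res1_mem_B1 {x : G → A} (hx : x ∈ B1 ρ) : res1 (k := k) r x ∈ B1 (ρ.comp r) := by
  obtain ⟨a, rfl⟩ := hx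
  exact ⟨a, (res1_d0 r a).symm⟩
omit hc in
theorem mem_Z0_comp {a : A} (ha : a ∈ Z0 ρ) : a ∈ Z0 (ρ.comp r) := by
  rw [mem_Z0] at ha ⊢
  exact fun g => ha (r g)

end res

section push

variable {k : Type} [CommRing k] {H : Type} [Group H] {𝒰 : Lev H}
variable {A B : Type} [AddCommGroup A] [Module k A] [AddCommGroup B] [Module k B]
variable {ρA : Representation k H A} {ρB : Representation k H B}
variable (u : A →ₗ[k] B)

theorem LC1_push {x : H → A} (hx : LC1 𝒰 x) : LC1 𝒰 (push u x) := by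
  obtain ⟨U, hU, h⟩ := hx
  exact ⟨U, hU, fun g s hs => by simp only [push_apply, h g s hs]⟩
theorem LC2_push {x : H × H → A} (hx : LC2 𝒰 x) : LC2 𝒰 (push u x) := by
  obtain ⟨U, hU, h⟩ := hx
  exact ⟨U, hU, fun g g' s s' hs hs' => by simp only [push_apply, h g g' s s' hs hs']⟩
theorem LC1_of_push (hu : Function.Injective u) {x : H → A} (hx : LC1 𝒰 (push u x)) :
    LC1 𝒰 x := by
  obtain ⟨U, hU, h⟩ := hx
  exact ⟨U, hU, fun g s hs => hu (h g s hs)⟩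
theorem LC2_of_push (hu : Function.Injective u) {x : H × H → A} (hx : LC2 𝒰 (push u x)) :
    LC2 𝒰 x := by
  obtain ⟨U, hU, h⟩ := hx
  exact ⟨U, hU, fun g g' s s' hs hs' => hu (h g g' s s' hs hs')⟩

variable (hu : ∀ g a, u (ρA g a) = ρB g (u a))
include hu

theorem push_d0 (a : A) : push u (d0 ρA a) = d0 ρB (u a) := by
  ext g
  simp only [push_apply, d0_apply, map_sub, hu]
theorem push_d1 (x : H → A) : push u (d1 ρA x) = d1 ρB (push u x) := by
  ext p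
  simp only [push_apply, d1_apply, map_sub, map_add, hu]
theorem push_d2 (x : H × H → A) : push u (d2 ρA x) = d2 ρB (push u x) := by
  ext p
  simp only [push_apply, d2_apply, map_sub, map_add, hu]
theorem push_mem_Z0 {a : A} (ha : a ∈ Z0 ρA) : u a ∈ Z0 ρB := by
  rw [mem_Z0] at ha ⊢
  exact fun g => by rw [← hu, ha g]
theorem push_mem_Z1 {x : H → A} (hx : x ∈ Z1 𝒰 ρA) : push u x ∈ Z1 𝒰 ρB := by
  refine ⟨LC1_push u hx.1, ?_⟩
  have h2 : d1 ρA x = 0 := hx.2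
  show d1 ρB (push u x) = 0
  rw [← push_d1 u hu, h2, map_zero]
theorem push_mem_B1 {x : H → A} (hx : x ∈ B1 ρA) : push u x ∈ B1 ρB := by
  obtain ⟨a, rfl⟩ := hx
  exact ⟨u a, (push_d0 u hu a).symm⟩
theorem push_mem_Z2 {x : H × H → A} (hx : x ∈ Z2 𝒰 ρA) : push u x ∈ Z2 𝒰 ρB := by
  refine ⟨LC2_push u hx.1, ?_⟩
  have h2 : d2 ρA x = 0 := hx.2
  show d2 ρB (push u x) = 0
  rw [← push_d2 u hu, h2, map_zero]
theorem push_mem_B2 {x : H × H → A} (hx : x ∈ B2 𝒰 ρA) : push u x ∈ B2 𝒰 ρB := by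
  obtain ⟨y, hy, rfl⟩ := hx
  exact ⟨push u y, LC1_push u hy, (push_d1 u hu y).symm⟩

end push

section lift

/-! lifting level-constant cochains along a surjective linear map of vector spaces -/

variable {k : Type} [Field k] {H : Type} [Group H] {𝒰 : Lev H}
variable {A B : Type} [AddCommGroup A] [Module k A] [AddCommGroup B] [Module k B]
variable (u : A →ₗ[k] B) (hu : Function.Surjective u)
include hu

theorem exists_lift_LC1 {x : H → B} (hx : LC1 𝒰 x) : ∃ y : H → A, LC1 𝒰 y ∧ push u y = x := by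
  obtain ⟨v, hv⟩ := LinearMap.exists_rightInverse_of_surjective u (LinearMap.range_eq_top.2 hu)
  refine ⟨push v x, LC1_push v hx, ?_⟩
  ext g
  exact LinearMap.congr_fun hv (x g)
theorem exists_lift_LC2 {x : H × H → B} (hx : LC2 𝒰 x) :
    ∃ y : H × H → A, LC2 𝒰 y ∧ push u y = x := by
  obtain ⟨v, hv⟩ := LinearMap.exists_rightInverse_of_surjective u (LinearMap.range_eq_top.2 hu)
  refine ⟨push v x, LC2_push v hx, ?_⟩
  ext g
  exact LinearMap.congr_fun hv (x g)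

end lift

end Fermat.Agent.S55
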