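import Fermat.Agent.S55.T.Basic

/-!
# S55-T : the cone complex (membership lemmas, functoriality)
-/

set_option autoImplicit false

namespace Fermat.Agent.S55

section cone

variable {k : Type} [CommRing k] (P : Sys)
variable {A : Type} [AddCommGroup A] [Module k A] {ρ : Representation k P.G A}

theorem mem_Z1c {x : (P.G → A) × (P.ι → A)} :
    x ∈ Z1c P ρ ↔ x.1 ∈ Z1 P.lev ρ ∧ ∀ v, res1 (k := k) (P.r v) x.1 = d0 (P.loc ρ v) (x.2 v) := by
  simp only [Z1c, CC1, Submodule.mem_inf, Submodule.mem_prod, Submodule.mem_top, and_true,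
    LinearMap.mem_ker, coneD1_apply, Prod.ext_iff, Prod.fst_zero, Prod.snd_zero, mem_Z1, mem_C1,
    funext_iff (f := fun v => res1 (k := k) (P.r v) x.1 - d0 (P.loc ρ v) (x.2 v)),
    Pi.zero_apply, sub_eq_zero, and_assoc]

theorem mem_B1c {x : (P.G → A) × (P.ι → A)} :
    x ∈ B1c P ρ ↔ ∃ a : A, x = (d0 ρ a, fun _ => a) := by
  simp only [B1c, LinearMap.mem_range, coneD0_apply, eq_comm]

theorem mem_Z2c {x : (P.G × P.G → A) × (∀ v : P.ι, P.Gv v → A)} :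
    x ∈ Z2c P ρ ↔ x.1 ∈ Z2 P.lev ρ ∧ (∀ v, LC1 (P.levv v) (x.2 v)) ∧
      ∀ v, res2 (k := k) (P.r v) x.1 = d1 (P.loc ρ v) (x.2 v) := by
  simp only [Z2c, CC2, Submodule.mem_inf, Submodule.mem_prod, Submodule.mem_pi, Set.mem_univ,
    forall_true_left, LinearMap.mem_ker, coneD2_apply, Prod.ext_iff, Prod.fst_zero, Prod.snd_zero,
    mem_Z2, mem_C1, mem_C2,
    funext_iff (f := fun v => res2 (k := k) (P.r v) x.1 - d1 (P.loc ρ v) (x.2 v)),
    Pi.zero_apply, sub_eq_zero]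
  tauto

theorem mem_B2c {x : (P.G × P.G → A) × (∀ v : P.ι, P.Gv v → A)} :
    x ∈ B2c P ρ ↔ ∃ (α : P.G → A) (β : P.ι → A), LC1 P.lev α ∧
      x = (d1 ρ α, fun v => res1 (k := k) (P.r v) α - d0 (P.loc ρ v) (β v)) := by
  constructor
  · rintro ⟨⟨α, β⟩, ⟨hα, -⟩, rfl⟩
    exact ⟨α, β, hα, rfl⟩
  · rintro ⟨α, β, hα, rfl⟩
    exact ⟨(α, β), ⟨hα, trivial⟩, rfl⟩

theorem mem_B3c {x : (P.G × P.G × P.G → A) × (∀ v : P.ι, P.Gv v × P.Gv v → A)} :
    x ∈ B3c P ρ ↔ ∃ (α : P.G × P.G → A) (β : ∀ v : P.ι, P.Gv v → A), LC2 P.lev α ∧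
      (∀ v, LC1 (P.levv v) (β v)) ∧
      x = (d2 ρ α, fun v => res2 (k := k) (P.r v) α - d1 (P.loc ρ v) (β v)) := by
  constructor
  · rintro ⟨⟨α, β⟩, ⟨hα, hβ⟩, rfl⟩
    exact ⟨α, β, hα, fun v => hβ v (Set.mem_univ v), rfl⟩
  · rintro ⟨α, β, hα, hβ, rfl⟩
    exact ⟨(α, β), ⟨hα, fun v _ => hβ v⟩, rfl⟩

theorem coneD1_coneD0 (a : A) : coneD1 P ρ (coneD0 P ρ a) = 0 := by
  rw [coneD0_apply, coneD1_apply]
  refine Prod.ext (d1_d0 a) ?_
  funext v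
  change res1 (k := k) (P.r v) (d0 ρ a) - d0 (P.loc ρ v) a = 0
  rw [res1_d0, sub_self]
theorem coneD2_coneD1 (x : (P.G → A) × (P.ι → A)) : coneD2 P ρ (coneD1 P ρ x) = 0 := by
  rw [coneD1_apply, coneD2_apply]
  refine Prod.ext (d2_d1 x.1) ?_
  funext v
  change res2 (k := k) (P.r v) (d1 ρ x.1)
    - d1 (P.loc ρ v) (res1 (k := k) (P.r v) x.1 - d0 (P.loc ρ v) (x.2 v)) = 0
  rw [res2_d1, map_sub, d1_d0, sub_zero, sub_self]
theorem B1c_le_Z1c (hρ : Smooth ρ P.lev) : B1c P ρ ≤ Z1c P ρ := by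
  rintro _ ⟨a, rfl⟩
  exact ⟨⟨LC1_d0 hρ a, trivial⟩, coneD1_coneD0 P a⟩
theorem B2c_le_Z2c (hρ : Smooth ρ P.lev) : B2c P ρ ≤ Z2c P ρ := by
  rintro _ ⟨⟨α, β⟩, ⟨hα, -⟩, rfl⟩
  refine ⟨⟨LC2_d1 hρ hα, fun v _ => ?_⟩, coneD2_coneD1 P _⟩
  have h1 : LC1 (P.levv v) (res1 (k := k) (P.r v) α) := LC1_res (P.r v) (P.compat v) hα
  have h2 : LC1 (P.levv v) (d0 (P.loc ρ v) (β v)) :=
    LC1_d0 (Smooth.comp (P.r v) (P.compat v) hρ) (β v)
  exact (C1 k (P.levv v) A).sub_mem h1 h2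

theorem mem_Sha1 {x : P.G → A} :
    x ∈ Sha1 P ρ ↔ x ∈ Z1 P.lev ρ ∧ ∀ v, res1 (k := k) (P.r v) x ∈ B1 (P.loc ρ v) := by
  simp only [Sha1, Submodule.mem_inf, Submodule.mem_iInf, Submodule.mem_comap]
theorem mem_Sha2 {x : P.G × P.G → A} :
    x ∈ Sha2 P ρ ↔ x ∈ Z2 P.lev ρ ∧
      ∀ v, res2 (k := k) (P.r v) x ∈ B2 (P.levv v) (P.loc ρ v) := by
  simp only [Sha2, Submodule.mem_inf, Submodule.mem_iInf, Submodule.mem_comap]

/-- `Sha1` = image of the first projection on `Z1c` -/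
theorem mem_Sha1_iff_exists {x : P.G → A} : x ∈ Sha1 P ρ ↔ ∃ b, (x, b) ∈ Z1c P ρ := by
  simp only [mem_Sha1, mem_Z1c, mem_B1]
  constructor
  · rintro ⟨hx, h⟩
    choose b hb using h
    exact ⟨b, hx, fun v => (hb v).symm⟩
  · rintro ⟨b, hx, h⟩
    exact ⟨hx, fun v => ⟨b v, (h v).symm⟩⟩
/-- `Sha2` = image of the first projection on `Z2c` -/
theorem mem_Sha2_iff_exists {x : P.G × P.G → A} : x ∈ Sha2 P ρ ↔ ∃ b, (x, b) ∈ Z2c P ρ := by
  simp only [mem_Sha2, mem_Z2c, mem_B2]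
  constructor
  · rintro ⟨hx, h⟩
    choose b hb hb' using h
    exact ⟨b, hx, hb, fun v => (hb' v).symm⟩
  · rintro ⟨b, hx, hb, h⟩
    exact ⟨hx, fun v => ⟨b v, hb v, (h v).symm⟩⟩

/-- the local representations are smooth -/
theorem Sys.smooth_loc (hρ : Smooth ρ P.lev) (v : P.ι) : Smooth (P.loc ρ v) (P.levv v) :=
  Smooth.comp (P.r v) (P.compat v) hρ

end cone

section conepush

/-! functoriality of the cone complex in the coefficients -/

variable {k : Type} [CommRing k] (P : Sys)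
variable {A B : Type} [AddCommGroup A] [Module k A] [AddCommGroup B] [Module k B]
variable {ρA : Representation k P.G A} {ρB : Representation k P.G B} (u : A →ₗ[k] B)

/-- push-forward of cone cochains of degree 1 -/
def pushc1 : (P.G → A) × (P.ι → A) →ₗ[k] (P.G → B) × (P.ι → B) :=
  LinearMap.prodMap (push u) (push u)
/-- push-forward of cone cochains of degree 2 -/
def pushc2 : (P.G × P.G → A) × (∀ v : P.ι, P.Gv v → A) →ₗ[k]
    (P.G × P.G → B) × (∀ v : P.ι, P.Gv v → B) :=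
  LinearMap.prodMap (push u) (LinearMap.pi fun v => (push u).comp (LinearMap.proj v))

@[simp] lemma pushc1_apply (x : (P.G → A) × (P.ι → A)) :
    pushc1 P u x = (push u x.1, fun v => u (x.2 v)) := rfl
@[simp] lemma pushc2_apply (x : (P.G × P.G → A) × (∀ v : P.ι, P.Gv v → A)) :
    pushc2 P u x = (push u x.1, fun v => push u (x.2 v)) := rfl

variable (hu : ∀ g a, u (ρA g a) = ρB g (u a))
include hu

theorem pushc1_coneD0 (a : A) : pushc1 P u (coneD0 P ρA a) = coneD0 P ρB (u a) := by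
  rw [coneD0_apply, coneD0_apply, pushc1_apply]
  exact Prod.ext (push_d0 u hu a) rfl
theorem pushc2_coneD1 (x : (P.G → A) × (P.ι → A)) :
    pushc2 P u (coneD1 P ρA x) = coneD1 P ρB (pushc1 P u x) := by
  rw [coneD1_apply, coneD1_apply, pushc2_apply, pushc1_apply]
  refine Prod.ext (push_d1 u hu x.1) ?_
  funext v
  change push u (res1 (k := k) (P.r v) x.1 - d0 (P.loc ρA v) (x.2 v))
    = res1 (k := k) (P.r v) (push u x.1) - d0 (P.loc ρB v) (u (x.2 v))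
  rw [map_sub, push_d0 (ρA := P.loc ρA v) (ρB := P.loc ρB v) u (fun g a => hu (P.r v g) a)]
  rfl
theorem pushc1_mem_Z1c {x} (hx : x ∈ Z1c P ρA) : pushc1 P u x ∈ Z1c P ρB := by
  rw [mem_Z1c] at hx ⊢
  refine ⟨push_mem_Z1 u hu hx.1, fun v => ?_⟩
  change res1 (k := k) (P.r v) (push u x.1) = d0 (P.loc ρB v) (u (x.2 v))
  rw [← push_d0 (ρA := P.loc ρA v) (ρB := P.loc ρB v) u (fun g a => hu (P.r v g) a), ← hx.2 v]
  rfl
theorem pushc1_mem_B1c {x} (hx : x ∈ B1c P ρA) : pushc1 P u x ∈ B1c P ρB := by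
  obtain ⟨a, rfl⟩ := hx
  exact ⟨u a, (pushc1_coneD0 P u hu a).symm⟩
theorem pushc2_mem_Z2c {x} (hx : x ∈ Z2c P ρA) : pushc2 P u x ∈ Z2c P ρB := by
  rw [mem_Z2c] at hx ⊢
  refine ⟨push_mem_Z2 u hu hx.1, fun v => LC1_push u (hx.2.1 v), fun v => ?_⟩
  change res2 (k := k) (P.r v) (push u x.1) = d1 (P.loc ρB v) (push u (x.2 v))
  rw [← push_d1 (ρA := P.loc ρA v) (ρB := P.loc ρB v) u (fun g a => hu (P.r v g) a), ← hx.2.2 v]
  rfl
theorem pushc2_mem_B2c {x} (hx : x ∈ B2c P ρA) : pushc2 P u x ∈ B2c P ρB := by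
  obtain ⟨y, ⟨hy, -⟩, rfl⟩ := hx
  exact ⟨pushc1 P u y, ⟨LC1_push u hy, trivial⟩, (pushc2_coneD1 P u hu y).symm⟩

/-- `H¹_c(A) → H¹_c(B)` is injective if `u` is injective (there is at least one place) -/
theorem B1c_of_pushc1 [Nonempty P.ι] (hinj : Function.Injective u) {x}
    (hx : pushc1 P u x ∈ B1c P ρB) : x ∈ B1c P ρA := by
  rw [mem_B1c] at hx ⊢
  obtain ⟨j, hj⟩ := hx
  rw [pushc1_apply, Prod.ext_iff] at hj
  obtain ⟨h1, h2⟩ := hj
  obtain ⟨v₀⟩ := (inferInstance : Nonempty P.ι)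
  have hj0 : u (x.2 v₀) = j := congrFun h2 v₀
  refine ⟨x.2 v₀, Prod.ext ?_ ?_⟩
  · funext g
    apply hinj
    have := congrFun h1 g
    simp only [push_apply, d0_apply] at this ⊢
    rw [this, map_sub, hu, hj0]
  · funext v
    apply hinj
    have := congrFun h2 v
    simp only at this ⊢
    rw [this, hj0]

end conepush

end Fermat.Agent.S55
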