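import Fermat.Agent.S55.T.BaseLoc
import Fermat.Agent.S55.T.Cone

/-!
# S55-T : the global base case, part (E2): `GlobGood U` ⟹ (E2) for `Map(G/U, D)`,
`D` trivial on `U`
-/

set_option autoImplicit false
set_option linter.unusedSectionVars false

namespace Fermat.Agent.S55

variable {k : Type} [Field k] (P : Sys) {ρμ : Representation k P.G k}

section theta

variable {G : Type} [Group G] (U : Subgroup G) (ρ : Representation k G k)
variable {A B : Type} [AddCommGroup A] [Module k A] [AddCommGroup B] [Module k B]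
  (ρA : Representation k G A) (ρB : Representation k G B)

/-- `Θ(f)(δU) = (ρμ(δ⁻¹) (f (δU))) • ρB(δ) b*` : an equivariant map `Map(G/U,μ) → Map(G/U,B)` -/
noncomputable def basee2Theta (bs : B) : (G ⧸ U → k) →ₗ[k] (G ⧸ U → B) where
  toFun f := fun x => (ρ (x.out)⁻¹ (f x)) • ρB x.out bs
  map_add' f f' := by
    ext x
    simp [add_smul]
  map_smul' c f := by
    ext x
    simp only [Pi.smul_apply, RingHom.id_apply, map_smul, smul_assoc]

variable {U ρ ρB}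

theorem basee2Theta_mk (hρ : ∀ s ∈ U, ρ s = 1) (hB : ∀ s ∈ U, ρB s = 1) (bs : B)
    (f : G ⧸ U → k) (δ : G) :
    basee2Theta U ρ ρB bs f (δ : G ⧸ U) = (ρ δ⁻¹ (f (δ : G ⧸ U))) • ρB δ bs := by
  obtain ⟨u, hu⟩ := QuotientGroup.mk_out_eq_mul U δ
  change (ρ ((δ : G ⧸ U).out)⁻¹ (f (δ : G ⧸ U))) • ρB (δ : G ⧸ U).out bs = _
  rw [hu, mul_inv_rev, map_mul, map_mul, hB u u.2, hρ _ (U.inv_mem u.2), one_mul, mul_one]

theorem basee2Theta_equiv (hρ : ∀ s ∈ U, ρ s = 1) (hB : ∀ s ∈ U, ρB s = 1) (bs : B) (g : G)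
    (f : G ⧸ U → k) :
    basee2Theta U ρ ρB bs (coind (G ⧸ U) ρ g f) =
      coind (G ⧸ U) ρB g (basee2Theta U ρ ρB bs f) := by
  ext x
  induction x using QuotientGroup.induction_on with
  | H δ =>
    have h1 : g⁻¹ • (δ : G ⧸ U) = ((g⁻¹ * δ : G) : G ⧸ U) := rfl
    rw [basee2Theta_mk hρ hB, coind_apply, coind_apply, h1, basee2Theta_mk hρ hB, map_smul,
      ← Module.End.mul_apply, ← map_mul, ← Module.End.mul_apply, ← map_mul, mul_inv_rev, inv_inv,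
      mul_inv_cancel_left]

omit [AddCommGroup B] [Module k B] in
theorem basee2_scalar (δ : G) (c d : k) : ρ δ⁻¹ c * ρ δ d = d * c := by
  have h1 : ρ δ ((ρ δ⁻¹ c) • d) = (ρ δ⁻¹ c) • ρ δ d := map_smul _ _ _
  have h2 : ρ δ (d • (ρ δ⁻¹ c)) = d • ρ δ (ρ δ⁻¹ c) := map_smul _ _ _
  have h3 : ρ δ (ρ δ⁻¹ c) = c := by
    rw [← Module.End.mul_apply, ← map_mul, mul_inv_cancel, map_one, Module.End.one_apply]
  rw [h3] at h2
  simp only [smul_eq_mul] at h1 h2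
  rw [← h1, mul_comm, h2]

theorem basee2_pair (hρ : ∀ s ∈ U, ρ s = 1) (hB : ∀ s ∈ U, ρB s = 1)
    (φ : A →ₗ[k] B →ₗ[k] k) (hφ : ∀ g a b, φ (ρA g a) (ρB g b) = ρ g (φ a b)) (bs : B)
    (f : G ⧸ U → k) (δ : G) (a0 : A) :
    φ (ρA δ a0) (basee2Theta U ρ ρB bs f (δ : G ⧸ U)) = φ a0 bs * f (δ : G ⧸ U) := by
  rw [basee2Theta_mk hρ hB, map_smul, smul_eq_mul, hφ, basee2_scalar]

end theta

section places

variable {U : Subgroup P.G}

theorem basee2_samePlace_symm {w w' : P.ι × P.G} (h : P.SamePlace U w w') :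
    P.SamePlace U w' w := by
  obtain ⟨v, γ⟩ := w
  obtain ⟨v', γ'⟩ := w'
  obtain ⟨hv, u, hu, h0, hγ⟩ := h
  simp only at hv hγ h0
  subst hv
  refine ⟨rfl, u⁻¹, U.inv_mem hu, h0⁻¹, ?_⟩
  simp only [hγ, map_inv]
  group

theorem basee2_samePlace_trans {w w' w'' : P.ι × P.G} (h : P.SamePlace U w w')
    (h' : P.SamePlace U w' w'') : P.SamePlace U w w'' := by
  obtain ⟨v, γ⟩ := w
  obtain ⟨v', γ'⟩ := w'
  obtain ⟨v'', γ''⟩ := w''
  obtain ⟨hv, u, hu, h0, hγ⟩ := h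
  obtain ⟨hv', u', hu', h0', hγ'⟩ := h'
  simp only at hv hγ h0 hv' hγ' h0'
  subst hv
  subst hv'
  refine ⟨rfl, u' * u, U.mul_mem hu' hu, h0 * h0', ?_⟩
  simp only [hγ', hγ, map_mul]
  group

theorem basee2_samePlace_iff (hUn : U.Normal) (v : P.ι) (γ γ' : P.G) :
    P.SamePlace U (v, γ) (v, γ') ↔
      ((γ'⁻¹ : P.G) : P.G ⧸ U) ∈ Set.range (orbPt (P.r v) U hUn γ) := by
  constructor
  · rintro ⟨-, u, hu, h0, hγ⟩
    simp only at hγ h0
    refine ⟨((h0⁻¹ : P.Gv v) : P.Gv v ⧸ U.comap (P.r v)), ?_⟩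
    rw [orbPt_mk, QuotientGroup.eq, hγ]
    have : (P.r v h0⁻¹ * γ⁻¹)⁻¹ * (u * γ * P.r v h0)⁻¹ = u⁻¹ := by
      simp only [map_inv]
      group
    rw [this]
    exact U.inv_mem hu
  · rintro ⟨c, hc⟩
    induction c using QuotientGroup.induction_on with
    | H h0 =>
      rw [orbPt_mk, QuotientGroup.eq] at hc
      refine ⟨rfl, _, U.inv_mem hc, h0⁻¹, ?_⟩
      simp only [map_inv]
      group

/-- a place-invariant function vanishing outside two different places: its sum over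
representatives of all places -/
theorem basee2_sum_two (hUn : U.Normal)
    (γ : ∀ v : P.ι, Fin (U ⊔ (P.r v).range).index → P.G)
    (hγ : ∀ v, Function.Bijective (fun p : Fin (U ⊔ (P.r v).range).index ×
      (P.Gv v ⧸ U.comap (P.r v)) => orbPt (P.r v) U hUn (γ v p.1) p.2))
    (F : P.ι × P.G → k) (hF : ∀ w w', P.SamePlace U w w' → F w = F w')
    (w₁ w₂ : P.ι × P.G) (hne : ¬ P.SamePlace U w₁ w₂)
    (h0 : ∀ w, ¬ P.SamePlace U w₁ w → ¬ P.SamePlace U w₂ w → F w = 0) :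
    ∑ v, ∑ i, F (v, γ v i) = F w₁ + F w₂ := by
  have hex : ∀ w : P.ι × P.G, ∃ i, P.SamePlace U (w.1, γ w.1 i) w := by
    rintro ⟨v, g⟩
    obtain ⟨⟨i, c⟩, hic⟩ := (hγ v).2 ((g⁻¹ : P.G) : P.G ⧸ U)
    exact ⟨i, (basee2_samePlace_iff P hUn v _ _).2 ⟨c, hic⟩⟩
  have huniq : ∀ (v : P.ι) (g : P.G) (i i' : Fin (U ⊔ (P.r v).range).index),
      P.SamePlace U (v, γ v i) (v, g) → P.SamePlace U (v, γ v i') (v, g) → i = i' := by
    intro v g i i' h h'
    obtain ⟨c, hc⟩ := (basee2_samePlace_iff P hUn v _ _).1 h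
    obtain ⟨c', hc'⟩ := (basee2_samePlace_iff P hUn v _ _).1 h'
    have := (hγ v).1 (a₁ := (i, c)) (a₂ := (i', c')) (hc.trans hc'.symm)
    exact congrArg Prod.fst this
  obtain ⟨i₁, hi₁⟩ := hex w₁
  obtain ⟨i₂, hi₂⟩ := hex w₂
  rw [← hF _ _ hi₁, ← hF _ _ hi₂]
  have hsig : ∑ v, ∑ i, F (v, γ v i) =
      ∑ x : (Σ v : P.ι, Fin (U ⊔ (P.r v).range).index), F (x.1, γ x.1 x.2) :=
    (Fintype.sum_sigma' _).symm
  rw [hsig]
  refine Fintype.sum_eq_add (⟨w₁.1, i₁⟩ : Σ v : P.ι, Fin (U ⊔ (P.r v).range).index)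
    ⟨w₂.1, i₂⟩ ?_ ?_
  · intro heq
    apply hne
    have h3 : P.SamePlace U (w₁.1, γ w₁.1 i₁) (w₂.1, γ w₂.1 i₂) := by
      have : ((⟨w₁.1, i₁⟩ : Σ v : P.ι, Fin (U ⊔ (P.r v).range).index).1,
          γ (⟨w₁.1, i₁⟩ : Σ v : P.ι, Fin (U ⊔ (P.r v).range).index).1
            (⟨w₁.1, i₁⟩ : Σ v : P.ι, Fin (U ⊔ (P.r v).range).index).2) =
          (w₂.1, γ w₂.1 i₂) := by rw [heq]
      rw [show (w₁.1, γ w₁.1 i₁) = (w₂.1, γ w₂.1 i₂) from this]
      exact ⟨rfl, 1, U.one_mem, 1, by simp⟩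
    exact basee2_samePlace_trans P (basee2_samePlace_symm P hi₁)
      (basee2_samePlace_trans P h3 hi₂)
  · rintro ⟨v, i⟩ ⟨hx1, hx2⟩
    apply h0
    · intro hs
      apply hx1
      obtain ⟨v₁, g₁⟩ := w₁
      have hv : v₁ = v := hs.1
      subst hv
      have := huniq v₁ g₁ i i₁ (basee2_samePlace_symm P hs) hi₁
      rw [this]
    · intro hs
      apply hx2
      obtain ⟨v₂, g₂⟩ := w₂
      have hv : v₂ = v := hs.1
      subst hv
      have := huniq v₂ g₂ i i₂ (basee2_samePlace_symm P hs) hi₂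
      rw [this]

end places

section E2

variable (T : Trace P ρμ) (hμ : Smooth ρμ P.lev)
  (hτinj : ∀ v, ∀ f ∈ Z2 (P.levv v) (P.loc ρμ v), T.τ v f = 0 → f ∈ B2 (P.levv v) (P.loc ρμ v))
  {U : Subgroup P.G} (hU : GlobGood P ρμ U)
include hμ hτinj hU

/-- local invariant at the place `(v,γ)` of a global class `ŷ ∈ Z²(G, Map(G/U, μ))` -/
noncomputable def invPl (T : Trace P ρμ) (U : Subgroup P.G) (hUn : U.Normal) (w : P.ι × P.G)
    (y : P.G × P.G → (P.G ⧸ U → k)) : k :=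
  T.τ w.1 (push (sumL (k := k) (A := k) (P.Gv w.1 ⧸ U.comap (P.r w.1)))
    (push (orbMap (k := k) (P.r w.1) U hUn w.2) (res2 (k := k) (P.r w.1) y)))

omit hμ hτinj hU in
/-- the orbit component of a global cocycle is a local cocycle -/
theorem basee2_comp_mem_Z2 (hUn : U.Normal) (w : P.ι × P.G) {y : P.G × P.G → (P.G ⧸ U → k)}
    (hy : y ∈ Z2 P.lev (coind (P.G ⧸ U) ρμ)) :
    push (orbMap (k := k) (P.r w.1) U hUn w.2) (res2 (k := k) (P.r w.1) y) ∈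
      Z2 (P.levv w.1) (coind (P.Gv w.1 ⧸ U.comap (P.r w.1)) (P.loc ρμ w.1)) := by
  have h1 : res2 (k := k) (P.r w.1) y ∈ Z2 (P.levv w.1) ((coind (P.G ⧸ U) ρμ).comp (P.r w.1)) :=
    res2_mem_Z2 (P.r w.1) (P.compat w.1) hy
  exact push_mem_Z2 _ (fun g a => orbMap_equiv (P.r w.1) ρμ U hUn w.2 g a) h1

/-- the invariant at `w` vanishes iff the Shapiro image of `ŷ` is locally trivial at `w` -/
theorem invPl_eq_zero_iff (w : P.ι × P.G) {y : P.G × P.G → (P.G ⧸ U → k)}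
    (hy : y ∈ Z2 P.lev (coind (P.G ⧸ U) ρμ)) :
    invPl P T U hU.normal w y = 0 ↔
      res2 (k := k) (P.locU U hU.normal w.1 w.2) (sh2 (k := k) U y) ∈
        B2 ((P.levv w.1).sub (U.comap (P.r w.1))) (triv k _) := by
  have hf := basee2_comp_mem_Z2 P hU.normal w hy
  have hsm : Smooth (P.loc ρμ w.1) (P.levv w.1) := P.smooth_loc hμ w.1
  have hloc := hU.loc w.1
  have hone : (P.loc ρμ w.1).comp (U.comap (P.r w.1)).subtype = 1 :=
    comp_subtype_eq_one hloc.trivμ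
  have hpc := place_compat2 (P.r w.1) (P.levv w.1) P.lev ρμ U hU.normal (P.compat w.1) hU.mem
    hU.trivμ w.2 hy
  rw [← Sys.locU_eq] at hpc
  constructor
  · intro h0
    have h1 := tau_sum_inj hsm (T.τ_B2 w.1) (hτinj w.1) hloc _ hf h0
    have h2 := sh2_B2 (P.levv w.1) (P.loc ρμ w.1) (U.comap (P.r w.1)) h1
    rw [hone] at h2
    have h3 := triv_push_B2 _ (ρμ w.2) h2
    have h4 := Submodule.add_mem _ hpc h3
    rwa [sub_add_cancel] at h4
  · intro h0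
    have h3 := Submodule.sub_mem _ h0 hpc
    rw [sub_sub_cancel] at h3
    have h4 := triv_push_B2 _ (ρμ w.2⁻¹) h3
    have h5 : push (ρμ w.2⁻¹) (push (ρμ w.2) (sh2 (k := k) (U.comap (P.r w.1))
        (push (orbMap (k := k) (P.r w.1) U hU.normal w.2) (res2 (k := k) (P.r w.1) y)))) =
        sh2 (k := k) (U.comap (P.r w.1))
        (push (orbMap (k := k) (P.r w.1) U hU.normal w.2) (res2 (k := k) (P.r w.1) y)) := by
      ext p
      simp only [push_apply]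
      rw [← Module.End.mul_apply, ← map_mul, inv_mul_cancel, map_one, Module.End.one_apply]
    rw [h5, ← hone] at h4
    have h6 := sh2_inj (P.levv w.1) (P.loc ρμ w.1) (U.comap (P.r w.1)) hloc.mem hsm hf h4
    have hfi := (P.levv w.1).finiteIndex _ hloc.mem
    have : Finite (P.Gv w.1 ⧸ U.comap (P.r w.1)) := Subgroup.finite_quotient_of_finiteIndex
    have h7 := push_mem_B2 (ρB := P.loc ρμ w.1)
      (sumL (k := k) (A := k) (P.Gv w.1 ⧸ U.comap (P.r w.1)))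
      (fun g a => sumL_equiv _ (P.loc ρμ w.1) g a) h6
    exact T.τ_B2 w.1 _ h7

omit hμ hτinj in
/-- the invariant only depends on the place -/
theorem invPl_congr {w w' : P.ι × P.G} (h : P.SamePlace U w w')
    (y : P.G × P.G → (P.G ⧸ U → k)) :
    invPl P T U hU.normal w y = invPl P T U hU.normal w' y := by
  obtain ⟨v, γ⟩ := w
  obtain ⟨v', γ'⟩ := w'
  obtain ⟨hv, u, hu, h0, hγ⟩ := h
  simp only at hv hγ h0
  subst hv
  have hfi := (P.levv v).finiteIndex _ (hU.loc v).mem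
  have : Finite (P.Gv v ⧸ U.comap (P.r v)) := Subgroup.finite_quotient_of_finiteIndex
  cases nonempty_fintype (P.Gv v ⧸ U.comap (P.r v))
  unfold invPl
  congr 1
  ext p
  simp only [push_apply, sumL_apply, orbMap_apply, res2_apply]
  have hrange : Set.range (orbPt (P.r v) U hU.normal γ) =
      Set.range (orbPt (P.r v) U hU.normal γ') :=
    (orbPt_range_eq_iff (P.r v) U hU.normal γ γ').2 ⟨u, hu, h0, hγ⟩
  let e : (P.Gv v ⧸ U.comap (P.r v)) ≃ (P.Gv v ⧸ U.comap (P.r v)) :=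
    (Equiv.ofInjective _ (orbPt_injective (P.r v) U hU.normal γ)).trans
      ((Equiv.setCongr hrange).trans
        (Equiv.ofInjective _ (orbPt_injective (P.r v) U hU.normal γ')).symm)
  refine Fintype.sum_equiv e _ _ (fun c => ?_)
  congr 1
  have h1 := Equiv.apply_ofInjective_symm (orbPt_injective (P.r v) U hU.normal γ')
    (Equiv.setCongr hrange (Equiv.ofInjective _ (orbPt_injective (P.r v) U hU.normal γ) c))
  exact h1.symm

omit hμ hτinj hU in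
/-- splitting a sum over `G/U` according to the orbits of `G_v` -/
theorem basee2_sum_split (hUn : U.Normal) (v : P.ι) [Fintype (P.G ⧸ U)]
    [Fintype (P.Gv v ⧸ U.comap (P.r v))] {M : Type} [AddCommMonoid M] {n : ℕ} (γ : Fin n → P.G)
    (hγ : Function.Bijective (fun p : Fin n × (P.Gv v ⧸ U.comap (P.r v)) =>
      orbPt (P.r v) U hUn (γ p.1) p.2)) (F : P.G ⧸ U → M) :
    ∑ x, F x = ∑ i, ∑ c, F (orbPt (P.r v) U hUn (γ i) c) := by
  rw [← Fintype.sum_prod_type']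
  exact (Fintype.sum_equiv (Equiv.ofBijective _ hγ) _ _ (fun p => rfl)).symm

/-- the sum of all invariants vanishes (reciprocity) -/
theorem sum_invPl [Finite (P.G ⧸ U)]
    (γ : ∀ v : P.ι, Fin (U ⊔ (P.r v).range).index → P.G)
    (hγ : ∀ v, Function.Bijective (fun p : Fin (U ⊔ (P.r v).range).index ×
      (P.Gv v ⧸ U.comap (P.r v)) => orbPt (P.r v) U hU.normal (γ v p.1) p.2))
    {ŷ : P.G × P.G → (P.G ⧸ U → k)} (hŷ : ŷ ∈ Z2 P.lev (coind (P.G ⧸ U) ρμ)) :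
    ∑ v, ∑ i, invPl P T U hU.normal (v, γ v i) ŷ = 0 := by
  cases nonempty_fintype (P.G ⧸ U)
  have hz : push (sumL (k := k) (A := k) (P.G ⧸ U)) ŷ ∈ Z2 P.lev ρμ :=
    push_mem_Z2 _ (fun g a => sumL_equiv _ ρμ g a) hŷ
  have key : ∀ v, ∑ i, invPl P T U hU.normal (v, γ v i) ŷ =
      T.τ v (res2 (k := k) (P.r v) (push (sumL (k := k) (A := k) (P.G ⧸ U)) ŷ)) := by
    intro v
    have hfi := (P.levv v).finiteIndex _ (hU.loc v).mem
    have : Finite (P.Gv v ⧸ U.comap (P.r v)) := Subgroup.finite_quotient_of_finiteIndex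
    cases nonempty_fintype (P.Gv v ⧸ U.comap (P.r v))
    simp only [invPl]
    refine (map_sum (T.τ v) _ _).symm.trans ?_
    congr 1
    ext p
    simp only [Finset.sum_apply, push_apply, sumL_apply, orbMap_apply, res2_apply]
    exact (basee2_sum_split P hU.normal v (γ v) (hγ v)
      (fun x => ŷ (P.r v p.1, P.r v p.2) x)).symm
  simp only [key]
  rw [← T.t_loc _ (fun v => res2_mem_Z2 (P.r v) (P.compat v) hz)]
  apply T.t_B3c
  rw [mem_B3c]
  refine ⟨push (sumL (k := k) (A := k) (P.G ⧸ U)) ŷ, 0, hz.1,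
    fun v => (C1 k (P.levv v) k).zero_mem, ?_⟩
  have hd : d2 ρμ (push (sumL (k := k) (A := k) (P.G ⧸ U)) ŷ) = 0 := hz.2
  rw [hd]
  simp

/-- KEY FORMULA.  For `b_v ∈ Map(G/U,A)^{G_v}`, `b* ∈ B`, `ŷ ∈ Z²(G,Map(G/U,μ))` there is
`y ∈ Z²(G,Map(G/U,B))` with
`∑_v τ_v(b_v ∪ y_v) = ∑_v ∑_{i} φ(γ_{v,i} b_v(γ_{v,i}⁻¹U), b*) inv_{(v,γ_{v,i})}(ŷ)`,
the inner sum over representatives of the places above `v`. -/
theorem E2_formula (D : DualPair k P.G ρμ) (hD : D.TrivOn U) [Finite (P.G ⧸ U)]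
    (γ : ∀ v : P.ι, Fin (U ⊔ (P.r v).range).index → P.G)
    (hγ : ∀ v, Function.Bijective (fun p : Fin (U ⊔ (P.r v).range).index ×
      (P.Gv v ⧸ U.comap (P.r v)) => orbPt (P.r v) U hU.normal (γ v p.1) p.2))
    (bs : D.B) {ŷ : P.G × P.G → (P.G ⧸ U → k)} (hŷ : ŷ ∈ Z2 P.lev (coind (P.G ⧸ U) ρμ)) :
    ∃ y ∈ Z2 P.lev (coind (P.G ⧸ U) D.ρB), ∀ b : P.ι → (P.G ⧸ U → D.A),
      (∀ v, b v ∈ Z0 (P.loc (coind (P.G ⧸ U) D.ρA) v)) →
      ∑ v, T.τ v (cup02 (DualPair.sumPair (P.G ⧸ U) D.φ) (b v) (res2 (k := k) (P.r v) y)) =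
        ∑ v, ∑ i, D.φ (D.ρA (γ v i) (b v (((γ v i)⁻¹ : P.G) : P.G ⧸ U))) bs *
          invPl P T U hU.normal (v, γ v i) ŷ := by
  cases nonempty_fintype (P.G ⧸ U)
  refine ⟨push (basee2Theta U ρμ D.ρB bs) ŷ,
    push_mem_Z2 _ (fun g a => basee2Theta_equiv hU.trivμ hD.2 bs g a) hŷ, fun b hb => ?_⟩
  refine Finset.sum_congr rfl fun v _ => ?_
  have hfi := (P.levv v).finiteIndex _ (hU.loc v).mem
  have : Finite (P.Gv v ⧸ U.comap (P.r v)) := Subgroup.finite_quotient_of_finiteIndex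
  cases nonempty_fintype (P.Gv v ⧸ U.comap (P.r v))
  simp only [invPl]
  have h1 : ∀ (c : Fin (U ⊔ (P.r v).range).index → k)
      (F : Fin (U ⊔ (P.r v).range).index → (P.Gv v × P.Gv v → k)),
      ∑ i, c i * T.τ v (F i) = T.τ v (∑ i, c i • F i) := by
    intro c F
    simp [map_sum, map_smul]
  rw [h1]
  congr 1
  ext p
  simp only [cup02_apply, DualPair.sumPair_apply, res2_apply, push_apply, Finset.sum_apply,
    Pi.smul_apply, sumL_apply, orbMap_apply, smul_eq_mul, Finset.mul_sum]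
  rw [basee2_sum_split P hU.normal v (γ v) (hγ v)]
  refine Finset.sum_congr rfl fun i _ => Finset.sum_congr rfl fun c _ => ?_
  induction c using QuotientGroup.induction_on with
  | H h' =>
    rw [orbPt_mk]
    have hinv := congrFun ((mem_Z0.1 (hb v)) h') ((P.r v h' * (γ v i)⁻¹ : P.G) : P.G ⧸ U)
    have h2 : (P.r v h')⁻¹ • ((P.r v h' * (γ v i)⁻¹ : P.G) : P.G ⧸ U) =
        (((γ v i)⁻¹ : P.G) : P.G ⧸ U) := by
      change (((P.r v h')⁻¹ * (P.r v h' * (γ v i)⁻¹) : P.G) : P.G ⧸ U) = _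
      rw [inv_mul_cancel_left]
    have h3 : b v ((P.r v h' * (γ v i)⁻¹ : P.G) : P.G ⧸ U) =
        D.ρA (P.r v h' * (γ v i)⁻¹) (D.ρA (γ v i) (b v (((γ v i)⁻¹ : P.G) : P.G ⧸ U))) := by
      rw [← hinv]
      change D.ρA (P.r v h') (b v ((P.r v h')⁻¹ • ((P.r v h' * (γ v i)⁻¹ : P.G) : P.G ⧸ U))) = _
      rw [h2, ← Module.End.mul_apply, ← map_mul, inv_mul_cancel_right]
    rw [h3]
    exact basee2_pair D.ρA hU.trivμ hD.2 D.φ D.equiv bs _ _ _

omit hμ hτinj hU in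
/-- `β(v,γ) = γ b_v(γ⁻¹U)` only depends on the place -/
theorem basee2_beta_congr {A : Type} [AddCommGroup A] [Module k A] (ρA : Representation k P.G A)
    (hA : ∀ s ∈ U, ρA s = 1) (b : P.ι → (P.G ⧸ U → A))
    (hb : ∀ v, b v ∈ Z0 (P.loc (coind (P.G ⧸ U) ρA) v)) {w w' : P.ι × P.G}
    (h : P.SamePlace U w w') :
    ρA w.2 (b w.1 ((w.2⁻¹ : P.G) : P.G ⧸ U)) = ρA w'.2 (b w'.1 ((w'.2⁻¹ : P.G) : P.G ⧸ U)) := by
  obtain ⟨v, γ⟩ := w
  obtain ⟨v', γ'⟩ := w'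
  obtain ⟨hv, u, hu, h0, hγ⟩ := h
  simp only at hv hγ h0
  subst hv
  simp only
  have hinv := congrFun ((mem_Z0.1 (hb v)) h0) ((γ⁻¹ : P.G) : P.G ⧸ U)
  have h1 : b v ((γ⁻¹ : P.G) : P.G ⧸ U) =
      ρA (P.r v h0) (b v ((P.r v h0)⁻¹ • ((γ⁻¹ : P.G) : P.G ⧸ U))) := hinv.symm
  have h2 : (P.r v h0)⁻¹ • ((γ⁻¹ : P.G) : P.G ⧸ U) = ((γ'⁻¹ : P.G) : P.G ⧸ U) := by
    change (((P.r v h0)⁻¹ * γ⁻¹ : P.G) : P.G ⧸ U) = _
    rw [QuotientGroup.eq, hγ]
    have : ((P.r v h0)⁻¹ * γ⁻¹)⁻¹ * (u * γ * P.r v h0)⁻¹ = u⁻¹ := by group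
    rw [this]
    exact U.inv_mem hu
  rw [h1, h2, hγ, map_mul, map_mul, hA u hu, one_mul, Module.End.mul_apply]

/-- (E2) for the coinduced pair -/
theorem base_E2 (D : DualPair k P.G ρμ) (hD : D.TrivOn U) [Finite (P.G ⧸ U)] :
    E2 P T (D.coind (P.G ⧸ U)) := by
  intro b hb hann
  change P.ι → (P.G ⧸ U → D.A) at b
  change ∀ v, b v ∈ Z0 (P.loc (coind (P.G ⧸ U) D.ρA) v) at hb
  change ∀ y ∈ Z2 P.lev (coind (P.G ⧸ U) D.ρB), ∑ v, T.τ v (cup02
    (DualPair.sumPair (P.G ⧸ U) D.φ) (b v) (res2 (k := k) (P.r v) y)) = 0 at hann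
  change ∃ a ∈ Z0 (coind (P.G ⧸ U) D.ρA), ∀ v, b v = a
  have hfi : U.FiniteIndex := P.lev.finiteIndex U hU.mem
  choose γ hγ using fun v => exists_orbit_reps (P.r v) U hU.normal hfi
  let β : P.ι × P.G → D.A := fun w => D.ρA w.2 (b w.1 ((w.2⁻¹ : P.G) : P.G ⧸ U))
  have hβ : ∀ w w', P.SamePlace U w w' → β w = β w' :=
    fun w w' h => basee2_beta_congr P D.ρA hD.1 b hb h
  have hone : ρμ.comp U.subtype = 1 := comp_subtype_eq_one hU.trivμ
  have hmain : ∀ w₁ w₂, β w₁ = β w₂ := by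
    intro w₁ w₂
    by_cases hs : P.SamePlace U w₁ w₂
    · exact hβ _ _ hs
    obtain ⟨y0, hy0, htriv, hnon⟩ := hU.ex w₁ w₂ hs
    obtain ⟨ŷ, hŷ, hsh⟩ := sh2_surj P.lev ρμ U hU.mem hμ (x := y0) (by rw [hone]; exact hy0)
    have hinv0 : ∀ w, ¬ P.SamePlace U w₁ w → ¬ P.SamePlace U w₂ w →
        invPl P T U hU.normal w ŷ = 0 := fun w h1 h2 =>
      (invPl_eq_zero_iff P T hμ hτinj hU w hŷ).2 (by rw [hsh]; exact htriv w h1 h2)
    have hinvne : invPl P T U hU.normal w₁ ŷ ≠ 0 ∨ invPl P T U hU.normal w₂ ŷ ≠ 0 := by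
      rcases hnon with h | h
      · left
        intro h0
        exact h (by rw [← hsh]; exact (invPl_eq_zero_iff P T hμ hτinj hU w₁ hŷ).1 h0)
      · right
        intro h0
        exact h (by rw [← hsh]; exact (invPl_eq_zero_iff P T hμ hτinj hU w₂ hŷ).1 h0)
    have hsum1 : invPl P T U hU.normal w₁ ŷ + invPl P T U hU.normal w₂ ŷ = 0 := by
      rw [← basee2_sum_two P hU.normal γ hγ (fun w => invPl P T U hU.normal w ŷ)
        (fun w w' h => invPl_congr P T hU h ŷ) w₁ w₂ hs hinv0]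
      exact sum_invPl P T hμ hτinj hU γ hγ hŷ
    rw [← sub_eq_zero]
    refine D.left _ fun bs => ?_
    obtain ⟨y, hy, hform⟩ := E2_formula P T hμ hτinj hU D hD γ hγ bs hŷ
    have hsum2 : D.φ (β w₁) bs * invPl P T U hU.normal w₁ ŷ +
        D.φ (β w₂) bs * invPl P T U hU.normal w₂ ŷ = 0 := by
      rw [← basee2_sum_two P hU.normal γ hγ
        (fun w => D.φ (β w) bs * invPl P T U hU.normal w ŷ)
        (fun w w' h => by simp only [hβ w w' h, invPl_congr P T hU h ŷ]) w₁ w₂ hs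
        (fun w h1 h2 => by simp only [hinv0 w h1 h2, mul_zero])]
      rw [← hann y hy, hform b hb]
    have h2 : invPl P T U hU.normal w₂ ŷ = - invPl P T U hU.normal w₁ ŷ := by
      rw [eq_neg_iff_add_eq_zero, add_comm]
      exact hsum1
    have h1ne : invPl P T U hU.normal w₁ ŷ ≠ 0 := by
      rcases hinvne with h | h
      · exact h
      · intro h0
        exact h (by rw [h2, h0, neg_zero])
    rw [h2] at hsum2
    have h3 : (D.φ (β w₁) bs - D.φ (β w₂) bs) * invPl P T U hU.normal w₁ ŷ = 0 := by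
      rw [← hsum2]
      ring
    rw [map_sub, LinearMap.sub_apply]
    exact (mul_eq_zero.1 h3).resolve_right h1ne
  rcases isEmpty_or_nonempty P.ι with hι | ⟨⟨v₀⟩⟩
  · exact ⟨0, Submodule.zero_mem _, fun v => isEmptyElim v⟩
  let a0 : D.A := β (v₀, 1)
  have hout : ∀ δ : P.G, D.ρA ((δ : P.G ⧸ U).out) a0 = D.ρA δ a0 := by
    intro δ
    obtain ⟨u, hu⟩ := QuotientGroup.mk_out_eq_mul U δ
    rw [hu, map_mul, hD.1 u u.2, mul_one]
  refine ⟨fun x => D.ρA x.out a0, ?_, fun v => ?_⟩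
  · rw [mem_Z0]
    intro g
    ext x
    induction x using QuotientGroup.induction_on with
    | H δ =>
      have h1 : g⁻¹ • (δ : P.G ⧸ U) = ((g⁻¹ * δ : P.G) : P.G ⧸ U) := rfl
      rw [coind_apply, h1, hout, hout, ← Module.End.mul_apply, ← map_mul, mul_inv_cancel_left]
  · ext x
    induction x using QuotientGroup.induction_on with
    | H δ =>
      rw [hout]
      have h1 : β (v, δ⁻¹) = a0 := hmain _ _
      have h2 : D.ρA δ⁻¹ (b v (δ : P.G ⧸ U)) = a0 := by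
        rw [← h1]
        simp only [β, inv_inv]
      rw [← h2, ← Module.End.mul_apply, ← map_mul, mul_inv_cancel, map_one, Module.End.one_apply]

end E2

end Fermat.Agent.S55
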