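import Fermat.Agent.S55.T.Count

/-!
# S55-T : (S3) the base case by counting, part 2
`A1Lsurj_of_count`, `A2_of_count`, `base_of_count`.
-/

set_option autoImplicit false

namespace Fermat.Agent.S55

section aux

variable {k : Type} [Field k] (P : Sys) {A : Type} [AddCommGroup A] [Module k A]
  (ρ : Representation k P.G A)

/-- cone 1-cocycles whose global component is a coboundary -/
def count2BX : Submodule k ((P.G → A) × (P.ι → A)) :=
  Z1c P ρ ⊓ (B1 ρ).comap (LinearMap.fst k _ _)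

theorem count2_mem_BX {x : (P.G → A) × (P.ι → A)} :
    x ∈ count2BX P ρ ↔ x ∈ Z1c P ρ ∧ x.1 ∈ B1 ρ := Iff.rfl

/-- the first projection `Z¹_c → Sha¹ / B¹` -/
def count2Fst : ↥(Z1c P ρ) →ₗ[k] ShaH1 P ρ :=
  (Submodule.mkQ _).comp (((LinearMap.fst k _ _).comp (Z1c P ρ).subtype).codRestrict (Sha1 P ρ)
    (fun x => (mem_Sha1_iff_exists P).2 ⟨x.1.2, x.2⟩))

theorem count2Fst_surjective : Function.Surjective (count2Fst P ρ) := by
  intro q
  obtain ⟨y, rfl⟩ := Submodule.mkQ_surjective _ q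
  obtain ⟨b, hb⟩ := (mem_Sha1_iff_exists P).1 y.2
  exact ⟨⟨(y.1, b), hb⟩, rfl⟩

theorem count2Fst_ker :
    LinearMap.ker (count2Fst P ρ) = (count2BX P ρ).comap (Z1c P ρ).subtype := by
  ext x
  simp only [count2Fst, LinearMap.mem_ker, LinearMap.comp_apply, Submodule.mkQ_apply,
    Submodule.Quotient.mk_eq_zero, Submodule.mem_comap, count2_mem_BX]
  constructor
  · intro h
    exact ⟨x.2, h⟩
  · intro h
    exact h.2

theorem count2_finrank :
    Module.finrank k (↥(Z1c P ρ) ⧸ (count2BX P ρ).comap (Z1c P ρ).subtype) =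
      Module.finrank k (ShaH1 P ρ) := by
  rw [← count2Fst_ker]
  exact ((count2Fst P ρ).quotKerEquivOfSurjective (count2Fst_surjective P ρ)).finrank_eq

/-- an element of `count2BX` is a cone coboundary plus `(0, c)` with `c` locally invariant -/
theorem count2_BX_decomp {x : (P.G → A) × (P.ι → A)} (hx : x ∈ count2BX P ρ) :
    ∃ (a : A) (c : P.ι → A), (∀ v, c v ∈ Z0 (P.loc ρ v)) ∧ x = coneD0 P ρ a + (0, c) := by
  obtain ⟨hx1, a, ha⟩ := hx
  replace ha : d0 ρ a = x.1 := ha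
  refine ⟨a, fun v => x.2 v - a, fun v => ?_, ?_⟩
  · have h := ((mem_Z1c P).1 hx1).2 v
    rw [← ha, res1_d0] at h
    show d0 (P.loc ρ v) (x.2 v - a) = 0
    rw [map_sub, ← h, sub_self]
  · ext1
    · simp [ha]
    · funext v
      simp

end aux

variable {k : Type} [Field k] (P : Sys) {ρμ : Representation k P.G k}
  (T : Trace P ρμ) (I : DualPair k P.G ρμ) (hI : I.IsSmooth P.lev)
  (hLD : ∀ v, LPerfect (P.levv v) (T.τ v) (I.res (P.r v)))

include hI in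
/-- `L1` kills `count2BX × Sha²` -/
theorem count2_L1_BX {x} (hx : x ∈ count2BX P I.ρA) {y} (hy : y ∈ Sha2 P I.ρB) :
    T.t (L1 P I x y) = 0 := by
  obtain ⟨a, c, hc, rfl⟩ := count2_BX_decomp P I.ρA hx
  have hy' := (mem_Sha2 P).1 hy
  rw [map_add, LinearMap.add_apply, map_add,
    t_L1_B1c P I T hI (LinearMap.mem_range_self _ a) hy'.1, t_L1_zero P I T hI hc hy'.1, zero_add]
  refine Finset.sum_eq_zero fun v _ => T.τ_B2 v _ ?_
  exact cup02_mem_B2 (ρA := P.loc I.ρA v) (ρB := P.loc I.ρB v) (ρM := P.loc ρμ v)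
    (fun g a b => I.equiv (P.r v g) a b) (hc v) (hy'.2 v)

include hI in
/-- `R1` kills `Sha² × count2BX` -/
theorem count2_R1_BX {a} (ha : a ∈ Sha2 P I.ρA) {y} (hy : y ∈ count2BX P I.ρB) :
    T.t (R1 P I a y) = 0 := by
  obtain ⟨b, c, hc, rfl⟩ := count2_BX_decomp P I.ρB hy
  have ha' := (mem_Sha2 P).1 ha
  rw [map_add, map_add,
    t_R1_B1c P I T hI ha'.1 (LinearMap.mem_range_self _ b), t_R1_zero P I T hI ha'.1 hc, zero_add]
  refine Finset.sum_eq_zero fun v _ => T.τ_B2 v _ ?_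
  exact cup20_mem_B2 (ρA := P.loc I.ρA v) (ρB := P.loc I.ρB v) (ρM := P.loc ρμ v)
    (fun g a b => I.equiv (P.r v g) a b) (P.smooth_loc hI.2 v) (ha'.2 v) (hc v)

include hI hLD

/-- `α¹(I)` is surjective -/
theorem A1Lsurj_of_count (h1L : A1L P T I)
    (hfin : FiniteDimensional k (ShaH2 P I.ρB))
    (hdim : Module.finrank k (ShaH2 P I.ρB) ≤ Module.finrank k (ShaH1 P I.ρA)) :
    A1Lsurj P T I := by
  intro l hl
  -- the pairing
  set β : (P.G → I.A) × (P.ι → I.A) →ₗ[k] (P.G × P.G → I.B) →ₗ[k] k :=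
    (L1 P I).compr₂ T.t with hβ
  have hβa : ∀ x y, β x y = T.t (L1 P I x y) := fun x y => rfl
  -- right non-degeneracy
  have hright : ∀ y ∈ Sha2 P I.ρB, (∀ x ∈ Z1c P I.ρA, β x y = 0) → y ∈ B2 P.lev I.ρB := by
    refine nondeg_left_of_right β.flip (Sha2 P I.ρB) (B2 P.lev I.ρB) (Z1c P I.ρA)
      (count2BX P I.ρA) ?_ ?_ ?_ ?_
    · intro y hy x hx
      exact t_L1_B2 P I T hI hx hy
    · intro y hy x hx
      exact count2_L1_BX P T I hI hx hy
    · intro x hx h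
      exact ⟨hx, sha_left_L1 P T I hI hLD h1L x hx h⟩
    · rw [count2_finrank]
      exact hdim
  -- a first approximation
  obtain ⟨x0, hx0, hx0l⟩ := surj_of_nondeg β (Z1c P I.ρA) (Sha2 P I.ρB) (B2 P.lev I.ρB)
    (fun x hx y hy => t_L1_B2 P I T hI hx hy) hright l hl
  -- the difference is a sum of local functionals
  obtain ⟨l', hl'B, hl'⟩ := exists_local_functionals
    (fun v => res2 (k := k) (A := I.B) (P.r v)) (Z2 P.lev I.ρB)
    (fun v => B2 (P.levv v) (P.loc I.ρB v)) (l - β x0) (by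
      intro z hz hzv
      rw [LinearMap.sub_apply, hx0l z ((mem_Sha2 P).2 ⟨hz, hzv⟩), sub_self])
  have hsurj : ∀ v, ∃ e ∈ Z0 (P.loc I.ρA v), ∀ f ∈ Z2 (P.levv v) (P.loc I.ρB v),
      T.τ v (cup02 I.φ e f) = l' v f := fun v =>
    LPerfect.surj0 (D := I.res (P.r v)) (T.τ_B2 v)
      ⟨P.smooth_loc hI.1 v, P.smooth_loc hI.2 v⟩ (hLD v) (l' v) (hl'B v)
  choose e he hel using hsurj
  have h0e : ((0 : P.G → I.A), e) ∈ Z1c P I.ρA := by
    refine (mem_Z1c P).2 ⟨Submodule.zero_mem _, fun v => ?_⟩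
    rw [map_zero]
    exact (he v).symm
  refine ⟨x0 + (0, e), Submodule.add_mem _ hx0 h0e, fun y hy => ?_⟩
  rw [map_add, LinearMap.add_apply, map_add, t_L1_zero P I T hI he hy]
  have h1 := hl' y hy
  rw [LinearMap.sub_apply, hβa] at h1
  have h2 : ∑ v, T.τ v (cup02 I.φ (e v) (res2 (k := k) (P.r v) y)) =
      ∑ v, l' v (res2 (k := k) (P.r v) y) :=
    Finset.sum_congr rfl fun v _ => hel v _ (res2_mem_Z2 (P.r v) (P.compat v) hy)
  rw [h2, ← h1]
  abel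

/-- `α²(I)` is injective -/
theorem A2_of_count (h1R : A1R P T I)
    (hfin : FiniteDimensional k (ShaH2 P I.ρA))
    (hdim : Module.finrank k (ShaH2 P I.ρA) ≤ Module.finrank k (ShaH1 P I.ρB))
    (hME : ∀ b : (∀ v : P.ι, P.Gv v → I.A), (∀ v, b v ∈ Z1 (P.levv v) (P.loc I.ρA v)) →
      (∀ y ∈ Z1 P.lev I.ρB,
        ∑ v, T.τ v (cup11 (P.loc I.ρB v) I.φ (b v) (res1 (k := k) (P.r v) y)) = 0) →
      ∃ x ∈ Z1 P.lev I.ρA, ∀ v, b v - res1 (k := k) (P.r v) x ∈ B1 (P.loc I.ρA v)) :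
    A2 P T I := by
  intro x hx hxy
  set β : (P.G × P.G → I.A) →ₗ[k] (P.G → I.B) × (P.ι → I.B) →ₗ[k] k :=
    (R1 P I).compr₂ T.t with hβ
  -- left non-degeneracy of `R1` on `Sha²(A) × Z¹_c(B)`
  have hleft : ∀ a ∈ Sha2 P I.ρA, (∀ y ∈ Z1c P I.ρB, β a y = 0) → a ∈ B2 P.lev I.ρA := by
    refine nondeg_left_of_right β (Sha2 P I.ρA) (B2 P.lev I.ρA) (Z1c P I.ρB)
      (count2BX P I.ρB) ?_ ?_ ?_ ?_
    · intro a ha y hy
      exact t_R1_B2 P I T hI ha hy
    · intro a ha y hy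
      exact count2_R1_BX P T I hI ha hy
    · intro y hy h
      exact ⟨hy, sha_right_R1 P T I hI hLD h1R y hy h⟩
    · rw [count2_finrank]
      exact hdim
  -- the global component is a coboundary
  have hx1 : x.1 ∈ B2 P.lev I.ρA := by
    refine hleft x.1 ((mem_Sha2_iff_exists P).2 ⟨x.2, hx⟩) fun y hy => ?_
    show T.t (R1 P I x.1 y) = 0
    rw [← t_L2_eq_R1 P I T hI hx hy]
    exact hxy y.1 ((mem_Z1c P).1 hy).1
  obtain ⟨α, hα, hαx⟩ := hx1
  have hαB : coneD1 P I.ρA (α, 0) ∈ B2c P I.ρA :=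
    Submodule.mem_map_of_mem (show (α, (0 : P.ι → I.A)) ∈ CC1 k P I.A from ⟨hα, trivial⟩)
  -- the difference
  set b' : ∀ v : P.ι, P.Gv v → I.A := fun v => x.2 v - res1 (k := k) (P.r v) α with hb'
  have hdiff : x - coneD1 P I.ρA (α, 0) = (0, b') := by
    ext1
    · simp [hαx]
    · funext v
      simp [hb']
  have hZ : ((0 : P.G × P.G → I.A), b') ∈ Z2c P I.ρA := by
    rw [← hdiff]
    exact Submodule.sub_mem _ hx (B2c_le_Z2c P hI.1 hαB)
  have hb'Z : ∀ v, b' v ∈ Z1 (P.levv v) (P.loc I.ρA v) := by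
    intro v
    obtain ⟨-, h1, h2⟩ := (mem_Z2c P).1 hZ
    refine ⟨h1 v, ?_⟩
    have := h2 v
    rw [map_zero] at this
    exact this.symm
  obtain ⟨x1, hx1, hx1b⟩ := hME b' hb'Z (by
    intro y hy
    rw [← t_L2_zero P I T hI hb'Z hy, ← hdiff, map_sub, LinearMap.sub_apply, map_sub, hxy y hy,
      t_L2_B2c P I T hI hαB hy, sub_self])
  choose γ hγ using hx1b
  have h0b : ((0 : P.G × P.G → I.A), b') ∈ B2c P I.ρA := by
    refine (mem_B2c P).2 ⟨x1, fun v => - γ v, hx1.1, ?_⟩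
    ext1
    · exact hx1.2.symm
    · funext v
      show b' v = res1 (k := k) (P.r v) x1 - d0 (P.loc I.ρA v) (- γ v)
      rw [map_neg, hγ v]
      abel
  have : x = coneD1 P I.ρA (α, 0) + (0, b') := by
    rw [← hdiff]; abel
  rw [this]
  exact Submodule.add_mem _ hαB h0b

/-- (S3) -/
theorem base_of_count (h1L : A1L P T I) (h1R : A1R P T I) (n m : ℕ)
    (hX1A : ∃ φ : (Fin (n + m) → k) →ₗ[k] HH1 P.lev I.ρA, Function.Injective φ)
    (hX1B : ∃ φ : (Fin (n + m) → k) →ₗ[k] HH1 P.lev I.ρB, Function.Injective φ)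
    (hX2 : ∑ v, Module.finrank k (HH1 (P.levv v) (P.loc I.ρA v)) ≤ 2 * n)
    (hX3A : Module.rank k (ShaH2 P I.ρA) ≤ (m : Cardinal))
    (hX3B : Module.rank k (ShaH2 P I.ρB) ≤ (m : Cardinal)) :
    A1Lsurj P T I ∧ A2 P T I := by
  obtain ⟨⟨-, -, hf2A, hf2B, h1A, h1B, h2A, h2B⟩, hME⟩ :=
    count_main P T I hI hLD h1L h1R n m hX1A hX1B hX2 hX3A hX3B
  exact ⟨A1Lsurj_of_count P T I hI hLD h1L hf2B (by rw [h2B, h1A]),
    A2_of_count P T I hI hLD h1R hf2A (by rw [h2A, h1B]) hME⟩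

end Fermat.Agent.S55
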