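import Fermat.Agent.S55.T.BaseLoc
import Fermat.Agent.S55.T.Count2
import Fermat.Agent.S55.T.BaseE2

/-!
# S55-T : the global base case: `GlobGood U` ⟹ (E2), (X1), (X2), (X3) for `Map(G/U, D)`,
`D` trivial on `U`
-/

set_option autoImplicit false

namespace Fermat.Agent.S55

variable {k : Type} [Field k] (P : Sys) {ρμ : Representation k P.G k}

section const

variable {A : Type} [AddCommGroup A] [Module k A] (ρ : Representation k P.G A)

/-- a 1-cocycle vanishing on the normal subgroup `U` (acting trivially on `A`) becomes a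
coboundary in `Map(G/U, A)`: `const ∘ a = d0 φ`, `φ(xU) = - a(x)`. -/
theorem const_mem_B1 {U : Subgroup P.G} (hU : U.Normal) (hρ : ∀ s ∈ U, ρ s = 1) {a : P.G → A}
    (ha : d1 ρ a = 0) (ha0 : ∀ s ∈ U, a s = 0) :
    push (constL (k := k) (P.G ⧸ U)) a ∈ B1 (coind (P.G ⧸ U) ρ) := by
  have hwd : ∀ x y : P.G, (QuotientGroup.leftRel U) x y → -a x = -a y := by
    intro x y hxy
    have h1 : x⁻¹ * y ∈ U := QuotientGroup.leftRel_apply.mp hxy
    have h2 : y = x * (x⁻¹ * y) := by group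
    rw [h2, Z1_mul ha, ha0 _ h1, map_zero, add_zero]
  refine ⟨Quotient.lift (s := QuotientGroup.leftRel U) (fun x => -a x) hwd, ?_⟩
  ext g c
  induction c using QuotientGroup.induction_on with
  | H x =>
    have h3 : (g⁻¹ • (x : P.G ⧸ U)) = ((g⁻¹ * x : P.G) : P.G ⧸ U) := rfl
    simp only [d0_apply, Pi.sub_apply, coind_apply, push_apply, constL_apply, h3]
    show ρ g (-a (g⁻¹ * x)) - (-a x) = a g
    have h4 : a x = a g + ρ g (a (g⁻¹ * x)) := by
      rw [← Z1_mul ha]; congr 1; group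
    rw [h4, map_neg]; abel

end const

private theorem baseGlob_finrank_quot_le {M T : Type} [AddCommGroup M] [Module k M]
    [AddCommGroup T] [Module k T] [FiniteDimensional k T] (Ψ : M →ₗ[k] T) (N : Submodule k M)
    (h : LinearMap.ker Ψ ≤ N) :
    FiniteDimensional k (M ⧸ N) ∧ Module.finrank k (M ⧸ N) ≤ Module.finrank k T := by
  have e : (M ⧸ LinearMap.ker Ψ) ≃ₗ[k] ↥(LinearMap.range Ψ) := Ψ.quotKerEquivRange
  have : FiniteDimensional k (M ⧸ LinearMap.ker Ψ) := e.symm.finiteDimensional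
  have hs : Function.Surjective (Submodule.factor h) := Submodule.factor_surjective h
  have : FiniteDimensional k (M ⧸ N) := Module.Finite.of_surjective _ hs
  refine ⟨inferInstance, ?_⟩
  calc Module.finrank k (M ⧸ N) ≤ Module.finrank k (M ⧸ LinearMap.ker Ψ) :=
        LinearMap.finrank_le_finrank_of_surjective hs
    _ = Module.finrank k ↥(LinearMap.range Ψ) := e.finrank_eq
    _ ≤ Module.finrank k T := Submodule.finrank_le _

private theorem baseGlob_rank_quot_le {M T : Type} [AddCommGroup M] [Module k M] [AddCommGroup T]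
    [Module k T] (Ψ : M →ₗ[k] T) (N : Submodule k M) (N' : Submodule k T)
    (h1 : N ≤ N'.comap Ψ) (h2 : N'.comap Ψ ≤ N) :
    Module.rank k (M ⧸ N) ≤ Module.rank k (T ⧸ N') := by
  refine LinearMap.rank_le_of_injective (Submodule.mapQ N N' Ψ h1) ?_
  rw [← LinearMap.ker_eq_bot, LinearMap.ker_eq_bot']
  intro x hx
  induction x using Submodule.Quotient.induction_on with
  | H x =>
    rw [Submodule.mapQ_apply, Submodule.Quotient.mk_eq_zero] at hx
    rw [Submodule.Quotient.mk_eq_zero]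
    exact h2 hx

section X

variable {U : Subgroup P.G} (hUm : U ∈ P.lev.mem) (hU : U.Normal)
variable {A : Type} [AddCommGroup A] [Module k A] [FiniteDimensional k A]
  (ρ : Representation k P.G A) (hρ : ∀ s ∈ U, ρ s = 1)
include hUm hU hρ

/-- (X1) -/
theorem base_X1 (n : ℕ)
    (h : ∃ φ : (Fin n → k) →ₗ[k] (↥U → k), Function.Injective φ ∧
      ∀ x, φ x ∈ Z1 (P.lev.sub U) (triv k ↥U)) :
    ∃ φ : (Fin (n * Module.finrank k A) → k) →ₗ[k] HH1 P.lev (coind (P.G ⧸ U) ρ),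
      Function.Injective φ := by
  obtain ⟨φ, hφi, hφ⟩ := triv_indep_Z1 (P.lev.sub U) (A := A) n h
  have h1 : ρ.comp U.subtype = 1 := comp_subtype_eq_one hρ
  have hsm : Smooth ρ P.lev := ⟨U, hUm, hρ⟩
  have hex : ∀ i : Fin (n * Module.finrank k A), ∃ f ∈ Z1 P.lev (coind (P.G ⧸ U) ρ),
      sh1 (k := k) U f = φ (Pi.single i 1) := by
    intro i
    refine sh1_surj P.lev ρ U hUm hsm ?_
    rw [h1]; exact hφ _
  choose f hf hfs using hex
  let ψ : (Fin (n * Module.finrank k A) → k) →ₗ[k] ↥(Z1 P.lev (coind (P.G ⧸ U) ρ)) :=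
    (Pi.basisFun k _).constr k (fun i => (⟨f i, hf i⟩ : ↥(Z1 P.lev (coind (P.G ⧸ U) ρ))))
  have hψ : (sh1 (k := k) U) ∘ₗ (Z1 P.lev (coind (P.G ⧸ U) ρ)).subtype ∘ₗ ψ = φ := by
    refine (Pi.basisFun k _).ext fun i => ?_
    rw [LinearMap.comp_apply, LinearMap.comp_apply, Module.Basis.constr_basis,
      Submodule.subtype_apply, Pi.basisFun_apply, hfs]
  refine ⟨(Submodule.mkQ _) ∘ₗ ψ, ?_⟩
  rw [← LinearMap.ker_eq_bot, LinearMap.ker_eq_bot']
  intro x hx
  rw [LinearMap.comp_apply, Submodule.mkQ_apply, Submodule.Quotient.mk_eq_zero] at hx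
  have h2 : ((ψ x : ↥(Z1 P.lev (coind (P.G ⧸ U) ρ))) : P.G → (P.G ⧸ U → A)) ∈
      B1 (coind (P.G ⧸ U) ρ) := hx
  have h3 := sh1_B1 ρ U h2
  rw [h1] at h3
  have h4 := triv_B1 h3
  have h5 : φ x = 0 := by
    rw [← hψ]; exact h4
  exact hφi (by rw [h5, map_zero])

/-- (X2), one place -/
theorem base_X2 (v : P.ι)
    [FiniteDimensional k ↥(Z1 ((P.levv v).sub (U.comap (P.r v))) (triv k _))] :
    FiniteDimensional k (HH1 (P.levv v) (P.loc (coind (P.G ⧸ U) ρ) v)) ∧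
    Module.finrank k (HH1 (P.levv v) (P.loc (coind (P.G ⧸ U) ρ) v)) ≤
      (U ⊔ (P.r v).range).index *
        Module.finrank k ↥(Z1 ((P.levv v).sub (U.comap (P.r v))) (triv k _)) *
        Module.finrank k A := by
  obtain ⟨γ, hγ⟩ := exists_orbit_reps (P.r v) U hU (P.lev.finiteIndex U hUm)
  have h1 : ((ρ.comp (P.r v)).comp (U.comap (P.r v)).subtype) = 1 :=
    comp_subtype_eq_one (ρ := ρ.comp (P.r v)) (V := U.comap (P.r v)) (fun s hs => hρ _ hs)
  obtain ⟨hfd, hfr⟩ := triv_finrank_Z1 ((P.levv v).sub (U.comap (P.r v))) (k := k) (A := A)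
  have hpush : ∀ i, ∀ f ∈ Z1 (P.levv v) (P.loc (coind (P.G ⧸ U) ρ) v),
      push (orbMap (k := k) (P.r v) U hU (γ i)) f ∈
        Z1 (P.levv v) (coind (P.Gv v ⧸ U.comap (P.r v)) (ρ.comp (P.r v))) := by
    intro i f hf
    exact push_mem_Z1 (ρA := P.loc (coind (P.G ⧸ U) ρ) v) _
      (fun g a => orbMap_equiv (P.r v) ρ U hU (γ i) g a) hf
  have hmem : ∀ i, ∀ f : ↥(Z1 (P.levv v) (P.loc (coind (P.G ⧸ U) ρ) v)),
      ((sh1 (k := k) (U.comap (P.r v))) ∘ₗ (push (orbMap (k := k) (P.r v) U hU (γ i))) ∘ₗ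
        (Z1 (P.levv v) (P.loc (coind (P.G ⧸ U) ρ) v)).subtype) f ∈
        Z1 ((P.levv v).sub (U.comap (P.r v)))
          (1 : Representation k ↥(U.comap (P.r v)) A) := by
    intro i f
    have := sh1_mem (P.levv v) (ρ.comp (P.r v)) (U.comap (P.r v)) (hpush i f.1 f.2)
    rw [h1] at this
    exact this
  let Ψ : ↥(Z1 (P.levv v) (P.loc (coind (P.G ⧸ U) ρ) v)) →ₗ[k]
      (Fin (U ⊔ (P.r v).range).index → ↥(Z1 ((P.levv v).sub (U.comap (P.r v)))
          (1 : Representation k ↥(U.comap (P.r v)) A))) :=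
    LinearMap.pi fun i => LinearMap.codRestrict _ _ (hmem i)
  have hker : LinearMap.ker Ψ ≤ (B1 (P.loc (coind (P.G ⧸ U) ρ) v)).comap
      (Z1 (P.levv v) (P.loc (coind (P.G ⧸ U) ρ) v)).subtype := by
    intro f hf
    rw [LinearMap.mem_ker] at hf
    refine glue1 (P.r v) (P.levv v) ρ U hU γ hγ.surjective f.2 fun i => ?_
    refine sh1_inj (P.levv v) (ρ.comp (P.r v)) (U.comap (P.r v)) (hpush i f.1 f.2) ?_
    have h2 := congrArg Subtype.val (congrFun hf i)
    have h3 : sh1 (k := k) (U.comap (P.r v))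
        (push (orbMap (k := k) (P.r v) U hU (γ i)) f.1) = 0 := h2
    rw [Submodule.subtype_apply, h3]
    exact Submodule.zero_mem _
  obtain ⟨hA, hB⟩ := baseGlob_finrank_quot_le Ψ _ hker
  refine ⟨hA, hB.trans (le_of_eq ?_)⟩
  rw [Module.finrank_pi_fintype, Finset.sum_const, Finset.card_univ, Fintype.card_fin, hfr,
    smul_eq_mul, mul_assoc]

/-- (X3) -/
theorem base_X3 (c : ℕ)
    (h : Module.rank k (↥(ShaU2 k P U hU) ⧸
      (B2 (P.lev.sub U) (triv k ↥U)).comap (ShaU2 k P U hU).subtype) ≤ (c : Cardinal)) :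
    Module.rank k (ShaH2 P (coind (P.G ⧸ U) ρ)) ≤ ((c * Module.finrank k A : ℕ) : Cardinal) := by
  have h1 : ρ.comp U.subtype = 1 := comp_subtype_eq_one hρ
  have hsm : Smooth ρ P.lev := ⟨U, hUm, hρ⟩
  let SA : Submodule k (↥U × ↥U → A) :=
    ⨅ u : A →ₗ[k] k, (ShaU2 k P U hU).comap (push u)
  have hSA : ∀ f ∈ SA, ∀ u : A →ₗ[k] k, push u f ∈ ShaU2 k P U hU := by
    intro f hf u
    exact (Submodule.mem_iInf _).1 hf u
  refine le_trans ?_ (triv_rank_coord (P.lev.sub U) (ShaU2 k P U hU) c h SA hSA)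
  have hmem : ∀ y : ↥(Sha2 P (coind (P.G ⧸ U) ρ)),
      ((sh2 (k := k) U) ∘ₗ (Sha2 P (coind (P.G ⧸ U) ρ)).subtype) y ∈ SA := by
    rintro ⟨y, hyZ, hyL⟩
    rw [SetLike.mem_coe, Submodule.mem_iInf] at hyL
    rw [SetLike.mem_coe] at hyZ
    refine (Submodule.mem_iInf _).2 fun u => ?_
    have hz : sh2 (k := k) U y ∈ Z2 (P.lev.sub U) (1 : Representation k ↥U A) := by
      have := sh2_mem P.lev ρ U hyZ
      rwa [h1] at this
    refine ⟨triv_push_Z2 (P.lev.sub U) u hz, ?_⟩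
    refine (Submodule.mem_iInf _).2 fun v => (Submodule.mem_iInf _).2 fun γ => ?_
    have h1v : ((ρ.comp (P.r v)).comp (U.comap (P.r v)).subtype) = 1 :=
      comp_subtype_eq_one (ρ := ρ.comp (P.r v)) (V := U.comap (P.r v)) (fun s hs => hρ _ hs)
    have hc := place_compat2 (P.r v) (P.levv v) P.lev ρ U hU (P.compat v) hUm hρ γ hyZ
    have hB : res2 (k := k) (P.r v) y ∈ B2 (P.levv v) (P.loc (coind (P.G ⧸ U) ρ) v) := hyL v
    have hB2 : push (orbMap (k := k) (P.r v) U hU γ) (res2 (k := k) (P.r v) y) ∈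
        B2 (P.levv v) (coind (P.Gv v ⧸ U.comap (P.r v)) (ρ.comp (P.r v))) :=
      push_mem_B2 (ρA := P.loc (coind (P.G ⧸ U) ρ) v) _
        (fun g a => orbMap_equiv (P.r v) ρ U hU γ g a) hB
    have hB3 := sh2_B2 (P.levv v) (ρ.comp (P.r v)) (U.comap (P.r v)) hB2
    rw [h1v] at hB3
    have hB4 := triv_push_B2 ((P.levv v).sub (U.comap (P.r v))) (ρ γ) hB3
    have hB5 := Submodule.add_mem _ hc hB4
    rw [sub_add_cancel] at hB5
    exact triv_push_B2 ((P.levv v).sub (U.comap (P.r v))) u hB5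
  let Ψ : ↥(Sha2 P (coind (P.G ⧸ U) ρ)) →ₗ[k] ↥SA := LinearMap.codRestrict SA _ hmem
  refine baseGlob_rank_quot_le Ψ _ _ ?_ ?_
  · rintro ⟨y, hy⟩ hyB
    have hyB' : y ∈ B2 P.lev (coind (P.G ⧸ U) ρ) := hyB
    have := sh2_B2 P.lev ρ U hyB'
    rw [h1] at this
    exact this
  · rintro ⟨y, hy⟩ hyB
    have hyB' : sh2 (k := k) U y ∈ B2 (P.lev.sub U) (1 : Representation k ↥U A) := hyB
    rw [← h1] at hyB'
    exact sh2_inj P.lev ρ U hUm hsm hy.1 hyB'

end X

end Fermat.Agent.S55
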