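import Fermat.Agent.S55.T.PairT

/-!
# S55-T : (S1) injectivity of `α¹` (left and right versions) from (E2)
-/

set_option autoImplicit false

namespace Fermat.Agent.S55

/-- the common formal part of (S1): a cone cocycle whose global component becomes a coboundary
is, up to a cone coboundary, of the form `(0, b')` with `b'` locally invariant. -/
private theorem globalS1_split {k : Type} [Field k] (P : Sys) {A : Type} [AddCommGroup A]
    [Module k A] {ρ : Representation k P.G A} (hρ : Smooth ρ P.lev)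
    {z : (P.G → A) × (P.ι → A)} (hz : z ∈ Z1c P ρ) {φ₀ : A} (hφ₀ : d0 ρ φ₀ = z.1) :
    z = coneD0 P ρ φ₀ + (0, fun v => z.2 v - φ₀) ∧ ∀ v, z.2 v - φ₀ ∈ Z0 (P.loc ρ v) := by
  have h1 : z = coneD0 P ρ φ₀ + (0, fun v => z.2 v - φ₀) := by
    refine Prod.ext ?_ ?_
    · simp [hφ₀]
    · funext v
      simp
  refine ⟨h1, fun v => ?_⟩
  have h2 : (0, fun v => z.2 v - φ₀) ∈ Z1c P ρ := by
    have h3 : ((0 : P.G → A), fun v => z.2 v - φ₀) = z - coneD0 P ρ φ₀ := by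
      nth_rewrite 2 [h1]
      simp
    rw [h3]
    exact (Z1c P ρ).sub_mem hz (B1c_le_Z1c P hρ ⟨φ₀, rfl⟩)
  have h4 := ((mem_Z1c P).mp h2).2 v
  simp only [map_zero] at h4
  exact h4.symm

/-- conclusion of (S1): if all the `b' v` are equal to a global invariant, `z` is a coboundary. -/
private theorem globalS1_concl {k : Type} [Field k] (P : Sys) {A : Type} [AddCommGroup A]
    [Module k A] {ρ : Representation k P.G A} {z : (P.G → A) × (P.ι → A)} {φ₀ : A}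
    (h1 : z = coneD0 P ρ φ₀ + (0, fun v => z.2 v - φ₀)) {a₀ : A} (ha₀ : a₀ ∈ Z0 ρ)
    (h : ∀ v, z.2 v - φ₀ = a₀) : z ∈ B1c P ρ := by
  refine ⟨φ₀ + a₀, ?_⟩
  rw [h1, map_add]
  congr 1
  have h2 : d0 ρ a₀ = 0 := ha₀
  refine Prod.ext ?_ ?_
  · simp [h2]
  · funext v
    simp only [coneD0_apply]
    exact (h v).symm

variable {k : Type} [Field k] (P : Sys) [Nonempty P.ι] {ρμ : Representation k P.G k}
  (T : Trace P ρμ) (D : DualPair k P.G ρμ) (hD : D.IsSmooth P.lev)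
include hD

/-- (S1), left version -/
theorem A1L_of_emb
    (h : ∀ a ∈ Z1 P.lev D.ρA, ∃ (I : DualPair k P.G ρμ) (e : DualPair.Emb D I),
      I.IsSmooth P.lev ∧ push e.i a ∈ B1 I.ρA ∧ E2 P T I) : A1L P T D := by
  intro x hx hx0
  obtain ⟨I, e, hI, ⟨φ₀, hφ₀⟩, hE2⟩ := h x.1 ((mem_Z1c P).mp hx).1
  have hz : pushc1 P e.i x ∈ Z1c P I.ρA := pushc1_mem_Z1c P e.i e.i_equiv hx
  obtain ⟨h1, hb'⟩ := globalS1_split P hI.1 hz (φ₀ := φ₀) hφ₀
  obtain ⟨a₀, ha₀, hconst⟩ := hE2 _ hb' (by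
    intro y' hy'
    rw [← t_L1_zero P I T hI hb' hy']
    have h2 : T.t (L1 P I (pushc1 P e.i x) y') = 0 := by
      rw [L1_nat]
      exact hx0 _ (push_mem_Z2 e.p e.p_equiv hy')
    rw [h1, map_add, LinearMap.add_apply, map_add, t_L1_B1c P I T hI ⟨φ₀, rfl⟩ hy', zero_add] at h2
    exact h2)
  exact B1c_of_pushc1 P e.i e.i_equiv e.i_inj (globalS1_concl P h1 ha₀ hconst)

/-- (S1), right version (`R1`): uses embeddings of the swapped pair -/
theorem A1R_of_emb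
    (h : ∀ y ∈ Z1 P.lev D.ρB, ∃ (I' : DualPair k P.G ρμ) (e : DualPair.Emb D.swap I'),
      I'.IsSmooth P.lev ∧ push e.i y ∈ B1 I'.ρA ∧ E2 P T I') : A1R P T D := by
  intro x hx hx0
  obtain ⟨I', e, hI', ⟨φ₀, hφ₀⟩, hE2⟩ := h x.1 ((mem_Z1c P).mp hx).1
  have hIs : I'.swap.IsSmooth P.lev := ⟨hI'.2, hI'.1⟩
  have hz : pushc1 P e.i x ∈ Z1c P I'.ρA := pushc1_mem_Z1c P e.i e.i_equiv hx
  obtain ⟨h1, hb'⟩ := globalS1_split P hI'.1 hz (φ₀ := φ₀) hφ₀
  obtain ⟨a₀, ha₀, hconst⟩ := hE2 _ hb' (by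
    intro a' ha'
    have h3 := t_R1_zero P I'.swap T hIs ha' hb'
    have h4 : ∀ v, cup20 (P.loc I'.swap.ρB v) I'.swap.φ (res2 (k := k) (P.r v) a')
        ((pushc1 P e.i x).2 v - φ₀) =
        cup02 I'.φ ((pushc1 P e.i x).2 v - φ₀) (res2 (k := k) (P.r v) a') := by
      intro v
      rw [cup20_eq_cup02 _ (hb' v)]
      rfl
    simp only [h4] at h3
    rw [← h3]
    have h2 : T.t (R1 P I'.swap a' (pushc1 P e.i x)) = 0 := by
      rw [R1_nat]
      exact hx0 _ (push_mem_Z2 e.p e.p_equiv ha')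
    rw [h1, map_add, map_add, t_R1_B1c P I'.swap T hIs ha' ⟨φ₀, rfl⟩, zero_add] at h2
    exact h2)
  exact B1c_of_pushc1 P e.i e.i_equiv e.i_inj (globalS1_concl P h1 ha₀ hconst)

end Fermat.Agent.S55
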