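import Mathlib

/-!
# S55-T : linear algebra over a field (functionals, extension, non-degenerate pairings "modulo
subspaces").  Mathlib only.
-/

set_option autoImplicit false

namespace Fermat.Agent.S55

variable {k : Type} [Field k]

/-- (LA2) factorisation of a functional through a linear map, modulo subspaces. -/
theorem exists_functional_factor {V V' : Type} [AddCommGroup V] [Module k V] [AddCommGroup V']
    [Module k V'] (u : V →ₗ[k] V') (Z : Submodule k V) (B' : Submodule k V') (l : V →ₗ[k] k)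
    (h : ∀ z ∈ Z, u z ∈ B' → l z = 0) :
    ∃ l' : V' →ₗ[k] k, (∀ b ∈ B', l' b = 0) ∧ ∀ z ∈ Z, l' (u z) = l z := by
  set g : Z →ₗ[k] V' ⧸ B' := B'.mkQ ∘ₗ u ∘ₗ Z.subtype with hg
  have hmem : (l ∘ₗ Z.subtype : Module.Dual k Z) ∈ (LinearMap.ker g).dualAnnihilator := by
    rw [Submodule.mem_dualAnnihilator]
    intro z hz
    rw [LinearMap.mem_ker, hg] at hz
    simp only [LinearMap.comp_apply, Submodule.mkQ_apply, Submodule.Quotient.mk_eq_zero,
      Submodule.subtype_apply] at hz
    exact h z z.2 hz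
  rw [← LinearMap.range_dualMap_eq_dualAnnihilator_ker] at hmem
  obtain ⟨l₁, hl₁⟩ := hmem
  refine ⟨l₁ ∘ₗ B'.mkQ, fun b hb => ?_, fun z hz => ?_⟩
  · rw [LinearMap.comp_apply, Submodule.mkQ_apply, (Submodule.Quotient.mk_eq_zero B').mpr hb,
      map_zero]
  · have := LinearMap.congr_fun hl₁ ⟨z, hz⟩
    exact this

/-- (LA3) a functional vanishing on the "locally trivial" elements is a sum of local functionals. -/
theorem exists_local_functionals {ι : Type} [Fintype ι] {V : Type} [AddCommGroup V] [Module k V]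
    {W : ι → Type} [∀ v, AddCommGroup (W v)] [∀ v, Module k (W v)]
    (u : ∀ v, V →ₗ[k] W v) (Z : Submodule k V) (B : ∀ v, Submodule k (W v)) (l : V →ₗ[k] k)
    (h : ∀ z ∈ Z, (∀ v, u v z ∈ B v) → l z = 0) :
    ∃ l' : ∀ v, W v →ₗ[k] k, (∀ v, ∀ b ∈ B v, l' v b = 0) ∧ ∀ z ∈ Z, l z = ∑ v, l' v (u v z) := by
  classical
  obtain ⟨l'', h1, h2⟩ := exists_functional_factor (LinearMap.pi u) Z (Submodule.pi Set.univ B) l
    (fun z hz hzB => h z hz fun v => hzB v (Set.mem_univ v))
  refine ⟨fun v => l'' ∘ₗ LinearMap.single k W v, fun v b hb => ?_, fun z hz => ?_⟩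
  · apply h1
    intro w _
    by_cases hw : w = v
    · subst hw
      simpa using hb
    · simp [Pi.single_eq_of_ne hw]
  · rw [← h2 z hz]
    simp only [LinearMap.comp_apply, ← map_sum]
    congr 1
    funext v
    simp [Finset.sum_apply]

section pairing

variable {X Y : Type} [AddCommGroup X] [Module k X] [AddCommGroup Y] [Module k Y]
  (β : X →ₗ[k] Y →ₗ[k] k) (ZX BX : Submodule k X) (ZY BY : Submodule k Y)

/-- the map `ZX → (ZY/BY)^*` induced by a pairing. -/
theorem linalg_exists_toDual (hBY : ∀ x ∈ ZX, ∀ y ∈ BY, β x y = 0) :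
    ∃ Φ : ZX →ₗ[k] Module.Dual k (↥ZY ⧸ BY.comap ZY.subtype),
      ∀ (x : ZX) (y : ZY), Φ x (Submodule.Quotient.mk y) = β x y := by
  set Φ₀ : ZX →ₗ[k] Module.Dual k ZY := ZY.subtype.dualMap ∘ₗ β ∘ₗ ZX.subtype with hΦ₀
  have hr : ∀ x, Φ₀ x ∈ (BY.comap ZY.subtype).dualAnnihilator := by
    intro x
    rw [Submodule.mem_dualAnnihilator]
    intro y hy
    exact hBY x x.2 y hy
  refine ⟨(Submodule.dualQuotEquivDualAnnihilator (BY.comap ZY.subtype)).symm.toLinearMap ∘ₗ
    Φ₀.codRestrict _ hr, fun x y => ?_⟩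
  rw [LinearMap.comp_apply, LinearEquiv.coe_coe,
    Submodule.dualQuotEquivDualAnnihilator_symm_apply_mk]
  rfl

/-- surjectivity of `ZX → (ZY/BY)^*`. -/
theorem linalg_toDual_surjective
    (hnd : ∀ y ∈ ZY, (∀ x ∈ ZX, β x y = 0) → y ∈ BY)
    [FiniteDimensional k (↥ZY ⧸ BY.comap ZY.subtype)]
    (Φ : ZX →ₗ[k] Module.Dual k (↥ZY ⧸ BY.comap ZY.subtype))
    (hΦ : ∀ (x : ZX) (y : ZY), Φ x (Submodule.Quotient.mk y) = β x y) :
    Function.Surjective Φ := by
  rw [← LinearMap.range_eq_top]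
  have hco : (LinearMap.range Φ).dualCoannihilator = ⊥ := by
    rw [eq_bot_iff]
    intro q hq
    obtain ⟨y, rfl⟩ := Submodule.Quotient.mk_surjective _ q
    rw [Submodule.mem_dualCoannihilator] at hq
    rw [Submodule.mem_bot, Submodule.Quotient.mk_eq_zero]
    refine hnd y y.2 fun x hx => ?_
    have := hq (Φ ⟨x, hx⟩) (LinearMap.mem_range_self _ _)
    rwa [hΦ] at this
  rw [← Subspace.dualCoannihilator_dualAnnihilator_eq (W := LinearMap.range Φ), hco,
    Submodule.dualAnnihilator_bot]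

/-- (LA5) if `ZY/BY` embeds into the dual of the finite dimensional `ZX/BX`, it is finite
dimensional of smaller dimension. -/
theorem finite_of_nondeg
    (hBX : ∀ x ∈ BX, ∀ y ∈ ZY, β x y = 0)
    (hnd : ∀ y ∈ ZY, (∀ x ∈ ZX, β x y = 0) → y ∈ BY)
    [FiniteDimensional k (↥ZX ⧸ BX.comap ZX.subtype)] :
    FiniteDimensional k (↥ZY ⧸ BY.comap ZY.subtype) ∧
      Module.finrank k (↥ZY ⧸ BY.comap ZY.subtype) ≤
        Module.finrank k (↥ZX ⧸ BX.comap ZX.subtype) := by
  obtain ⟨Ψ, hΨ⟩ := linalg_exists_toDual β.flip ZY ZX BX (fun y hy x hx => hBX x hx y hy)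
  have hker : LinearMap.ker Ψ ≤ BY.comap ZY.subtype := by
    intro y hy
    rw [LinearMap.mem_ker] at hy
    refine hnd y y.2 fun x hx => ?_
    have := hΨ y ⟨x, hx⟩
    rw [hy] at this
    exact this.symm
  have hfin : FiniteDimensional k (↥ZY ⧸ LinearMap.ker Ψ) :=
    Module.Finite.equiv Ψ.quotKerEquivRange.symm
  have hsurj := Submodule.factor_surjective hker
  refine ⟨Module.Finite.of_surjective _ hsurj, ?_⟩
  calc Module.finrank k (↥ZY ⧸ BY.comap ZY.subtype)
      ≤ Module.finrank k (↥ZY ⧸ LinearMap.ker Ψ) :=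
        LinearMap.finrank_le_finrank_of_surjective hsurj
    _ = Module.finrank k (LinearMap.range Ψ) := Ψ.quotKerEquivRange.finrank_eq
    _ ≤ Module.finrank k (Module.Dual k (↥ZX ⧸ BX.comap ZX.subtype)) :=
        Submodule.finrank_le _
    _ = Module.finrank k (↥ZX ⧸ BX.comap ZX.subtype) := Subspace.dual_finrank_eq

/-- (LA4) surjectivity from injectivity on the other side. -/
theorem surj_of_nondeg
    (hBY : ∀ x ∈ ZX, ∀ y ∈ BY, β x y = 0)
    (hnd : ∀ y ∈ ZY, (∀ x ∈ ZX, β x y = 0) → y ∈ BY)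
    [FiniteDimensional k (↥ZY ⧸ BY.comap ZY.subtype)]
    (l : Y →ₗ[k] k) (hl : ∀ y ∈ BY, l y = 0) :
    ∃ x ∈ ZX, ∀ y ∈ ZY, β x y = l y := by
  obtain ⟨Φ, hΦ⟩ := linalg_exists_toDual β ZX ZY BY hBY
  have hs := linalg_toDual_surjective β ZX ZY BY hnd Φ hΦ
  obtain ⟨x, hx⟩ := hs ((BY.comap ZY.subtype).liftQ (l ∘ₗ ZY.subtype) (fun y hy => hl y hy))
  refine ⟨x, x.2, fun y hy => ?_⟩
  rw [← hΦ x ⟨y, hy⟩, hx]
  rfl

/-- (LA6) if the pairing is non-degenerate on the right and the dimensions are finite with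
`dim ZX/BX ≤ dim ZY/BY`, it is non-degenerate on the left. -/
theorem nondeg_left_of_right
    (hBX : ∀ x ∈ BX, ∀ y ∈ ZY, β x y = 0) (hBY : ∀ x ∈ ZX, ∀ y ∈ BY, β x y = 0)
    (hnd : ∀ y ∈ ZY, (∀ x ∈ ZX, β x y = 0) → y ∈ BY)
    [FiniteDimensional k (↥ZX ⧸ BX.comap ZX.subtype)]
    (hdim : Module.finrank k (↥ZX ⧸ BX.comap ZX.subtype) ≤
      Module.finrank k (↥ZY ⧸ BY.comap ZY.subtype)) :
    ∀ x ∈ ZX, (∀ y ∈ ZY, β x y = 0) → x ∈ BX := by
  obtain ⟨hfin, hle⟩ := finite_of_nondeg β ZX BX ZY BY hBX hnd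
  obtain ⟨Φ, hΦ⟩ := linalg_exists_toDual β ZX ZY BY hBY
  have hs := linalg_toDual_surjective β ZX ZY BY hnd Φ hΦ
  have hΦ0 : ∀ x : ZX, (∀ y ∈ ZY, β x y = 0) → Φ x = 0 := by
    intro x hx
    refine LinearMap.ext fun q => ?_
    obtain ⟨y, rfl⟩ := Submodule.Quotient.mk_surjective _ q
    rw [hΦ, hx y y.2]
    rfl
  have hkill : BX.comap ZX.subtype ≤ LinearMap.ker Φ := by
    intro x hx
    rw [LinearMap.mem_ker]
    exact hΦ0 x fun y hy => hBX x hx y hy
  set Φb := (BX.comap ZX.subtype).liftQ Φ hkill with hΦb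
  have hsb : Function.Surjective Φb := by
    intro f
    obtain ⟨x, rfl⟩ := hs f
    exact ⟨Submodule.Quotient.mk x, rfl⟩
  have hrank : Module.finrank k (↥ZX ⧸ BX.comap ZX.subtype) =
      Module.finrank k (Module.Dual k (↥ZY ⧸ BY.comap ZY.subtype)) := by
    rw [Subspace.dual_finrank_eq]
    exact le_antisymm hdim hle
  have hinj : Function.Injective Φb :=
    (LinearMap.injective_iff_surjective_of_finrank_eq_finrank hrank).mpr hsb
  intro x hx hxy
  have h0 : Φb (Submodule.Quotient.mk ⟨x, hx⟩) = 0 := hΦ0 ⟨x, hx⟩ hxy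
  have h1 := hinj (h0.trans (map_zero Φb).symm)
  rw [Submodule.Quotient.mk_eq_zero] at h1
  exact h1

end pairing

/-- rank-nullity inequality through an injection of `k ^ N`. -/
theorem linalg_le_finrank_ker_add {H Pl : Type} [AddCommGroup H] [Module k H]
    [AddCommGroup Pl] [Module k Pl] [FiniteDimensional k Pl] (loc : H →ₗ[k] Pl) (N : ℕ)
    [FiniteDimensional k (LinearMap.ker loc)]
    (hH : ∃ φ : (Fin N → k) →ₗ[k] H, Function.Injective φ) :
    N ≤ Module.finrank k (LinearMap.ker loc) + Module.finrank k (LinearMap.range loc) := by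
  obtain ⟨φ, hφ⟩ := hH
  have h1 := LinearMap.finrank_range_add_finrank_ker (loc ∘ₗ φ)
  rw [Module.finrank_fin_fun] at h1
  have h2 : Module.finrank k (LinearMap.range (loc ∘ₗ φ)) ≤ Module.finrank k (LinearMap.range loc) :=
    Submodule.finrank_mono (LinearMap.range_comp_le_range φ loc)
  have h3 : Module.finrank k (LinearMap.ker (loc ∘ₗ φ)) ≤ Module.finrank k (LinearMap.ker loc) := by
    let ψ : LinearMap.ker (loc ∘ₗ φ) →ₗ[k] LinearMap.ker loc :=
      (φ ∘ₗ (LinearMap.ker (loc ∘ₗ φ)).subtype).codRestrict _ (fun x => x.2)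
    refine LinearMap.finrank_le_finrank_of_injective (f := ψ) ?_
    intro a b hab
    have := congrArg Subtype.val hab
    exact Subtype.ext (hφ this)
  omega

/-- (LA7) THE COUNTING LEMMA.  `P × P' → k` perfect (finite dimensional), `loc : H → P`,
`loc' : H' → P'` with orthogonal images, `dim ker loc ≤ m`, `dim ker loc' ≤ m`, `dim P ≤ 2n`,
`H`, `H'` contain `n + m` independent elements.  Then everything is an equality; in particular
the image of `loc` is the exact orthogonal complement of the image of `loc'`. -/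
theorem counting_lemma {H H' Pl Pl' : Type} [AddCommGroup H] [Module k H] [AddCommGroup H']
    [Module k H'] [AddCommGroup Pl] [Module k Pl] [AddCommGroup Pl'] [Module k Pl']
    [FiniteDimensional k Pl] [FiniteDimensional k Pl']
    (β : Pl →ₗ[k] Pl' →ₗ[k] k)
    (hβl : ∀ x, (∀ y, β x y = 0) → x = 0) (hβr : ∀ y, (∀ x, β x y = 0) → y = 0)
    (loc : H →ₗ[k] Pl) (loc' : H' →ₗ[k] Pl') (horth : ∀ x y, β (loc x) (loc' y) = 0)
    (n m : ℕ)
    (hK : Module.rank k (LinearMap.ker loc) ≤ (m : Cardinal))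
    (hK' : Module.rank k (LinearMap.ker loc') ≤ (m : Cardinal))
    (hP : Module.finrank k Pl ≤ 2 * n)
    (hH : ∃ φ : (Fin (n + m) → k) →ₗ[k] H, Function.Injective φ)
    (hH' : ∃ φ : (Fin (n + m) → k) →ₗ[k] H', Function.Injective φ) :
    Module.finrank k (LinearMap.ker loc) = m ∧ Module.finrank k (LinearMap.ker loc') = m ∧
      (∀ x : Pl, (∀ y, β x (loc' y) = 0) → ∃ h, loc h = x) := by
  have hfK : FiniteDimensional k (LinearMap.ker loc) :=
    Module.rank_lt_aleph0_iff.mp (lt_of_le_of_lt hK (Cardinal.natCast_lt_aleph0))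
  have hfK' : FiniteDimensional k (LinearMap.ker loc') :=
    Module.rank_lt_aleph0_iff.mp (lt_of_le_of_lt hK' (Cardinal.natCast_lt_aleph0))
  have ha : Module.finrank k (LinearMap.ker loc) ≤ m := Module.finrank_le_of_rank_le hK
  have ha' : Module.finrank k (LinearMap.ker loc') ≤ m := Module.finrank_le_of_rank_le hK'
  have h1 := linalg_le_finrank_ker_add loc (n + m) hH
  have h1' := linalg_le_finrank_ker_add loc' (n + m) hH'
  -- `β` and its flip are injective
  have hinj : Function.Injective β := by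
    rw [injective_iff_map_eq_zero]
    intro x hx
    exact hβl x fun y => by rw [hx]; rfl
  have hinj' : Function.Injective β.flip := by
    rw [injective_iff_map_eq_zero]
    intro y hy
    exact hβr y fun x => by
      have := LinearMap.congr_fun hy x
      exact this
  have hdim : Module.finrank k Pl' ≤ Module.finrank k Pl := by
    have := LinearMap.finrank_le_finrank_of_injective hinj'
    rwa [Subspace.dual_finrank_eq] at this
  -- the image of `range loc` in the annihilator of `range loc'`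
  have hle : (LinearMap.range loc).map β ≤ (LinearMap.range loc').dualAnnihilator := by
    rintro _ ⟨_, ⟨x, rfl⟩, rfl⟩
    rw [Submodule.mem_dualAnnihilator]
    rintro _ ⟨y, rfl⟩
    exact horth x y
  have hr : Module.finrank k ((LinearMap.range loc).map β) =
      Module.finrank k (LinearMap.range loc) :=
    (Submodule.equivMapOfInjective β hinj _).symm.finrank_eq
  obtain ⟨t, ht0⟩ : ∃ t, t = Module.finrank k (LinearMap.range loc').dualAnnihilator := ⟨_, rfl⟩
  have ht : Module.finrank k (LinearMap.range loc') + t = Module.finrank k Pl' := by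
    rw [ht0]
    exact Subspace.finrank_add_finrank_dualAnnihilator_eq (LinearMap.range loc')
  have hrt : Module.finrank k ((LinearMap.range loc).map β) ≤ t := by
    rw [ht0]
    exact Submodule.finrank_mono hle
  refine ⟨by omega, by omega, fun x hx => ?_⟩
  have heq : (LinearMap.range loc).map β = (LinearMap.range loc').dualAnnihilator :=
    Submodule.eq_of_le_of_finrank_le hle (le_trans (le_of_eq ht0.symm) (by omega))
  have hxm : β x ∈ (LinearMap.range loc').dualAnnihilator := by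
    rw [Submodule.mem_dualAnnihilator]
    rintro _ ⟨y, rfl⟩
    exact hx y
  rw [← heq] at hxm
  obtain ⟨_, ⟨h, rfl⟩, hh⟩ := hxm
  exact ⟨h, hinj hh⟩

end Fermat.Agent.S55
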