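import Fermat.Agent.S55.T.PairT
import Fermat.Agent.S55.T.LinAlg

/-!
# S55-T : (S2) four lemma for `H¹_c(I) → H¹_c(Q) → H²_c(D) → H²_c(I)`
-/

set_option autoImplicit false

namespace Fermat.Agent.S55

variable {k : Type} [Field k] (P : Sys) {ρμ : Representation k P.G k}
  (T : Trace P ρμ) {D I Q : DualPair k P.G ρμ} (e : DualPair.SES D I Q)
  (hD : D.IsSmooth P.lev) (hI : I.IsSmooth P.lev) (hQ : Q.IsSmooth P.lev)
include e hD hI hQ

theorem A2_of_SES (hI1 : A1Lsurj P T I) (hI2 : A2 P T I) (hQ1 : A1L P T Q) : A2 P T D := by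
  intro x hx hkill
  have hπi : ∀ a, e.π (e.i a) = 0 := fun a => (e.exact_A _).2 ⟨a, rfl⟩
  have hpj : ∀ b, e.p (e.j b) = 0 := fun b => (e.exact_B _).2 ⟨b, rfl⟩
  -- (1)
  have h1 : pushc2 P e.i x ∈ B2c P I.ρA := by
    refine hI2 _ (pushc2_mem_Z2c P e.i e.i_equiv hx) fun y hy => ?_
    rw [L2_nat P e.toEmb]
    exact hkill _ (push_mem_Z1 e.p e.p_equiv hy)
  obtain ⟨j, hj, hjx⟩ := h1
  have hj' : j ∈ CC1 k P I.A := hj
  -- (2)
  have hq : pushc1 P e.π j ∈ Z1c P Q.ρA := by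
    refine ⟨⟨LC1_push e.π hj'.1, trivial⟩, ?_⟩
    show coneD1 P Q.ρA (pushc1 P e.π j) = 0
    rw [← pushc2_coneD1 P e.π e.π_equiv, hjx]
    ext <;> simp [hπi]
  -- (3)
  obtain ⟨ξ, hξB, hξ⟩ := exists_functional_factor (push e.j : (P.G × P.G → Q.B) →ₗ[k] _)
    (Z2 P.lev Q.ρB) (B2 P.lev I.ρB) (T.t.comp (L1 P Q (pushc1 P e.π j))) (by
      intro z _ hzB
      obtain ⟨y', hy'LC, hy'⟩ := hzB
      have hy'LC' : LC1 P.lev y' := hy'LC
      have hy : push e.p y' ∈ Z1 P.lev D.ρB := by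
        refine ⟨LC1_push e.p hy'LC', ?_⟩
        show d1 D.ρB (push e.p y') = 0
        rw [← push_d1 e.p e.p_equiv, hy']
        ext p
        simp [hpj]
      rw [LinearMap.comp_apply, L1_nat' P e, ← hy', ← t_L2_coneD1 P I T hI hj' hy'LC', hjx,
        L2_nat P e.toEmb]
      exact hkill _ hy)
  -- (4)
  obtain ⟨j', hj'Z, hj'ξ⟩ := hI1 ξ hξB
  -- (5)
  have h5 : pushc1 P e.π j - pushc1 P e.π j' ∈ B1c P Q.ρA := by
    refine hQ1 _ (sub_mem hq (pushc1_mem_Z1c P e.π e.π_equiv hj'Z)) fun z hz => ?_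
    have h6 := hξ z hz
    rw [LinearMap.comp_apply] at h6
    rw [map_sub, LinearMap.sub_apply, map_sub, ← h6, L1_nat' P e j' z,
      hj'ξ _ (push_mem_Z2 e.j e.j_equiv hz), sub_self]
  obtain ⟨c, hc⟩ := h5
  obtain ⟨j0, rfl⟩ := e.π_surj c
  -- (6)
  set j'' := j - j' - coneD0 P I.ρA j0 with hj''
  have hB1c : coneD0 P I.ρA j0 ∈ Z1c P I.ρA := B1c_le_Z1c P hI.1 ⟨j0, rfl⟩
  have hj''CC : j'' ∈ CC1 k P I.A := sub_mem (sub_mem hj' hj'Z.1) hB1c.1
  have hπj'' : pushc1 P e.π j'' = 0 := by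
    rw [hj'', map_sub, map_sub, pushc1_coneD0 P e.π e.π_equiv, hc, sub_self]
  have hex1 : ∀ g, ∃ a, e.i a = j''.1 g := fun g =>
    (e.exact_A _).1 (congrFun (congrArg Prod.fst hπj'') g)
  have hex2 : ∀ v, ∃ a, e.i a = j''.2 v := fun v =>
    (e.exact_A _).1 (congrFun (congrArg Prod.snd hπj'') v)
  choose a1 ha1 using hex1
  choose a2 ha2 using hex2
  have ha : pushc1 P e.i (a1, a2) = j'' := by
    ext g
    · exact ha1 g
    · exact ha2 g
  have haCC : (a1, a2) ∈ CC1 k P D.A := by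
    refine ⟨LC1_of_push e.i e.i_inj ?_, trivial⟩
    have : push e.i a1 = j''.1 := funext ha1
    show LC1 P.lev (push e.i a1)
    rw [this]
    exact hj''CC.1
  refine ⟨(a1, a2), haCC, ?_⟩
  have h7 : pushc2 P e.i (coneD1 P D.ρA (a1, a2)) = pushc2 P e.i x := by
    rw [pushc2_coneD1 P e.i e.i_equiv, ha, hj'', map_sub, map_sub, hjx,
      LinearMap.mem_ker.1 hj'Z.2, LinearMap.mem_ker.1 hB1c.2, sub_zero, sub_zero]
  have hinj : Function.Injective (pushc2 P e.i) := by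
    intro u w huw
    ext g g'
    · exact e.i_inj (congrFun (congrArg Prod.fst huw) g)
    · exact e.i_inj (congrFun (congrFun (congrArg Prod.snd huw) g) g')
  exact hinj h7

end Fermat.Agent.S55
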