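import Fermat.Agent.S55.T.LocalSurj

/-!
# S55-T : local duality by dévissage (injectivity-only four lemmas)
-/

set_option autoImplicit false

namespace Fermat.Agent.S55

variable {k : Type} [Field k] {H : Type} [Group H] {𝒱 : Lev H} {ρμ : Representation k H k}
  {τ : (H × H → k) →ₗ[k] k} (hμ : Smooth ρμ 𝒱) (hτ : ∀ f ∈ B2 𝒱 ρμ, τ f = 0)

section steps

variable {D J Q : DualPair k H ρμ}

/-- `Q0` passes to sub-pairs (naturality only) -/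
theorem Q0_of_emb (e : DualPair.Emb D J) (hJ : Q0 𝒱 τ J) : Q0 𝒱 τ D := by
  intro a ha h
  have h1 : e.i a ∈ Z0 J.ρA := push_mem_Z0 e.i e.i_equiv ha
  have h2 : e.i a = 0 := by
    refine hJ _ h1 fun f hf => ?_
    rw [nat_cup02 e.adj a f]
    exact h _ (push_mem_Z2 e.p e.p_equiv hf)
  exact e.i_inj (by rw [h2, map_zero])

private lemma localdev_push_push_A (e : DualPair.SES D J Q) {X : Type} (x : X → D.A) :
    push e.π (push e.i x) = 0 := by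
  ext g
  exact (e.exact_A _).2 ⟨x g, rfl⟩

private lemma localdev_push_push_B (e : DualPair.SES D J Q) {X : Type} (x : X → Q.B) :
    push e.p (push e.j x) = 0 := by
  ext g
  exact (e.exact_B _).2 ⟨x g, rfl⟩

private lemma localdev_push_inj (e : DualPair.Emb D J) {X : Type} {x y : X → D.A}
    (h : push e.i x = push e.i y) : x = y := by
  ext g
  exact e.i_inj (congrFun h g)

variable (e : DualPair.SES D J Q) (hD : D.IsSmooth 𝒱) (hJs : J.IsSmooth 𝒱) (hQs : Q.IsSmooth 𝒱)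
  (hJ : LPerfect 𝒱 τ J)
include hμ hτ e hD hJs hQs hJ

/-- four lemma for `H⁰(J) → H⁰(Q) → H¹(D) → H¹(J)` -/
theorem Q1_of_SES (hQ : Q0 𝒱 τ Q) : Q1 𝒱 τ D := by
  intro x hx h
  -- (1)
  have h1 : push e.i x ∈ B1 J.ρA := by
    refine hJ.q1 _ (push_mem_Z1 e.i e.i_equiv hx) fun y hy => ?_
    rw [nat_cup11 e.adj e.p_equiv x y]
    exact h _ (push_mem_Z1 e.p e.p_equiv hy)
  obtain ⟨j0, hj0⟩ := h1
  -- (2)
  have hq : e.π j0 ∈ Z0 Q.ρA := by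
    show d0 Q.ρA (e.π j0) = 0
    rw [← push_d0 e.π e.π_equiv, hj0, localdev_push_push_A]
  -- (3)
  have h3 : ∀ z ∈ Z2 𝒱 Q.ρB, push e.j z ∈ B2 𝒱 J.ρB →
      (τ ∘ₗ cup02 Q.φ (e.π j0)) z = 0 := by
    rintro z - ⟨y, hy, hyz⟩
    have hy' : LC1 𝒱 y := hy
    have hpy : push e.p y ∈ Z1 𝒱 D.ρB := by
      refine ⟨LC1_push e.p hy', ?_⟩
      show d1 D.ρB (push e.p y) = 0
      rw [← push_d1 e.p e.p_equiv, hyz, localdev_push_push_B]
    have h4 := h _ hpy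
    rw [← nat_cup11 e.adj e.p_equiv x y, ← hj0] at h4
    have h5 := leib01 J.equiv j0 y
    rw [hyz, ← nat_cup02 e.adj' j0 z] at h5
    have h6 : τ (d1 ρμ (cup01 J.φ j0 y)) = 0 :=
      hτ _ ⟨_, LC1_cup01 J.φ j0 hy', rfl⟩
    rw [h5, map_add, h4, zero_add] at h6
    exact h6
  obtain ⟨ξ, hξB, hξ⟩ := exists_functional_factor (push e.j) (Z2 𝒱 Q.ρB) (B2 𝒱 J.ρB)
    (τ ∘ₗ cup02 Q.φ (e.π j0)) h3
  -- (4)
  obtain ⟨e0, he0, he0'⟩ := LPerfect.surj0 hτ hJs hJ ξ hξB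
  -- (5)
  have h5 : e.π j0 - e.π e0 = 0 := by
    refine hQ _ (Submodule.sub_mem _ hq (push_mem_Z0 e.π e.π_equiv he0)) fun z hz => ?_
    rw [map_sub, LinearMap.sub_apply, map_sub, nat_cup02 e.adj' e0 z,
      he0' _ (push_mem_Z2 e.j e.j_equiv hz), hξ z hz]
    simp
  -- (6)
  obtain ⟨a, ha⟩ := (e.exact_A (j0 - e0)).1 (by rw [map_sub, h5])
  refine ⟨a, localdev_push_inj e.toEmb ?_⟩
  have he0'' : d0 J.ρA e0 = 0 := he0
  rw [push_d0 e.i e.i_equiv, ha, map_sub, hj0, he0'', sub_zero]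

/-- four lemma for `H¹(J) → H¹(Q) → H²(D) → H²(J)` -/
theorem Q2_of_SES (hQ : Q1 𝒱 τ Q) : Q2 𝒱 τ D := by
  intro f hf h
  -- (1)
  have h1 : push e.i f ∈ B2 𝒱 J.ρA := by
    refine hJ.q2 _ (push_mem_Z2 e.i e.i_equiv hf) fun b hb => ?_
    rw [nat_cup20 e.adj e.p_equiv f b]
    exact h _ (push_mem_Z0 e.p e.p_equiv hb)
  obtain ⟨j1, hj1, hj1f⟩ := h1
  have hj1' : LC1 𝒱 j1 := hj1
  -- (2)
  have hq : push e.π j1 ∈ Z1 𝒱 Q.ρA := by
    refine ⟨LC1_push e.π hj1', ?_⟩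
    show d1 Q.ρA (push e.π j1) = 0
    rw [← push_d1 e.π e.π_equiv, hj1f, localdev_push_push_A]
  -- (3)
  have h3 : ∀ z ∈ Z1 𝒱 Q.ρB, push e.j z ∈ B1 J.ρB →
      (τ ∘ₗ cup11 Q.ρB Q.φ (push e.π j1)) z = 0 := by
    rintro z - ⟨b, hbz⟩
    have hpb : e.p b ∈ Z0 D.ρB := by
      show d0 D.ρB (e.p b) = 0
      rw [← push_d0 e.p e.p_equiv, hbz, localdev_push_push_B]
    have h4 := h _ hpb
    rw [← nat_cup20 e.adj e.p_equiv f b, ← hj1f] at h4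
    have h5 := leib10 J.equiv j1 b
    rw [hbz, ← nat_cup11 e.adj' e.j_equiv j1 z] at h5
    have h6 : τ (d1 ρμ (cup10 J.ρB J.φ j1 b)) = 0 :=
      hτ _ ⟨_, LC1_cup10 J.φ hJs.2 hj1' b, rfl⟩
    rw [h5, map_sub, h4, zero_sub, neg_eq_zero] at h6
    exact h6
  obtain ⟨ξ, hξB, hξ⟩ := exists_functional_factor (push e.j) (Z1 𝒱 Q.ρB) (B1 J.ρB)
    (τ ∘ₗ cup11 Q.ρB Q.φ (push e.π j1)) h3
  -- (4)
  obtain ⟨e1, he1, he1'⟩ := LPerfect.surj1 hτ hJs hJ ξ hξB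
  -- (5)
  have h5 : push e.π j1 - push e.π e1 ∈ B1 Q.ρA := by
    refine hQ _ (Submodule.sub_mem _ hq (push_mem_Z1 e.π e.π_equiv he1)) fun z hz => ?_
    rw [map_sub, LinearMap.sub_apply, map_sub, nat_cup11 e.adj' e.j_equiv e1 z,
      he1' _ (push_mem_Z1 e.j e.j_equiv hz), hξ z hz]
    simp
  obtain ⟨q0, hq0⟩ := h5
  obtain ⟨j0, rfl⟩ := e.π_surj q0
  -- (6)
  have h6 : ∀ g, ∃ a, e.i a = (j1 - e1 - d0 J.ρA j0) g := by
    intro g
    refine (e.exact_A _).1 ?_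
    have := congrFun hq0 g
    rw [← push_d0 e.π e.π_equiv] at this
    simp only [push_apply, Pi.sub_apply] at this
    simp only [Pi.sub_apply, map_sub]
    rw [this, sub_self]
  choose a ha using h6
  have ha' : push e.i a = j1 - e1 - d0 J.ρA j0 := funext ha
  have hLC : LC1 𝒱 (push e.i a) := by
    rw [ha']
    exact (C1 k 𝒱 J.A).sub_mem ((C1 k 𝒱 J.A).sub_mem hj1 he1.1) (LC1_d0 hJs.1 j0)
  refine ⟨a, LC1_of_push e.i e.i_inj hLC, localdev_push_inj e.toEmb ?_⟩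
  have he1'' : d1 J.ρA e1 = 0 := he1.2
  rw [push_d1 e.i e.i_equiv, ha', map_sub, map_sub, hj1f, he1'', d1_d0, sub_zero, sub_zero]

/-- `H⁰(Q) → H¹(D) → H¹(J)` exact, so `H¹(D)` is finite dimensional -/
theorem fin_of_SES : FiniteDimensional k (HH1 𝒱 D.ρA) := by
  haveI := hJ.finA
  -- `B¹(J.A)` is finite dimensional
  haveI hB : Module.Finite k ↥(B1 J.ρA) := Module.Finite.range (d0 J.ρA)
  haveI hB' : Module.Finite k ↥((B1 J.ρA).comap (Z1 𝒱 J.ρA).subtype) := by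
    let u : ↥((B1 J.ρA).comap (Z1 𝒱 J.ρA).subtype) →ₗ[k] ↥(B1 J.ρA) :=
      LinearMap.codRestrict _ ((Z1 𝒱 J.ρA).subtype ∘ₗ Submodule.subtype _) (fun x => x.2)
    refine Module.Finite.of_injective u ?_
    intro x y hxy
    have := congrArg Subtype.val hxy
    exact Subtype.ext (Subtype.ext this)
  haveI hZ : Module.Finite k ↥(Z1 𝒱 J.ρA) :=
    Module.Finite.of_submodule_quotient ((B1 J.ρA).comap (Z1 𝒱 J.ρA).subtype)
  haveI hZD : Module.Finite k ↥(Z1 𝒱 D.ρA) := by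
    let u : ↥(Z1 𝒱 D.ρA) →ₗ[k] ↥(Z1 𝒱 J.ρA) :=
      LinearMap.codRestrict _ (push e.i ∘ₗ Submodule.subtype _)
        (fun x => push_mem_Z1 e.i e.i_equiv x.2)
    refine Module.Finite.of_injective u ?_
    intro x y hxy
    have := congrArg Subtype.val hxy
    exact Subtype.ext (localdev_push_inj e.toEmb this)
  infer_instance

end steps

include hμ hτ in
/-- LOCAL DUALITY: if every smooth dual pair embeds into a smooth `LPerfect` one, then every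
smooth dual pair is `LPerfect`. -/
theorem local_duality
    (hemb : ∀ D : DualPair k H ρμ, D.IsSmooth 𝒱 →
      ∃ (J : DualPair k H ρμ) (_ : DualPair.Emb D J) (U : Subgroup H), U ∈ 𝒱.mem ∧ J.TrivOn U ∧
        LPerfect 𝒱 τ J)
    (D : DualPair k H ρμ) (hD : D.IsSmooth 𝒱) : LPerfect 𝒱 τ D := by
  have q0 : ∀ D : DualPair k H ρμ, D.IsSmooth 𝒱 → Q0 𝒱 τ D := by
    intro D hD
    obtain ⟨J, e, U, -, -, hJ⟩ := hemb D hD
    exact Q0_of_emb e hJ.q0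
  have q1 : ∀ D : DualPair k H ρμ, D.IsSmooth 𝒱 → Q1 𝒱 τ D := by
    intro D hD
    obtain ⟨J, e, U, hU, hJU, hJ⟩ := hemb D hD
    obtain ⟨Q, s, -, hQ⟩ := e.exists_SES
    have hQs := (hQ U hJU).isSmooth hU
    exact Q1_of_SES hμ hτ s hD (hJU.isSmooth hU) hQs hJ (q0 Q hQs)
  have q2 : ∀ D : DualPair k H ρμ, D.IsSmooth 𝒱 → Q2 𝒱 τ D := by
    intro D hD
    obtain ⟨J, e, U, hU, hJU, hJ⟩ := hemb D hD
    obtain ⟨Q, s, -, hQ⟩ := e.exists_SES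
    have hQs := (hQ U hJU).isSmooth hU
    exact Q2_of_SES hμ hτ s hD (hJU.isSmooth hU) hQs hJ (q1 Q hQs)
  have fin : ∀ D : DualPair k H ρμ, D.IsSmooth 𝒱 → FiniteDimensional k (HH1 𝒱 D.ρA) := by
    intro D hD
    obtain ⟨J, e, U, hU, hJU, hJ⟩ := hemb D hD
    obtain ⟨Q, s, -, hQ⟩ := e.exists_SES
    have hQs := (hQ U hJU).isSmooth hU
    exact fin_of_SES hμ hτ s hD (hJU.isSmooth hU) hQs hJ
  exact ⟨q0 D hD, q1 D hD, q2 D hD, q0 _ hD.swap, q1 _ hD.swap, q2 _ hD.swap, fin D hD,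
    fin _ hD.swap⟩

end Fermat.Agent.S55
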