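import Fermat.Agent.S55.T.Trace
import Fermat.Agent.S55.T.LocalDev
import Fermat.Agent.S55.T.GlobalS1
import Fermat.Agent.S55.T.GlobalS2
import Fermat.Agent.S55.T.BaseGlob

/-!
# S55-T : the abstract Poitou–Tate theorem (assembly)
-/

set_option autoImplicit false

namespace Fermat.Agent.S55

variable {k : Type} [Field k] (P : Sys) {ρμ : Representation k P.G k} (I : ArithInput P ρμ)

/-- local duality at `v` for all smooth dual pairs -/
theorem main_local (v : P.ι) (D : DualPair k (P.Gv v) (P.loc ρμ v))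
    (hD : D.IsSmooth (P.levv v)) : LPerfect (P.levv v) (I.τ v) D := by
  refine local_duality (P.smooth_loc I.smooth v) (I.τ_B2 v) ?_ D hD
  intro D' hD'
  obtain ⟨V, hV, hDV⟩ := hD'.exists_trivOn
  obtain ⟨V', hV'V, hg⟩ := I.locGood v V hV
  have : V'.FiniteIndex := (P.levv v).finiteIndex V' hg.mem
  have hDV' := hDV.mono hV'V
  exact ⟨D'.coind (P.Gv v ⧸ V'), D'.coindEmb _, V', hg.mem, hDV'.coind hg.normal,
    LPerfect_coind (P.smooth_loc I.smooth v) (I.τ_B2 v) (I.τ_inj v) hg D' hDV'⟩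

include I in
/-- good levels are cofinal among the levels on which a given smooth pair is trivial -/
theorem exists_good (D : DualPair k P.G ρμ) (hD : D.IsSmooth P.lev) (U₀ : Subgroup P.G)
    (hU₀ : U₀ ∈ P.lev.mem) : ∃ U ≤ U₀, GlobGood P ρμ U ∧ D.TrivOn U := by
  obtain ⟨U₁, hU₁, hDU₁⟩ := hD.exists_trivOn
  obtain ⟨W, hW, hWU₀, hWU₁⟩ := P.lev.directed U₀ hU₀ U₁ hU₁
  obtain ⟨U, hUW, hg⟩ := I.globGood W hW
  exact ⟨U, hUW.trans hWU₀, hg, hDU₁.mono (hUW.trans hWU₁)⟩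

variable [Nonempty P.ι]

include I in
/-- THE ABSTRACT POITOU–TATE THEOREM -/
theorem main (D : DualPair k P.G ρμ) (hD : D.IsSmooth P.lev) :
    ∃ Bil : ↥(Sha1 P D.ρB) →ₗ[k] ↥(Sha2 P D.ρA) →ₗ[k] k,
      (∀ (y : ↥(Sha1 P D.ρB)) (x : ↥(Sha2 P D.ρA)), (y : P.G → D.B) ∈ B1 D.ρB → Bil y x = 0) ∧
      (∀ (y : ↥(Sha1 P D.ρB)) (x : ↥(Sha2 P D.ρA)),
        (x : P.G × P.G → D.A) ∈ B2 P.lev D.ρA → Bil y x = 0) ∧
      (∀ y, (∀ x, Bil y x = 0) → (y : P.G → D.B) ∈ B1 D.ρB) ∧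
      (∀ x, (∀ y, Bil y x = 0) → (x : P.G × P.G → D.A) ∈ B2 P.lev D.ρA) := by
  obtain ⟨T, hT⟩ := exists_trace P I.smooth I.τ I.τ_B2 I.recip
  have hLD : ∀ (D' : DualPair k P.G ρμ), D'.IsSmooth P.lev →
      ∀ v, LPerfect (P.levv v) (T.τ v) (D'.res (P.r v)) := by
    intro D' hD' v
    rw [hT]
    exact main_local P I v _ (hD'.res (P.r v) (P.compat v))
  have hτinj : ∀ v, ∀ f ∈ Z2 (P.levv v) (P.loc ρμ v), T.τ v f = 0 →
      f ∈ B2 (P.levv v) (P.loc ρμ v) := by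
    rw [hT]; exact I.τ_inj
  -- (S1), left
  have hA1L : ∀ D' : DualPair k P.G ρμ, D'.IsSmooth P.lev → A1L P T D' := by
    intro D' hD'
    refine A1L_of_emb P T D' hD' ?_
    intro a ha
    obtain ⟨U₀, hU₀, ha0⟩ := Z1_vanish ha
    obtain ⟨U, hUU₀, hg, htr⟩ := exists_good P I D' hD' U₀ hU₀
    have : U.FiniteIndex := P.lev.finiteIndex U hg.mem
    exact ⟨D'.coind (P.G ⧸ U), D'.coindEmb _, (htr.coind hg.normal).isSmooth hg.mem,
      const_mem_B1 P D'.ρA hg.normal htr.1 ha.2 (fun s hs => ha0 s (hUU₀ hs)),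
      base_E2 P T I.smooth hτinj hg D' htr⟩
  -- (S1), right
  have hA1R : ∀ D' : DualPair k P.G ρμ, D'.IsSmooth P.lev → A1R P T D' := by
    intro D' hD'
    refine A1R_of_emb P T D' hD' ?_
    intro y hy
    obtain ⟨U₀, hU₀, hy0⟩ := Z1_vanish hy
    obtain ⟨U, hUU₀, hg, htr⟩ := exists_good P I D'.swap hD'.swap U₀ hU₀
    have : U.FiniteIndex := P.lev.finiteIndex U hg.mem
    exact ⟨D'.swap.coind (P.G ⧸ U), D'.swap.coindEmb _, (htr.coind hg.normal).isSmooth hg.mem,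
      const_mem_B1 P D'.ρB hg.normal htr.1 hy.2 (fun s hs => hy0 s (hUU₀ hs)),
      base_E2 P T I.smooth hτinj hg D'.swap htr⟩
  -- (S3) the base case
  have hbase : ∀ (D' : DualPair k P.G ρμ) (U : Subgroup P.G) (_ : GlobGood P ρμ U)
      (_ : D'.TrivOn U) [Finite (P.G ⧸ U)],
      A1Lsurj P T (D'.coind (P.G ⧸ U)) ∧ A2 P T (D'.coind (P.G ⧸ U)) := by
    intro D' U hg htr _
    obtain ⟨s, c, hX1, hX2, hX3⟩ := hg.count
    have hsm : (D'.coind (P.G ⧸ U)).IsSmooth P.lev := (htr.coind hg.normal).isSmooth hg.mem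
    set N := Module.finrank k D'.A with hN
    have hNB : Module.finrank k D'.B = N := D'.finrank_eq.symm
    have hfin : ∀ v, FiniteDimensional k
        ↥(Z1 ((P.levv v).sub (U.comap (P.r v))) (triv k ↥(U.comap (P.r v)))) :=
      fun v => (hg.loc v).fin1
    refine base_of_count P T (D'.coind (P.G ⧸ U)) hsm (hLD _ hsm) (hA1L _ hsm) (hA1R _ hsm)
      (s * N) (c * N) ?_ ?_ ?_ ?_ ?_
    · have := base_X1 P hg.mem hg.normal D'.ρA htr.1 (s + c) hX1
      rwa [← hN, add_mul] at this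
    · have := base_X1 P hg.mem hg.normal D'.ρB htr.2 (s + c) hX1
      rwa [hNB, add_mul] at this
    · calc ∑ v, Module.finrank k (HH1 (P.levv v) (P.loc (D'.coind (P.G ⧸ U)).ρA v))
          ≤ ∑ v, (U ⊔ (P.r v).range).index *
              Module.finrank k ↥(Z1 ((P.levv v).sub (U.comap (P.r v))) (triv k _)) * N := by
            refine Finset.sum_le_sum fun v _ => ?_
            have := hfin v
            exact (base_X2 P hg.mem hg.normal D'.ρA htr.1 v).2
        _ = (∑ v, (U ⊔ (P.r v).range).index *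
              Module.finrank k ↥(Z1 ((P.levv v).sub (U.comap (P.r v))) (triv k _))) * N := by
            rw [Finset.sum_mul]
        _ ≤ 2 * s * N := Nat.mul_le_mul_right N hX2
        _ = 2 * (s * N) := by ring
    · exact base_X3 P hg.mem hg.normal D'.ρA htr.1 c hX3
    · have := base_X3 P hg.mem hg.normal D'.ρB htr.2 c hX3
      rwa [hNB] at this
  -- (S2)
  have hA2 : ∀ D' : DualPair k P.G ρμ, D'.IsSmooth P.lev → A2 P T D' := by
    intro D' hD'
    obtain ⟨U₀, hU₀⟩ := P.lev.nonempty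
    obtain ⟨U, _, hg, htr⟩ := exists_good P I D' hD' U₀ hU₀
    have : U.FiniteIndex := P.lev.finiteIndex U hg.mem
    obtain ⟨Q, e, _, hQ⟩ := (D'.coindEmb (P.G ⧸ U)).exists_SES
    have htrI := htr.coind hg.normal
    have hQs : Q.IsSmooth P.lev := (hQ U htrI).isSmooth hg.mem
    obtain ⟨h1, h2⟩ := hbase D' U hg htr
    exact A2_of_SES P T e hD' (htrI.isSmooth hg.mem) hQs h1 h2 (hA1L Q hQs)
  -- (S4)
  exact sha_pairing P T D hD (hLD D hD) (hA2 D hD) (hA1R D hD)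

end Fermat.Agent.S55
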