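import Fermat.Agent.S55.T.CoindCup
import Fermat.Agent.S55.T.LinAlg
import Fermat.Agent.S55.SH.Export

/-!
# S55-T : the local base case: `LocGood V` ⟹ `LPerfect` for `Map(H/V, D)`, `D` trivial on `V`
-/

set_option autoImplicit false

namespace Fermat.Agent.S55

variable {k : Type} [Field k] {H : Type} [Group H] {𝒱 : Lev H} {ρμ : Representation k H k}
  {τ : (H × H → k) →ₗ[k] k} (hμ : Smooth ρμ 𝒱) (hτ : ∀ f ∈ B2 𝒱 ρμ, τ f = 0)
  (hτinj : ∀ f ∈ Z2 𝒱 ρμ, τ f = 0 → f ∈ B2 𝒱 ρμ)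
  {V : Subgroup H} (hV : LocGood 𝒱 ρμ V)

private theorem baseloc_finite (hV : LocGood 𝒱 ρμ V) : Finite (H ⧸ V) := by
  have := 𝒱.finiteIndex V hV.mem
  infer_instance

/-- `τ ∘ cores` kills coboundaries -/
private theorem baseloc_tau_sum_B2 (hτ : ∀ f ∈ B2 𝒱 ρμ, τ f = 0) (hV : LocGood 𝒱 ρμ V)
    {f : H × H → (H ⧸ V → k)} (hf : f ∈ B2 𝒱 (coind (H ⧸ V) ρμ)) :
    τ (push (sumL (k := k) (A := k) (H ⧸ V)) f) = 0 := by
  have := baseloc_finite hV
  exact hτ _ (push_mem_B2 _ (sumL_equiv (H ⧸ V) ρμ) hf)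

private theorem baseloc_smooth_one {W : Type} [Group W] (𝒲 : Lev W) {A : Type} [AddCommGroup A]
    [Module k A] : Smooth (1 : Representation k W A) 𝒲 := by
  obtain ⟨U, hU⟩ := 𝒲.nonempty
  exact ⟨U, hU, fun _ _ => rfl⟩

/-- every functional on `A` is `φ (·) b` -/
private theorem baseloc_exists_repr {A B : Type} [AddCommGroup A] [Module k A] [AddCommGroup B]
    [Module k B] [FiniteDimensional k A] [FiniteDimensional k B] (φ : A →ₗ[k] B →ₗ[k] k)
    (hl : ∀ a, (∀ b, φ a b = 0) → a = 0) (hr : ∀ b, (∀ a, φ a b = 0) → b = 0)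
    (u : A →ₗ[k] k) : ∃ b : B, ∀ a, u a = φ a b := by
  have hinjA : Function.Injective φ := by
    rw [injective_iff_map_eq_zero]
    intro a ha
    exact hl a fun b => by rw [ha]; rfl
  have hinjB : Function.Injective φ.flip := by
    rw [injective_iff_map_eq_zero]
    intro b hb
    exact hr b fun a => by rw [← LinearMap.flip_apply, hb]; rfl
  have h1 : Module.finrank k A ≤ Module.finrank k B := by
    have := LinearMap.finrank_le_finrank_of_injective hinjA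
    rwa [show Module.finrank k (B →ₗ[k] k) = Module.finrank k B from
      Subspace.dual_finrank_eq] at this
  have h2 : Module.finrank k B ≤ Module.finrank k A := by
    have := LinearMap.finrank_le_finrank_of_injective hinjB
    rwa [show Module.finrank k (A →ₗ[k] k) = Module.finrank k A from
      Subspace.dual_finrank_eq] at this
  have hsurj : Function.Surjective φ.flip :=
    (LinearMap.injective_iff_surjective_of_finrank_eq_finrank (by
      rw [show Module.finrank k (A →ₗ[k] k) = Module.finrank k A from Subspace.dual_finrank_eq]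
      omega)).mp hinjB
  obtain ⟨b, hb⟩ := hsurj u
  exact ⟨b, fun a => by rw [← hb]; rfl⟩

private theorem baseloc_flip_sumPair {A B : Type} [AddCommGroup A] [Module k A] [AddCommGroup B]
    [Module k B] (X : Type) (φ : A →ₗ[k] B →ₗ[k] k) :
    (DualPair.sumPair X φ).flip = DualPair.sumPair X φ.flip := by
  ext f f'
  rfl

include hμ hτ hτinj hV

/-- `τ ∘ cores` is injective on `H²(H, Map(H/V, μ))` -/
theorem tau_sum_inj : ∀ f ∈ Z2 𝒱 (coind (H ⧸ V) ρμ),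
    τ (push (sumL (k := k) (A := k) (H ⧸ V)) f) = 0 → f ∈ B2 𝒱 (coind (H ⧸ V) ρμ) := by
  intro f hf hτf
  have := baseloc_finite hV
  have hcomp : ρμ.comp V.subtype = 1 := comp_subtype_eq_one hV.trivμ
  obtain ⟨f0, hf0, hf0B⟩ := hV.y2
  have hf0Z : push (sumL (k := k) (A := k) (H ⧸ V)) f0 ∈ Z2 𝒱 ρμ :=
    push_mem_Z2 _ (sumL_equiv (H ⧸ V) ρμ) hf0
  have hτf0 : τ (push (sumL (k := k) (A := k) (H ⧸ V)) f0) ≠ 0 := fun h => hf0B (hτinj _ hf0Z h)
  have hsh0 : sh2 (k := k) V f0 ∈ Z2 (𝒱.sub V) (triv k ↥V) := by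
    have := sh2_mem 𝒱 ρμ V hf0
    rwa [hcomp] at this
  have hsh : sh2 (k := k) V f ∈ Z2 (𝒱.sub V) (triv k ↥V) := by
    have := sh2_mem 𝒱 ρμ V hf
    rwa [hcomp] at this
  have hsh0B : sh2 (k := k) V f0 ∉ B2 (𝒱.sub V) (triv k ↥V) := by
    intro h
    apply hf0B
    have h' : sh2 (k := k) V f0 ∈ B2 (𝒱.sub V) (ρμ.comp V.subtype) := by rwa [hcomp]
    exact push_mem_B2 _ (sumL_equiv (H ⧸ V) ρμ) (sh2_inj 𝒱 ρμ V hV.mem hμ hf0 h')
  obtain ⟨c, hc⟩ := hV.y1 _ hsh0 _ hsh hsh0B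
  have hmem : f - c • f0 ∈ B2 𝒱 (coind (H ⧸ V) ρμ) := by
    refine sh2_inj 𝒱 ρμ V hV.mem hμ (Submodule.sub_mem _ hf (Submodule.smul_mem _ c hf0)) ?_
    rw [hcomp, map_sub, map_smul]
    exact hc
  have h0 := baseloc_tau_sum_B2 hτ hV hmem
  rw [map_sub, map_sub, map_smul, map_smul, hτf, zero_sub, neg_eq_zero, smul_eq_mul,
    mul_eq_zero] at h0
  have hc0 : c = 0 := h0.resolve_right hτf0
  rwa [hc0, zero_smul, sub_zero] at hmem

/-- the trace `τ_V = τ ∘ cores ∘ sh⁻¹` on `H²(V,k)`: it is injective and non zero -/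
theorem exists_tauV : ∃ τV : (↥V × ↥V → k) →ₗ[k] k,
    (∀ z ∈ B2 (𝒱.sub V) (triv k ↥V), τV z = 0) ∧
    (∀ z ∈ Z2 (𝒱.sub V) (triv k ↥V), τV z = 0 → z ∈ B2 (𝒱.sub V) (triv k ↥V)) ∧
    (∃ z ∈ Z2 (𝒱.sub V) (triv k ↥V), τV z = 1) ∧
    (∀ f ∈ Z2 𝒱 (coind (H ⧸ V) ρμ),
      τV (sh2 (k := k) V f) = τ (push (sumL (k := k) (A := k) (H ⧸ V)) f)) := by
  have := baseloc_finite hV
  have hcomp : ρμ.comp V.subtype = 1 := comp_subtype_eq_one hV.trivμ
  obtain ⟨τV, hτV0, hτV⟩ := exists_functional_factor (sh2 (k := k) (A := k) V)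
    (Z2 𝒱 (coind (H ⧸ V) ρμ)) (B2 (𝒱.sub V) (triv k ↥V))
    (τ.comp (push (sumL (k := k) (A := k) (H ⧸ V)))) (fun z hz hzB => by
      have h' : sh2 (k := k) V z ∈ B2 (𝒱.sub V) (ρμ.comp V.subtype) := by rwa [hcomp]
      exact baseloc_tau_sum_B2 hτ hV (sh2_inj 𝒱 ρμ V hV.mem hμ hz h'))
  refine ⟨τV, hτV0, ?_, ?_, hτV⟩
  · intro z hz hz0
    have hz' : z ∈ Z2 (𝒱.sub V) (ρμ.comp V.subtype) := by rwa [hcomp]
    obtain ⟨f, hf, rfl⟩ := sh2_surj 𝒱 ρμ V hV.mem hμ hz'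
    rw [hτV f hf] at hz0
    have := sh2_B2 𝒱 ρμ V (tau_sum_inj hμ hτ hτinj hV f hf hz0)
    rwa [hcomp] at this
  · obtain ⟨f0, hf0, hf0B⟩ := hV.y2
    have hf0Z : push (sumL (k := k) (A := k) (H ⧸ V)) f0 ∈ Z2 𝒱 ρμ :=
      push_mem_Z2 _ (sumL_equiv (H ⧸ V) ρμ) hf0
    have hτf0 : τ (push (sumL (k := k) (A := k) (H ⧸ V)) f0) ≠ 0 :=
      fun h => hf0B (hτinj _ hf0Z h)
    have hsh0 : sh2 (k := k) V f0 ∈ Z2 (𝒱.sub V) (triv k ↥V) := by
      have := sh2_mem 𝒱 ρμ V hf0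
      rwa [hcomp] at this
    refine ⟨(τ (push (sumL (k := k) (A := k) (H ⧸ V)) f0))⁻¹ • sh2 (k := k) V f0,
      Submodule.smul_mem _ _ hsh0, ?_⟩
    rw [map_smul, hτV f0 hf0, smul_eq_mul]
    exact inv_mul_cancel₀ hτf0

omit hμ hτ hτinj in
/-- duality over `V` for trivial modules `A`, `B` with a perfect pairing, with respect to any
injective non zero trace `τV` on `H²(V,k)` -/
theorem trivV_duality (τV : (↥V × ↥V → k) →ₗ[k] k)
    (h0 : ∀ z ∈ B2 (𝒱.sub V) (triv k ↥V), τV z = 0)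
    (h1 : ∀ z ∈ Z2 (𝒱.sub V) (triv k ↥V), τV z = 0 → z ∈ B2 (𝒱.sub V) (triv k ↥V))
    (h2 : ∃ z ∈ Z2 (𝒱.sub V) (triv k ↥V), τV z = 1)
    {A B : Type} [AddCommGroup A] [Module k A] [AddCommGroup B] [Module k B]
    [FiniteDimensional k A] [FiniteDimensional k B] (φ : A →ₗ[k] B →ₗ[k] k)
    (hl : ∀ a, (∀ b, φ a b = 0) → a = 0) (hr : ∀ b, (∀ a, φ a b = 0) → b = 0) :
    (∀ a : A, (∀ f ∈ Z2 (𝒱.sub V) (1 : Representation k ↥V B), τV (cup02 φ a f) = 0) → a = 0) ∧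
    (∀ x ∈ Z1 (𝒱.sub V) (1 : Representation k ↥V A),
      (∀ y ∈ Z1 (𝒱.sub V) (1 : Representation k ↥V B),
        τV (cup11 (1 : Representation k ↥V B) φ x y) = 0) → x = 0) ∧
    (∀ f ∈ Z2 (𝒱.sub V) (1 : Representation k ↥V A),
      (∀ b : B, τV (cup20 (1 : Representation k ↥V B) φ f b) = 0) →
        f ∈ B2 (𝒱.sub V) (1 : Representation k ↥V A)) := by
  refine ⟨?_, ?_, ?_⟩
  · intro a ha
    refine hl a fun b => ?_
    obtain ⟨z, hz, hz1⟩ := h2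
    have hf : push (LinearMap.toSpanSingleton k B b) z ∈
        Z2 (𝒱.sub V) (1 : Representation k ↥V B) := triv_push_Z2 _ _ hz
    have h := ha _ hf
    have e : cup02 φ a (push (LinearMap.toSpanSingleton k B b) z) = φ a b • z := by
      ext p
      simp [mul_comm]
    rw [e, map_smul, hz1, smul_eq_mul, mul_one] at h
    exact h
  · intro x hx hxy
    have key : ∀ b : B, push (φ.flip b) x = 0 := by
      intro b
      have hxb : push (φ.flip b) x ∈ Z1 (𝒱.sub V) (triv k ↥V) := triv_push_Z1 _ _ hx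
      refine hV.y3 _ hxb fun y0 hy0 => ?_
      have hy : push (LinearMap.toSpanSingleton k B b) y0 ∈
          Z1 (𝒱.sub V) (1 : Representation k ↥V B) := triv_push_Z1 _ _ hy0
      have e : cup11 (1 : Representation k ↥V B) φ x
          (push (LinearMap.toSpanSingleton k B b) y0) =
          cup11 (triv k ↥V) (mulP k) (push (φ.flip b) x) y0 := by
        ext p
        simp [mul_comm]
      have h := hxy _ hy
      rw [e] at h
      refine h1 _ ?_ h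
      exact cup11_mem_Z2 (ρA := triv k ↥V) (ρM := triv k ↥V) (fun g a b => rfl)
        (baseloc_smooth_one _) hxb hy0
    ext g
    exact hl _ fun b => congrFun (key b) g
  · intro f hf hfb
    refine triv_B2_of_coord _ fun u => ?_
    obtain ⟨b, hb⟩ := baseloc_exists_repr φ hl hr u
    have e : push u f = cup20 (1 : Representation k ↥V B) φ f b := by
      ext p
      simp [hb]
    rw [e]
    refine h1 _ ?_ (hfb b)
    rw [← e]
    exact triv_push_Z2 _ _ hf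

/-- left non-degeneracy in all degrees for the coinduced pair -/
theorem Q_coind (D : DualPair k H ρμ) (hD : D.TrivOn V) [Finite (H ⧸ V)] :
    Q0 𝒱 τ (D.coind (H ⧸ V)) ∧ Q1 𝒱 τ (D.coind (H ⧸ V)) ∧ Q2 𝒱 τ (D.coind (H ⧸ V)) := by
  obtain ⟨τV, h0, h1, h2, h3⟩ := exists_tauV hμ hτ hτinj hV
  obtain ⟨q0, q1, q2⟩ := trivV_duality hV τV h0 h1 h2 D.φ D.left D.right
  have hA : D.ρA.comp V.subtype = 1 := comp_subtype_eq_one hD.1
  have hB : D.ρB.comp V.subtype = 1 := comp_subtype_eq_one hD.2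
  have hsA : Smooth D.ρA 𝒱 := ⟨V, hV.mem, hD.1⟩
  have hsB : Smooth D.ρB 𝒱 := ⟨V, hV.mem, hD.2⟩
  have hsBc : Smooth (coind (H ⧸ V) D.ρB) 𝒱 := ((hD.coind hV.normal).isSmooth hV.mem).2
  have hpt := ptPair_equiv D.ρA D.ρB ρμ D.φ (H ⧸ V) D.equiv
  refine ⟨?_, ?_, ?_⟩
  · intro a ha h
    refine sh0_inj D.ρA V ha (q0 _ fun f' hf' => ?_)
    have hf'' : f' ∈ Z2 (𝒱.sub V) (D.ρB.comp V.subtype) := by rwa [hB]
    obtain ⟨f, hf, rfl⟩ := sh2_surj 𝒱 D.ρB V hV.mem hsB hf''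
    rw [← sh2_cup02, h3 _ (cup02_mem_Z2 hpt ha hf), ← cup02_sumPair]
    exact h f hf
  · intro x hx h
    refine sh1_inj 𝒱 D.ρA V hx ?_
    have hx' : sh1 (k := k) V x ∈ Z1 (𝒱.sub V) (1 : Representation k ↥V D.A) := by
      have := sh1_mem 𝒱 D.ρA V hx
      rwa [hA] at this
    have hx0 : sh1 (k := k) V x = 0 := by
      refine q1 _ hx' fun y' hy' => ?_
      have hy'' : y' ∈ Z1 (𝒱.sub V) (D.ρB.comp V.subtype) := by rwa [hB]
      obtain ⟨y, hy, rfl⟩ := sh1_surj 𝒱 D.ρB V hV.mem hsB hy''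
      rw [← hB, ← sh2_cup11, h3 _ (cup11_mem_Z2 hpt hsBc hx hy), ← cup11_sumPair]
      exact h y hy
    rw [hx0]
    exact Submodule.zero_mem _
  · intro f hf h
    refine sh2_inj 𝒱 D.ρA V hV.mem hsA hf ?_
    rw [hA]
    have hf' : sh2 (k := k) V f ∈ Z2 (𝒱.sub V) (1 : Representation k ↥V D.A) := by
      have := sh2_mem 𝒱 D.ρA V hf
      rwa [hA] at this
    refine q2 _ hf' fun b => ?_
    have hb : b ∈ Z0 (D.ρB.comp V.subtype) := by
      rw [hB]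
      exact triv_Z0 b
    obtain ⟨b', hb', rfl⟩ := sh0_surj D.ρB V hb
    rw [← hB, ← sh2_cup20, h3 _ (cup20_mem_Z2 hpt hsBc hf hb'), ← cup20_sumPair]
    exact h b' hb'

omit hτ hτinj in
/-- finiteness of `H¹(H, Map(H/V, A))` -/
theorem fin_coind {A : Type} [AddCommGroup A] [Module k A] [FiniteDimensional k A]
    (ρ : Representation k H A) (hρ : ∀ s ∈ V, ρ s = 1) :
    FiniteDimensional k (HH1 𝒱 (coind (H ⧸ V) ρ)) ∧
    Module.finrank k (HH1 𝒱 (coind (H ⧸ V) ρ)) ≤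
      Module.finrank k ↥(Z1 (𝒱.sub V) (triv k ↥V)) * Module.finrank k A := by
  have hcomp : ρ.comp V.subtype = 1 := comp_subtype_eq_one hρ
  have := hV.fin1
  obtain ⟨hfin, hrank⟩ := triv_finrank_Z1 (k := k) (𝒱.sub V) (A := A)
  let g : ↥(Z1 𝒱 (coind (H ⧸ V) ρ)) →ₗ[k] ↥(Z1 (𝒱.sub V) (1 : Representation k ↥V A)) :=
    ((sh1 (k := k) V).comp (Z1 𝒱 (coind (H ⧸ V) ρ)).subtype).codRestrict _ (fun f => by
      have := sh1_mem 𝒱 ρ V f.2
      rwa [hcomp] at this)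
  have hker : (B1 (coind (H ⧸ V) ρ)).comap (Z1 𝒱 (coind (H ⧸ V) ρ)).subtype ≤
      LinearMap.ker g := by
    intro f hf
    rw [LinearMap.mem_ker]
    apply Subtype.ext
    have h1 := sh1_B1 ρ V (f := (f : H → (H ⧸ V → A))) hf
    rw [hcomp] at h1
    exact triv_B1 h1
  have hinj : Function.Injective (Submodule.liftQ _ g hker) := by
    rw [← LinearMap.ker_eq_bot]
    apply Submodule.ker_liftQ_eq_bot
    intro f hf
    rw [LinearMap.mem_ker] at hf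
    have h0 : sh1 (k := k) V (f : H → (H ⧸ V → A)) = 0 := congrArg Subtype.val hf
    show (f : H → (H ⧸ V → A)) ∈ B1 (coind (H ⧸ V) ρ)
    refine sh1_inj 𝒱 ρ V f.2 ?_
    rw [h0]
    exact Submodule.zero_mem _
  refine ⟨Module.Finite.of_injective _ hinj, ?_⟩
  rw [← hrank]
  exact LinearMap.finrank_le_finrank_of_injective hinj

/-- THE LOCAL BASE CASE -/
theorem LPerfect_coind (D : DualPair k H ρμ) (hD : D.TrivOn V) [Finite (H ⧸ V)] :
    LPerfect 𝒱 τ (D.coind (H ⧸ V)) := by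
  obtain ⟨q0, q1, q2⟩ := Q_coind hμ hτ hτinj hV D hD
  obtain ⟨q0', q1', q2'⟩ := Q_coind hμ hτ hτinj hV D.swap hD.swap
  have hφ := baseloc_flip_sumPair (k := k) (H ⧸ V) D.φ
  refine ⟨q0, q1, q2, ?_, ?_, ?_, (fin_coind hμ hV D.ρA hD.1).1, (fin_coind hμ hV D.ρB hD.2).1⟩
  · intro a ha h
    refine q0' a ha fun f hf => ?_
    have h' : τ (cup02 (DualPair.sumPair (H ⧸ V) D.φ).flip a f) = 0 := h f hf
    rw [hφ] at h'
    exact h'
  · intro x hx h
    refine q1' x hx fun y hy => ?_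
    have h' : τ (cup11 (coind (H ⧸ V) D.ρA) (DualPair.sumPair (H ⧸ V) D.φ).flip x y) = 0 := h y hy
    rw [hφ] at h'
    exact h'
  · intro f hf h
    refine q2' f hf fun b hb => ?_
    have h' : τ (cup20 (coind (H ⧸ V) D.ρA) (DualPair.sumPair (H ⧸ V) D.φ).flip f b) = 0 := h b hb
    rw [hφ] at h'
    exact h'

end Fermat.Agent.S55
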