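import Fermat.Agent.S55.Defs3

/-!
# S55-T : the quotient dual pair of an embedding of dual pairs; coinduced pairs are smooth
-/

set_option autoImplicit false

namespace Fermat.Agent.S55

variable {k : Type} [Field k] {G : Type} [Group G] {ρμ : Representation k G k}

section linalg

variable {A B : Type} [AddCommGroup A] [Module k A] [FiniteDimensional k A]
  [AddCommGroup B] [Module k B] [FiniteDimensional k B] (φ : A →ₗ[k] B →ₗ[k] k)

private theorem quot_finrank_le (left : ∀ a, (∀ b, φ a b = 0) → a = 0) :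
    Module.finrank k A ≤ Module.finrank k B := by
  have hinj : Function.Injective φ := by
    rw [← LinearMap.ker_eq_bot, LinearMap.ker_eq_bot']
    intro a ha
    exact left a (fun b => by rw [ha]; rfl)
  have := LinearMap.finrank_le_finrank_of_injective hinj
  rwa [show Module.finrank k (B →ₗ[k] k) = Module.finrank k B from Subspace.dual_finrank_eq] at this

private theorem quot_finrank_eq (left : ∀ a, (∀ b, φ a b = 0) → a = 0)
    (right : ∀ b, (∀ a, φ a b = 0) → b = 0) : Module.finrank k A = Module.finrank k B :=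
  le_antisymm (quot_finrank_le φ left) (quot_finrank_le φ.flip right)

/-- every functional on `B` is represented by an element of `A` -/
private theorem quot_exists_repr (left : ∀ a, (∀ b, φ a b = 0) → a = 0)
    (right : ∀ b, (∀ a, φ a b = 0) → b = 0) (l : B →ₗ[k] k) : ∃ a, ∀ b, φ a b = l b := by
  have hinj : Function.Injective φ := by
    rw [← LinearMap.ker_eq_bot, LinearMap.ker_eq_bot']
    intro a ha
    exact left a (fun b => by rw [ha]; rfl)
  have hdim : Module.finrank k A = Module.finrank k (B →ₗ[k] k) := by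
    rw [show Module.finrank k (B →ₗ[k] k) = Module.finrank k B from Subspace.dual_finrank_eq]
    exact quot_finrank_eq φ left right
  obtain ⟨a, ha⟩ := (LinearMap.injective_iff_surjective_of_finrank_eq_finrank hdim).1 hinj l
  exact ⟨a, fun b => by rw [ha]⟩

end linalg

/-- Every embedding `D ↪ I` of dual pairs can be completed to a short exact sequence:
`Q.A = I.A / i(D.A)`, `Q.B = ker (p : I.B → D.B)`, with the induced actions and pairing. -/
theorem DualPair.Emb.exists_SES {D I : DualPair k G ρμ} (e : DualPair.Emb D I) :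
    ∃ (Q : DualPair k G ρμ) (s : DualPair.SES D I Q), s.toEmb = e ∧
      (∀ U : Subgroup G, I.TrivOn U → Q.TrivOn U) := by
  set N : Submodule k I.A := LinearMap.range e.i with hN
  set K : Submodule k I.B := LinearMap.ker e.p with hK
  have hNinv : ∀ g, N ≤ N.comap (I.ρA g) := by
    rintro g _ ⟨a, rfl⟩
    exact ⟨D.ρA g a, e.i_equiv g a⟩
  have hKinv : ∀ g, ∀ x ∈ K, I.ρB g x ∈ K := by
    intro g x hx
    have hx' : e.p x = 0 := hx
    show e.p (I.ρB g x) = 0
    rw [e.p_equiv, hx', map_zero]
  let ρQA : Representation k G (I.A ⧸ N) :=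
    { toFun := fun g => N.mapQ N (I.ρA g) (hNinv g)
      map_one' := by
        apply Submodule.linearMap_qext
        ext x
        simp
      map_mul' := fun g h => by
        apply Submodule.linearMap_qext
        ext x
        simp }
  let ρQB : Representation k G K :=
    { toFun := fun g => (I.ρB g).restrict (hKinv g)
      map_one' := by
        ext x
        simp
      map_mul' := fun g h => by
        ext x
        simp }
  let ψ : I.A →ₗ[k] K →ₗ[k] k := I.φ.compl₂ K.subtype
  have hψ : N ≤ LinearMap.ker ψ := by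
    rintro _ ⟨a, rfl⟩
    rw [LinearMap.mem_ker]
    ext z
    have hz : e.p (z : I.B) = 0 := z.2
    show I.φ (e.i a) z = 0
    rw [e.adj, hz, map_zero]
  let φQ : (I.A ⧸ N) →ₗ[k] K →ₗ[k] k := N.liftQ ψ hψ
  have hφQ : ∀ (x : I.A) (z : K), φQ (N.mkQ x) z = I.φ x z := fun x z => rfl
  -- `p` is surjective
  have hpsurj : Function.Surjective e.p := by
    rw [← LinearMap.dualMap_injective_iff, ← LinearMap.ker_eq_bot, LinearMap.ker_eq_bot']
    intro l hl
    obtain ⟨a, ha⟩ := quot_exists_repr D.φ D.left D.right l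
    have h0 : e.i a = 0 := by
      apply I.left
      intro z
      rw [e.adj, ha]
      exact LinearMap.congr_fun hl z
    have ha0 : a = 0 := e.i_inj (by rw [h0, map_zero])
    ext b
    rw [← ha, ha0]
    simp
  let Q : DualPair k G ρμ :=
    { A := I.A ⧸ N
      B := K
      ρA := ρQA
      ρB := ρQB
      φ := φQ
      equiv := by
        intro g a b
        obtain ⟨x, rfl⟩ := N.mkQ_surjective a
        exact I.equiv g x b
      left := by
        intro a h
        obtain ⟨x, rfl⟩ := N.mkQ_surjective a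
        -- the functional `I.φ x` kills `ker p`, so it factors through `p`
        have hmem : I.φ x ∈ (LinearMap.ker e.p).dualAnnihilator := by
          rw [Submodule.mem_dualAnnihilator]
          intro z hz
          exact h ⟨z, hz⟩
        rw [← LinearMap.range_dualMap_eq_dualAnnihilator_ker] at hmem
        obtain ⟨l, hl⟩ := hmem
        obtain ⟨a, ha⟩ := quot_exists_repr D.φ D.left D.right l
        have hx : x = e.i a := by
          rw [← sub_eq_zero]
          apply I.left
          intro z
          rw [map_sub, LinearMap.sub_apply, e.adj, ha, ← hl]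
          simp
        rw [Submodule.mkQ_apply, Submodule.Quotient.mk_eq_zero]
        exact ⟨a, hx.symm⟩
      right := by
        intro z h
        apply Subtype.ext
        apply I.right
        intro x
        exact h (N.mkQ x) }
  let s : DualPair.SES D I Q :=
    { e with
      π := N.mkQ
      j := K.subtype
      π_surj := N.mkQ_surjective
      p_surj := hpsurj
      j_inj := Subtype.val_injective
      π_equiv := fun g a => rfl
      j_equiv := fun g b => rfl
      adj' := fun a b => rfl
      exact_A := fun x => by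
        rw [Submodule.mkQ_apply, Submodule.Quotient.mk_eq_zero]
        rfl
      exact_B := fun y => ⟨fun h => ⟨⟨y, h⟩, rfl⟩, by rintro ⟨b, rfl⟩; exact b.2⟩ }
  refine ⟨Q, s, rfl, ?_⟩
  intro U hU
  constructor
  · intro t ht
    show ρQA t = 1
    apply Submodule.linearMap_qext
    ext x
    show N.mkQ (I.ρA t x) = N.mkQ x
    rw [hU.1 t ht]
    rfl
  · intro t ht
    show ρQB t = 1
    ext x
    show I.ρB t x = x
    rw [hU.2 t ht]
    rfl

theorem DualPair.TrivOn.isSmooth {D : DualPair k G ρμ} {U : Subgroup G} (h : D.TrivOn U)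
    {𝒰 : Lev G} (hU : U ∈ 𝒰.mem) : D.IsSmooth 𝒰 :=
  ⟨⟨U, hU, h.1⟩, ⟨U, hU, h.2⟩⟩

theorem DualPair.IsSmooth.exists_trivOn {D : DualPair k G ρμ} {𝒰 : Lev G} (h : D.IsSmooth 𝒰) :
    ∃ U ∈ 𝒰.mem, D.TrivOn U := by
  obtain ⟨⟨U, hU, h1⟩, ⟨V, hV, h2⟩⟩ := h
  obtain ⟨W, hW, hWU, hWV⟩ := 𝒰.directed U hU V hV
  exact ⟨W, hW, fun s hs => h1 s (hWU hs), fun s hs => h2 s (hWV hs)⟩

theorem DualPair.TrivOn.mono {D : DualPair k G ρμ} {U V : Subgroup G} (h : D.TrivOn U)
    (hVU : V ≤ U) : D.TrivOn V :=
  ⟨fun s hs => h.1 s (hVU hs), fun s hs => h.2 s (hVU hs)⟩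

theorem DualPair.TrivOn.swap {D : DualPair k G ρμ} {U : Subgroup G} (h : D.TrivOn U) :
    D.swap.TrivOn U :=
  ⟨h.2, h.1⟩

theorem DualPair.IsSmooth.swap {D : DualPair k G ρμ} {𝒰 : Lev G} (h : D.IsSmooth 𝒰) :
    D.swap.IsSmooth 𝒰 :=
  ⟨h.2, h.1⟩

private theorem quot_smul_eq {U : Subgroup G} (hU : U.Normal) {s : G} (hs : s ∈ U) (x : G ⧸ U) :
    s⁻¹ • x = x := by
  induction x using QuotientGroup.induction_on with
  | H y =>
    rw [MulAction.Quotient.smul_coe, smul_eq_mul, QuotientGroup.eq]
    have h1 : y⁻¹ * s * y⁻¹⁻¹ ∈ U := hU.conj_mem s hs y⁻¹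
    have h2 : (s⁻¹ * y)⁻¹ * y = y⁻¹ * s * y⁻¹⁻¹ := by group
    rw [h2]; exact h1

/-- the coinduced pair from a normal subgroup acting trivially is trivial on that subgroup -/
theorem DualPair.TrivOn.coind {D : DualPair k G ρμ} {U : Subgroup G} (h : D.TrivOn U)
    (hU : U.Normal) [Finite (G ⧸ U)] : (D.coind (G ⧸ U)).TrivOn U := by
  constructor
  · intro s hs
    ext f x
    show D.ρA s (f (s⁻¹ • x)) = f x
    rw [quot_smul_eq hU hs, h.1 s hs]
    rfl
  · intro s hs
    ext f x
    show D.ρB s (f (s⁻¹ • x)) = f x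
    rw [quot_smul_eq hU hs, h.2 s hs]
    rfl

theorem DualPair.IsSmooth.res {D : DualPair k G ρμ} {𝒰 : Lev G} (h : D.IsSmooth 𝒰)
    {H : Type} [Group H] (r : H →* G) {𝒱 : Lev H} (hc : ∀ W ∈ 𝒰.mem, W.comap r ∈ 𝒱.mem) :
    (D.res r).IsSmooth 𝒱 := by
  obtain ⟨⟨U, hU, h1⟩, ⟨V, hV, h2⟩⟩ := h
  exact ⟨⟨U.comap r, hc U hU, fun s hs => h1 _ hs⟩, ⟨V.comap r, hc V hV, fun s hs => h2 _ hs⟩⟩

/-- a representation which is trivial on `V` restricts to the trivial representation of `V` -/
theorem comp_subtype_eq_one {A : Type} [AddCommGroup A] [Module k A] {ρ : Representation k G A}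
    {V : Subgroup G} (h : ∀ s ∈ V, ρ s = 1) : ρ.comp V.subtype = 1 := by
  ext s : 1
  exact h s s.2

/-- `dim A = dim B` for a dual pair -/
theorem DualPair.finrank_eq (D : DualPair k G ρμ) :
    Module.finrank k D.A = Module.finrank k D.B :=
  quot_finrank_eq D.φ D.left D.right

/-- dual bases -/
theorem DualPair.exists_dual_bases (D : DualPair k G ρμ) :
    ∃ (a : Fin (Module.finrank k D.A) → D.A) (b : Fin (Module.finrank k D.A) → D.B),
      (∀ x : D.A, x = ∑ i, D.φ x (b i) • a i) ∧ (∀ y : D.B, y = ∑ i, D.φ (a i) y • b i) ∧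
      (∀ i j, D.φ (a i) (b j) = if i = j then 1 else 0) := by
  classical
  let a := Module.finBasis k D.A
  have hb : ∀ i, ∃ b : D.B, ∀ x, D.φ x b = a.coord i x := fun i =>
    quot_exists_repr D.φ.flip D.right D.left (a.coord i)
  choose b hb using hb
  have h1 : ∀ x : D.A, x = ∑ i, D.φ x (b i) • a i := by
    intro x
    conv_lhs => rw [← a.sum_repr x]
    refine Finset.sum_congr rfl fun i _ => ?_
    rw [hb, Module.Basis.coord_apply]
  refine ⟨a, b, h1, ?_, ?_⟩
  · intro y
    rw [← sub_eq_zero]
    apply D.right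
    intro x
    rw [map_sub, map_sum, sub_eq_zero]
    conv_lhs => rw [h1 x]
    rw [map_sum, LinearMap.sum_apply]
    refine Finset.sum_congr rfl fun i _ => ?_
    rw [map_smul, LinearMap.smul_apply, map_smul, smul_eq_mul, smul_eq_mul, mul_comm]
  · intro i j
    rw [hb, Module.Basis.coord_apply, Module.Basis.repr_self, Finsupp.single_apply]

end Fermat.Agent.S55
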