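import Fermat.Agent.S55.T.Leibniz
import Fermat.Agent.S55.T.Quot
import Fermat.Agent.S55.ShDefs

/-!
# S55-T : cup products on coinduced modules and the Shapiro maps (cochain identities);
modules with trivial action.
-/

set_option autoImplicit false

namespace Fermat.Agent.S55

section coindcup

variable {k : Type} [Field k] {H : Type} [Group H]
variable {A B : Type} [AddCommGroup A] [Module k A] [AddCommGroup B] [Module k B]
variable (ρA : Representation k H A) (ρB : Representation k H B) (ρμ : Representation k H k)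
variable (φ : A →ₗ[k] B →ₗ[k] k)
variable (X : Type) [MulAction H X]

/-- the pointwise pairing `Map(X,A) × Map(X,B) → Map(X,μ)` is equivariant -/
theorem ptPair_equiv (hφ : ∀ g a b, φ (ρA g a) (ρB g b) = ρμ g (φ a b)) (g : H) (f : X → A)
    (f' : X → B) :
    DualPair.ptPair X φ (coind X ρA g f) (coind X ρB g f') =
      coind X ρμ g (DualPair.ptPair X φ f f') := by
  ext x
  simp only [DualPair.ptPair_apply, coind_apply, hφ]

/-- summation `Map(X,μ) → μ` is equivariant -/
theorem sumL_equiv [Finite X] {M : Type} [AddCommGroup M] [Module k M] (ρ : Representation k H M)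
    (g : H) (f : X → M) : sumL (k := k) X (coind X ρ g f) = ρ g (sumL (k := k) X f) := by
  cases nonempty_fintype X
  simp only [sumL_apply, coind_apply, ← map_sum]
  congr 1
  exact Fintype.sum_equiv (MulAction.toPerm g⁻¹) _ _ (fun x => rfl)

/-- constant functions `A → Map(X,A)` are equivariant -/
theorem constL_equiv {M : Type} [AddCommGroup M] [Module k M] (ρ : Representation k H M)
    (g : H) (a : M) : constL (k := k) X (ρ g a) = coind X ρ g (constL (k := k) X a) := by
  ext x
  rfl

/-- cup products for `sumPair` are the sum of the cup products for `ptPair` -/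
theorem cup02_sumPair (a : X → A) (f : H × H → (X → B)) :
    cup02 (DualPair.sumPair X φ) a f = push (sumL (k := k) X) (cup02 (DualPair.ptPair X φ) a f) := by
  ext p
  rfl
theorem cup11_sumPair (x : H → (X → A)) (y : H → (X → B)) :
    cup11 (coind X ρB) (DualPair.sumPair X φ) x y =
      push (sumL (k := k) X) (cup11 (coind X ρB) (DualPair.ptPair X φ) x y) := by
  ext p
  rfl
theorem cup20_sumPair (f : H × H → (X → A)) (b : X → B) :
    cup20 (coind X ρB) (DualPair.sumPair X φ) f b =
      push (sumL (k := k) X) (cup20 (coind X ρB) (DualPair.ptPair X φ) f b) := by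
  ext p
  rfl

end coindcup

section shcup

variable {k : Type} [Field k] {H : Type} [Group H] (V : Subgroup H)
variable {A B : Type} [AddCommGroup A] [Module k A] [AddCommGroup B] [Module k B]
variable (ρB : Representation k H B) (φ : A →ₗ[k] B →ₗ[k] k)

private theorem coindcup_inv_smul_one {v : H} (hv : v ∈ V) :
    v⁻¹ • (((1 : H) : H ⧸ V)) = ((1 : H) : H ⧸ V) := by
  rw [MulAction.Quotient.smul_coe, QuotientGroup.eq]
  simpa using hv

/-- the Shapiro maps are multiplicative on the nose -/
theorem sh2_cup02 (a : H ⧸ V → A) (f : H × H → (H ⧸ V → B)) :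
    sh2 (k := k) V (cup02 (DualPair.ptPair (H ⧸ V) φ) a f) =
      cup02 φ (sh0 (k := k) V a) (sh2 (k := k) V f) := by
  ext p
  rfl
theorem sh2_cup11 (x : H → (H ⧸ V → A)) (y : H → (H ⧸ V → B)) :
    sh2 (k := k) V (cup11 (coind (H ⧸ V) ρB) (DualPair.ptPair (H ⧸ V) φ) x y) =
      cup11 (ρB.comp V.subtype) φ (sh1 (k := k) V x) (sh1 (k := k) V y) := by
  ext p
  simp only [sh2_apply, cup11_apply, DualPair.ptPair_apply, coind_apply, sh1_apply,
    coindcup_inv_smul_one V p.1.2]
  rfl
theorem sh2_cup20 (f : H × H → (H ⧸ V → A)) (b : H ⧸ V → B) :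
    sh2 (k := k) V (cup20 (coind (H ⧸ V) ρB) (DualPair.ptPair (H ⧸ V) φ) f b) =
      cup20 (ρB.comp V.subtype) φ (sh2 (k := k) V f) (sh0 (k := k) V b) := by
  ext p
  simp only [sh2_apply, cup20_apply, DualPair.ptPair_apply, coind_apply, sh0_apply,
    coindcup_inv_smul_one V (V.mul_mem p.1.2 p.2.2)]
  rfl

end shcup

section trivial

/-! ### trivial action: reduction from coefficients `A` to coefficients `k` -/

variable {k : Type} [Field k] {W : Type} [Group W] (𝒲 : Lev W)
variable {A B : Type} [AddCommGroup A] [Module k A] [AddCommGroup B] [Module k B]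

/-- a linear map of coefficients maps cocycles to cocycles etc. (trivial actions) -/
theorem triv_push_Z1 (u : A →ₗ[k] B) {x : W → A} (hx : x ∈ Z1 𝒲 (1 : Representation k W A)) :
    push u x ∈ Z1 𝒲 (1 : Representation k W B) := push_mem_Z1 u (fun _ _ => rfl) hx
theorem triv_push_Z2 (u : A →ₗ[k] B) {x : W × W → A} (hx : x ∈ Z2 𝒲 (1 : Representation k W A)) :
    push u x ∈ Z2 𝒲 (1 : Representation k W B) := push_mem_Z2 u (fun _ _ => rfl) hx
theorem triv_push_B2 (u : A →ₗ[k] B) {x : W × W → A} (hx : x ∈ B2 𝒲 (1 : Representation k W A)) :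
    push u x ∈ B2 𝒲 (1 : Representation k W B) := push_mem_B2 u (fun _ _ => rfl) hx
/-- `B¹ = 0` for the trivial action -/
theorem triv_B1 {x : W → A} (hx : x ∈ B1 (1 : Representation k W A)) : x = 0 := by
  obtain ⟨a, rfl⟩ := hx
  ext g
  exact sub_self a
theorem triv_Z0 (a : A) : a ∈ Z0 (1 : Representation k W A) := mem_Z0.2 fun _ => rfl

/-- the inclusion `k → A`, `c ↦ c • a`. -/
private noncomputable abbrev coindcup_ι (a : A) : k →ₗ[k] A := LinearMap.toSpanSingleton k A a

/-- reconstruction of a function from its coordinates -/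
private theorem coindcup_sum_push {n : ℕ} (b : Module.Basis (Fin n) k A) {X : Type} (f : X → A) :
    ∑ i, push (coindcup_ι (k := k) (b i)) (push (b.coord i) f) = f := by
  ext p
  rw [Finset.sum_apply]
  simp only [push_apply, LinearMap.toSpanSingleton_apply, Module.Basis.coord_apply]
  exact b.sum_repr (f p)

/-- coordinates of a sum -/
private theorem coindcup_coord_sum {n : ℕ} (b : Module.Basis (Fin n) k A) {X : Type}
    (y : Fin n → X → k) (j : Fin n) :
    push (b.coord j) (∑ i, push (coindcup_ι (k := k) (b i)) (y i)) = y j := by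
  ext p
  rw [push_apply, Finset.sum_apply, map_sum]
  simp only [push_apply, LinearMap.toSpanSingleton_apply, map_smul, Module.Basis.coord_apply,
    Module.Basis.repr_self, smul_eq_mul]
  rw [Finset.sum_eq_single j]
  · simp
  · intro i _ hij
    simp [Finsupp.single_eq_of_ne hij.symm]
  · intro h
    exact absurd (Finset.mem_univ j) h

private theorem coindcup_B2_of_basis {n : ℕ} (b : Module.Basis (Fin n) k A) {f : W × W → A}
    (h : ∀ i, push (b.coord i) f ∈ B2 𝒲 (triv k W)) :
    f ∈ B2 𝒲 (1 : Representation k W A) := by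
  rw [← coindcup_sum_push b f]
  exact Submodule.sum_mem _ fun i _ => triv_push_B2 𝒲 _ (h i)

/-- a 2-cocycle with values in a finite dimensional trivial module is a coboundary as soon as all
its coordinates are -/
theorem triv_B2_of_coord [FiniteDimensional k A] {f : W × W → A}
    (h : ∀ u : A →ₗ[k] k, push u f ∈ B2 𝒲 (triv k W)) :
    f ∈ B2 𝒲 (1 : Representation k W A) :=
  coindcup_B2_of_basis 𝒲 (Module.finBasis k A) fun _ => h _

/-- `Hom(W,A) ≃ Hom(W,k)^n`. -/
private noncomputable def coindcup_equivZ1 {n : ℕ} (b : Module.Basis (Fin n) k A) :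
    ↥(Z1 𝒲 (1 : Representation k W A)) ≃ₗ[k] (Fin n → ↥(Z1 𝒲 (triv k W))) :=
  LinearEquiv.ofLinearMap
    (LinearMap.pi fun i =>
      ((push (b.coord i)).comp (Z1 𝒲 (1 : Representation k W A)).subtype).codRestrict
        (Z1 𝒲 (triv k W)) (fun x => triv_push_Z1 𝒲 (b.coord i) x.2))
    (LinearMap.codRestrict (Z1 𝒲 (1 : Representation k W A))
      (∑ i, ((push (coindcup_ι (k := k) (b i))).comp (Z1 𝒲 (triv k W)).subtype).comp
        (LinearMap.proj i))
      (fun y => by
        rw [LinearMap.sum_apply]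
        exact Submodule.sum_mem _ fun i _ =>
          triv_push_Z1 𝒲 (coindcup_ι (k := k) (b i)) (y i).2))
    (LinearMap.ext fun y => funext fun j => Subtype.ext (by
      change push (b.coord j) ((∑ i, ((push (coindcup_ι (k := k) (b i))).comp
        (Z1 𝒲 (triv k W)).subtype).comp (LinearMap.proj i)) y) = (y j).1
      rw [LinearMap.sum_apply]
      exact coindcup_coord_sum b (fun i => (y i).1) j))
    (LinearMap.ext fun x => Subtype.ext (by
      change (∑ i, ((push (coindcup_ι (k := k) (b i))).comp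
        (Z1 𝒲 (triv k W)).subtype).comp (LinearMap.proj i))
          (fun i => (⟨push (b.coord i) x.1, triv_push_Z1 𝒲 (b.coord i) x.2⟩ :
            ↥(Z1 𝒲 (triv k W)))) = x.1
      rw [LinearMap.sum_apply]
      exact coindcup_sum_push b x.1))

/-- `dim Hom(W,A) = dim Hom(W,k) · dim A` -/
theorem triv_finrank_Z1 [FiniteDimensional k A] [FiniteDimensional k ↥(Z1 𝒲 (triv k W))] :
    FiniteDimensional k ↥(Z1 𝒲 (1 : Representation k W A)) ∧
    Module.finrank k ↥(Z1 𝒲 (1 : Representation k W A)) =
      Module.finrank k ↥(Z1 𝒲 (triv k W)) * Module.finrank k A := by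
  have e := coindcup_equivZ1 𝒲 (Module.finBasis k A)
  refine ⟨Module.Finite.equiv e.symm, ?_⟩
  rw [e.finrank_eq, Module.finrank_pi_fintype, Finset.sum_const, Finset.card_univ,
    Fintype.card_fin, smul_eq_mul, mul_comm]

/-- `n` independent elements of `Hom(W,k)` give `n · dim A` independent elements of `Hom(W,A)` -/
theorem triv_indep_Z1 [FiniteDimensional k A] (n : ℕ)
    (h : ∃ φ : (Fin n → k) →ₗ[k] (W → k), Function.Injective φ ∧ ∀ x, φ x ∈ Z1 𝒲 (triv k W)) :
    ∃ φ : (Fin (n * Module.finrank k A) → k) →ₗ[k] (W → A), Function.Injective φ ∧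
      ∀ x, φ x ∈ Z1 𝒲 (1 : Representation k W A) := by
  obtain ⟨φ, hinj, hφ⟩ := h
  set b := Module.finBasis k A with hb
  let sl : Fin (Module.finrank k A) → (Fin (n * Module.finrank k A) → k) →ₗ[k] (Fin n → k) :=
    fun j => LinearMap.funLeft k k (fun i => finProdFinEquiv (i, j))
  refine ⟨∑ j, ((push (coindcup_ι (k := k) (b j))).comp φ).comp (sl j), ?_, fun x => ?_⟩
  · rw [injective_iff_map_eq_zero]
    intro z hz
    rw [LinearMap.sum_apply] at hz
    have h1 : ∀ j, φ (sl j z) = 0 := by
      intro j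
      have := coindcup_coord_sum b (fun i => φ (sl i z)) j
      rw [← this]
      have hz' : ∑ i, push (coindcup_ι (k := k) (b i)) (φ (sl i z)) = 0 := hz
      rw [hz', map_zero]
    have h2 : ∀ j, sl j z = 0 := fun j => hinj ((h1 j).trans (map_zero φ).symm)
    ext m
    obtain ⟨⟨i, j⟩, rfl⟩ := finProdFinEquiv.surjective m
    exact congrFun (h2 j) i
  · rw [LinearMap.sum_apply]
    exact Submodule.sum_mem _ fun j _ => triv_push_Z1 𝒲 (coindcup_ι (k := k) (b j)) (hφ (sl j x))

/-- a bound for a subquotient of `Z²(W,k)` gives a bound for the corresponding subquotient of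
`Z²(W,A)`: `S` a submodule of `W × W → k`, `S_A = {f | all coordinates of f are in S}`. -/
theorem triv_rank_coord [FiniteDimensional k A] (S : Submodule k (W × W → k)) (c : ℕ)
    (h : Module.rank k (↥S ⧸ (B2 𝒲 (triv k W)).comap S.subtype) ≤ (c : Cardinal))
    (SA : Submodule k (W × W → A)) (hSA : ∀ f ∈ SA, ∀ u : A →ₗ[k] k, push u f ∈ S) :
    Module.rank k (↥SA ⧸ (B2 𝒲 (1 : Representation k W A)).comap SA.subtype) ≤
      ((c * Module.finrank k A : ℕ) : Cardinal) := by
  set b := Module.finBasis k A with hb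
  let Ψ : ↥SA →ₗ[k] (Fin (Module.finrank k A) → ↥S ⧸ (B2 𝒲 (triv k W)).comap S.subtype) :=
    LinearMap.pi fun j => (Submodule.mkQ _).comp
      (((push (b.coord j)).comp SA.subtype).codRestrict S (fun f => hSA f.1 f.2 (b.coord j)))
  have hΨ : ∀ f : ↥SA, Ψ f = 0 ↔ ∀ j, push (b.coord j) f.1 ∈ B2 𝒲 (triv k W) := by
    intro f
    rw [funext_iff]
    refine forall_congr' fun j => ?_
    change Submodule.Quotient.mk _ = 0 ↔ _
    rw [Submodule.Quotient.mk_eq_zero]
    exact Iff.rfl
  have hle : (B2 𝒲 (1 : Representation k W A)).comap SA.subtype ≤ LinearMap.ker Ψ := by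
    intro f hf
    rw [LinearMap.mem_ker, hΨ]
    exact fun j => triv_push_B2 𝒲 _ hf
  have hinj : Function.Injective
      (((B2 𝒲 (1 : Representation k W A)).comap SA.subtype).liftQ Ψ hle) := by
    rw [← LinearMap.ker_eq_bot]
    apply Submodule.ker_liftQ_eq_bot
    intro f hf
    rw [LinearMap.mem_ker, hΨ] at hf
    exact coindcup_B2_of_basis 𝒲 b hf
  refine (LinearMap.rank_le_of_injective _ hinj).trans ?_
  rw [rank_fun, Fintype.card_fin, Nat.cast_mul, mul_comm]
  exact mul_le_mul_left h _

end trivial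

end Fermat.Agent.S55
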