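import Fermat.Agent.S55.T.ShaPair

/-!
# S55-T : (S3) the base case by counting
-/

set_option autoImplicit false

namespace Fermat.Agent.S55

variable {k : Type} [Field k] (P : Sys) {ρμ : Representation k P.G k}
  (T : Trace P ρμ) (I : DualPair k P.G ρμ) (hI : I.IsSmooth P.lev)
  (hLD : ∀ v, LPerfect (P.levv v) (T.τ v) (I.res (P.r v)))

/-- `Sha²` as a quotient type -/
abbrev ShaH2 {A : Type} [AddCommGroup A] [Module k A] (ρ : Representation k P.G A) : Type :=
  ↥(Sha2 P ρ) ⧸ (B2 P.lev ρ).comap (Sha2 P ρ).subtype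
/-- `Sha¹` as a quotient type -/
abbrev ShaH1 {A : Type} [AddCommGroup A] [Module k A] (ρ : Representation k P.G A) : Type :=
  ↥(Sha1 P ρ) ⧸ (B1 ρ).comap (Sha1 P ρ).subtype

/-! ### helpers for `count_main` -/

section countAbs

/-- the counting lemma for a finite product of local pairings -/
theorem count_abstract {ι : Type} [Fintype ι] {H H' : Type} [AddCommGroup H] [Module k H]
    [AddCommGroup H'] [Module k H'] {W W' : ι → Type} [∀ v, AddCommGroup (W v)]
    [∀ v, Module k (W v)] [∀ v, AddCommGroup (W' v)] [∀ v, Module k (W' v)]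
    (hW : ∀ v, FiniteDimensional k (W v)) (hW' : ∀ v, FiniteDimensional k (W' v))
    (β : ∀ v, W v →ₗ[k] W' v →ₗ[k] k)
    (hβl : ∀ v x, (∀ y, β v x y = 0) → x = 0) (hβr : ∀ v y, (∀ x, β v x y = 0) → y = 0)
    (loc : ∀ v, H →ₗ[k] W v) (loc' : ∀ v, H' →ₗ[k] W' v)
    (horth : ∀ x y, ∑ v, β v (loc v x) (loc' v y) = 0)
    (n m : ℕ)
    (hK : Module.rank k (LinearMap.ker (LinearMap.pi loc)) ≤ (m : Cardinal))
    (hK' : Module.rank k (LinearMap.ker (LinearMap.pi loc')) ≤ (m : Cardinal))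
    (hP : ∑ v, Module.finrank k (W v) ≤ 2 * n)
    (hH : ∃ φ : (Fin (n + m) → k) →ₗ[k] H, Function.Injective φ)
    (hH' : ∃ φ : (Fin (n + m) → k) →ₗ[k] H', Function.Injective φ) :
    Module.finrank k (LinearMap.ker (LinearMap.pi loc)) = m ∧
      Module.finrank k (LinearMap.ker (LinearMap.pi loc')) = m ∧
      (∀ x : (∀ v, W v), (∀ y, ∑ v, β v (x v) (loc' v y) = 0) → ∃ h, ∀ v, loc v h = x v) := by
  classical
  let B : (∀ v, W v) →ₗ[k] (∀ v, W' v) →ₗ[k] k :=
    ∑ v, (β v).compl₁₂ (LinearMap.proj v) (LinearMap.proj v)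
  have hB : ∀ x y, B x y = ∑ v, β v (x v) (y v) := by
    intro x y
    simp [B, LinearMap.sum_apply]
  have hl : ∀ x, (∀ y, B x y = 0) → x = 0 := by
    intro x h
    ext v
    refine hβl v (x v) (fun y => ?_)
    have := h (Pi.single v y)
    rw [hB, Finset.sum_eq_single v] at this
    · simpa using this
    · intro w _ hw
      rw [Pi.single_eq_of_ne hw, map_zero]
    · intro hv
      exact absurd (Finset.mem_univ v) hv
  have hr : ∀ y, (∀ x, B x y = 0) → y = 0 := by
    intro y h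
    ext v
    refine hβr v (y v) (fun x => ?_)
    have := h (Pi.single v x)
    rw [hB, Finset.sum_eq_single v] at this
    · simpa using this
    · intro w _ hw
      rw [Pi.single_eq_of_ne hw, map_zero, LinearMap.zero_apply]
    · intro hv
      exact absurd (Finset.mem_univ v) hv
  obtain ⟨e1, e2, e3⟩ := counting_lemma B hl hr (LinearMap.pi loc) (LinearMap.pi loc')
    (fun x y => by rw [hB]; exact horth x y) n m hK hK'
    (by rw [Module.finrank_pi_fintype]; exact hP) hH hH'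
  refine ⟨e1, e2, fun x hx => ?_⟩
  obtain ⟨h, hh⟩ := e3 x (fun y => by rw [hB]; exact hx y)
  exact ⟨h, fun v => congrFun hh v⟩

end countAbs

section countQuot

variable {X Y : Type} [AddCommGroup X] [Module k X] [AddCommGroup Y]
  [Module k Y]

/-- descend a pairing to subquotients -/
noncomputable def countQuotPair (β : X →ₗ[k] Y →ₗ[k] k) (ZX BX : Submodule k X)
    (ZY BY : Submodule k Y)
    (hBX : ∀ x ∈ BX, ∀ y ∈ ZY, β x y = 0) (hBY : ∀ x ∈ ZX, ∀ y ∈ BY, β x y = 0) :
    (↥ZX ⧸ BX.comap ZX.subtype) →ₗ[k] (↥ZY ⧸ BY.comap ZY.subtype) →ₗ[k] k :=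
  Submodule.liftQ _
    (LinearMap.flip (Submodule.liftQ _ (LinearMap.flip (β.domRestrict₁₂ ZX ZY)) (by
      intro y hy
      rw [LinearMap.mem_ker]
      ext x
      exact hBY x x.2 y hy))) (by
      intro x hx
      rw [LinearMap.mem_ker]
      ext y
      exact hBX x hx y y.2)

theorem countQuotPair_mk (β : X →ₗ[k] Y →ₗ[k] k) (ZX BX : Submodule k X)
    (ZY BY : Submodule k Y)
    (hBX : ∀ x ∈ BX, ∀ y ∈ ZY, β x y = 0) (hBY : ∀ x ∈ ZX, ∀ y ∈ BY, β x y = 0)
    (x : ↥ZX) (y : ↥ZY) :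
    countQuotPair β ZX BX ZY BY hBX hBY (Submodule.Quotient.mk x) (Submodule.Quotient.mk y) =
      β x y := rfl

end countQuot

section countLoc

variable {A : Type} [AddCommGroup A] [Module k A]
  (ρ : Representation k P.G A)

/-- localisation `H¹(G,A) → H¹(G_v,A)` -/
noncomputable def countLocv (v : P.ι) : HH1 P.lev ρ →ₗ[k] HH1 (P.levv v) (P.loc ρ v) :=
  Submodule.mapQ _ _ ((res1 (P.r v)).restrict
    (fun x hx => res1_mem_Z1 (P.r v) (P.compat v) hx)) (by
    intro x hx
    exact res1_mem_B1 (P.r v) hx)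

theorem countLocv_mk (v : P.ι) (x : ↥(Z1 P.lev ρ)) :
    countLocv P ρ v (Submodule.Quotient.mk x) =
      Submodule.Quotient.mk ⟨res1 (k := k) (P.r v) x, res1_mem_Z1 (P.r v) (P.compat v) x.2⟩ := rfl

theorem countSha1_le : Sha1 P ρ ≤ Z1 P.lev ρ := fun _ hx => ((mem_Sha1 P).1 hx).1

/-- `Sha¹ → H¹` -/
noncomputable def countShaToH : ShaH1 P ρ →ₗ[k] HH1 P.lev ρ :=
  Submodule.mapQ _ _ (Submodule.inclusion (countSha1_le P ρ)) (by
    intro x hx
    exact hx)

theorem countShaToH_injective : Function.Injective (countShaToH P ρ) := by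
  rw [← LinearMap.ker_eq_bot, LinearMap.ker_eq_bot']
  intro x
  induction x using Submodule.Quotient.induction_on with
  | H x =>
    intro hx
    rw [Submodule.Quotient.mk_eq_zero]
    have : (Submodule.Quotient.mk (Submodule.inclusion (countSha1_le P ρ) x) :
        HH1 P.lev ρ) = 0 := hx
    rw [Submodule.Quotient.mk_eq_zero] at this
    exact this

theorem countShaToH_range : LinearMap.range (countShaToH P ρ) = LinearMap.ker (LinearMap.pi (countLocv P ρ)) := by
  apply le_antisymm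
  · rintro _ ⟨x, rfl⟩
    induction x using Submodule.Quotient.induction_on with
    | H x =>
      rw [LinearMap.mem_ker]
      ext v
      show countLocv P ρ v (Submodule.Quotient.mk (Submodule.inclusion (countSha1_le P ρ) x)) = 0
      rw [countLocv_mk, Submodule.Quotient.mk_eq_zero]
      exact ((mem_Sha1 P).1 x.2).2 v
  · intro x
    induction x using Submodule.Quotient.induction_on with
    | H x =>
      intro hx
      rw [LinearMap.mem_ker] at hx
      have hx' : (x : P.G → A) ∈ Sha1 P ρ := by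
        rw [mem_Sha1]
        refine ⟨x.2, fun v => ?_⟩
        have h := congrFun hx v
        have h' : countLocv P ρ v (Submodule.Quotient.mk x) = 0 := h
        rw [countLocv_mk, Submodule.Quotient.mk_eq_zero] at h'
        exact h'
      exact ⟨Submodule.Quotient.mk ⟨x, hx'⟩, rfl⟩

/-- `Sha¹ ≃ ker loc` -/
noncomputable def countShaEquiv : ShaH1 P ρ ≃ₗ[k] ↥(LinearMap.ker (LinearMap.pi (countLocv P ρ))) :=
  (LinearEquiv.ofInjective _ (countShaToH_injective P ρ)).trans
    (LinearEquiv.ofEq _ _ (countShaToH_range P ρ))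

/-- `Z¹_c / {x.1 ∈ B¹} → Sha¹` is onto, so finiteness and the dimension bound pass to `Sha¹`. -/
theorem countSha1_finite
    [FiniteDimensional k (↥(Z1c P ρ) ⧸
      ((B1 ρ).comap (LinearMap.fst k (P.G → A) (P.ι → A))).comap (Z1c P ρ).subtype)] :
    FiniteDimensional k (ShaH1 P ρ) ∧ Module.finrank k (ShaH1 P ρ) ≤
      Module.finrank k (↥(Z1c P ρ) ⧸
        ((B1 ρ).comap (LinearMap.fst k (P.G → A) (P.ι → A))).comap (Z1c P ρ).subtype) := by
  have hmem : ∀ x ∈ Z1c P ρ, LinearMap.fst k (P.G → A) (P.ι → A) x ∈ Sha1 P ρ := by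
    intro x hx
    exact (mem_Sha1_iff_exists P).2 ⟨x.2, hx⟩
  let f : (↥(Z1c P ρ) ⧸
      ((B1 ρ).comap (LinearMap.fst k (P.G → A) (P.ι → A))).comap (Z1c P ρ).subtype) →ₗ[k]
      ShaH1 P ρ :=
    Submodule.mapQ _ _ ((LinearMap.fst k (P.G → A) (P.ι → A)).restrict hmem) (by
      intro x hx
      exact hx)
  have hf : Function.Surjective f := by
    intro y
    induction y using Submodule.Quotient.induction_on with
    | H y =>
      obtain ⟨b, hb⟩ := (mem_Sha1_iff_exists P).1 y.2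
      exact ⟨Submodule.Quotient.mk ⟨(y, b), hb⟩, rfl⟩
  exact ⟨Module.Finite.of_surjective f hf, LinearMap.finrank_le_finrank_of_surjective hf⟩

end countLoc

section countPair

/-- the local pairing `H¹_v(A) × H¹_v(B) → k` -/
noncomputable def countLocPair (v : P.ι) :
    HH1 (P.levv v) (P.loc I.ρA v) →ₗ[k] HH1 (P.levv v) (P.loc I.ρB v) →ₗ[k] k :=
  countQuotPair ((cup11 (P.loc I.ρB v) I.φ).compr₂ (T.τ v))
    (Z1 (P.levv v) (P.loc I.ρA v)) (B1 (P.loc I.ρA v))
    (Z1 (P.levv v) (P.loc I.ρB v)) (B1 (P.loc I.ρB v))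
    (fun _ hx _ hy => T.τ_B2 v _ (cup11_mem_B2_left (fun g a b => I.equiv (P.r v g) a b)
      (P.smooth_loc hI.2 v) hx hy))
    (fun _ hx _ hy => T.τ_B2 v _ (cup11_mem_B2_right (fun g a b => I.equiv (P.r v g) a b)
      (P.smooth_loc hI.2 v) hx hy))

theorem countLocPair_mk (v : P.ι) (x : ↥(Z1 (P.levv v) (P.loc I.ρA v)))
    (y : ↥(Z1 (P.levv v) (P.loc I.ρB v))) :
    countLocPair P T I hI v (Submodule.Quotient.mk x) (Submodule.Quotient.mk y) =
      T.τ v (cup11 (P.loc I.ρB v) I.φ x y) := rfl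

include hLD in
theorem countLocPair_left (v : P.ι) (x : HH1 (P.levv v) (P.loc I.ρA v))
    (h : ∀ y, countLocPair P T I hI v x y = 0) : x = 0 := by
  induction x using Submodule.Quotient.induction_on with
  | H x =>
    rw [Submodule.Quotient.mk_eq_zero]
    exact (hLD v).q1 x x.2 (fun y hy => h (Submodule.Quotient.mk ⟨y, hy⟩))

include hLD in
theorem countLocPair_right (v : P.ι) (y : HH1 (P.levv v) (P.loc I.ρB v))
    (h : ∀ x, countLocPair P T I hI v x y = 0) : y = 0 := by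
  induction y using Submodule.Quotient.induction_on with
  | H y =>
    rw [Submodule.Quotient.mk_eq_zero]
    exact LPerfect.q1_right (T.τ_B2 v) (DualPair.IsSmooth.res hI (P.r v) (P.compat v)) (hLD v)
      y y.2 (fun x hx => h (Submodule.Quotient.mk ⟨x, hx⟩))

theorem countLocPair_orth (x : HH1 P.lev I.ρA) (y : HH1 P.lev I.ρB) :
    ∑ v, countLocPair P T I hI v (countLocv P I.ρA v x) (countLocv P I.ρB v y) = 0 := by
  induction x using Submodule.Quotient.induction_on with
  | H x =>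
    induction y using Submodule.Quotient.induction_on with
    | H y => exact recip11 P I T hI x.2 y.2

/-- a vector space of rank `≤ m` is finite dimensional -/
theorem count_finite_of_rank_le {V : Type} [AddCommGroup V] [Module k V] {m : ℕ}
    (h : Module.rank k V ≤ (m : Cardinal)) : FiniteDimensional k V :=
  Module.rank_lt_aleph0_iff.1 (lt_of_le_of_lt h (Cardinal.natCast_lt_aleph0))

include hI hLD in
/-- `dim Sha¹(A) ≤ dim Sha²(B)` -/
theorem countSha1A_le (h1L : A1L P T I) [FiniteDimensional k (ShaH2 P I.ρB)] :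
    FiniteDimensional k (ShaH1 P I.ρA) ∧
      Module.finrank k (ShaH1 P I.ρA) ≤ Module.finrank k (ShaH2 P I.ρB) := by
  obtain ⟨h1, h2⟩ := finite_of_nondeg (((L1 P I).compr₂ T.t).flip) (Sha2 P I.ρB) (B2 P.lev I.ρB)
    (Z1c P I.ρA) ((B1 I.ρA).comap (LinearMap.fst k (P.G → I.A) (P.ι → I.A)))
    (fun x hx y hy => t_L1_B2 P I T hI hy hx)
    (fun y hy h => sha_left_L1 P T I hI hLD h1L y hy h)
  obtain ⟨h3, h4⟩ := countSha1_finite P I.ρA
  exact ⟨h3, h4.trans h2⟩

include hI hLD in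
/-- `dim Sha¹(B) ≤ dim Sha²(A)` -/
theorem countSha1B_le (h1R : A1R P T I) [FiniteDimensional k (ShaH2 P I.ρA)] :
    FiniteDimensional k (ShaH1 P I.ρB) ∧
      Module.finrank k (ShaH1 P I.ρB) ≤ Module.finrank k (ShaH2 P I.ρA) := by
  obtain ⟨h1, h2⟩ := finite_of_nondeg ((R1 P I).compr₂ T.t) (Sha2 P I.ρA) (B2 P.lev I.ρA)
    (Z1c P I.ρB) ((B1 I.ρB).comap (LinearMap.fst k (P.G → I.B) (P.ι → I.B)))
    (fun x hx y hy => t_R1_B2 P I T hI hx hy)
    (fun y hy h => sha_right_R1 P T I hI hLD h1R y hy h)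
  obtain ⟨h3, h4⟩ := countSha1_finite P I.ρB
  exact ⟨h3, h4.trans h2⟩

end countPair

section countCore

include hLD in
/-- the counting lemma applied to the localisation maps -/
theorem count_core (n m : ℕ)
    (hX1A : ∃ φ : (Fin (n + m) → k) →ₗ[k] HH1 P.lev I.ρA, Function.Injective φ)
    (hX1B : ∃ φ : (Fin (n + m) → k) →ₗ[k] HH1 P.lev I.ρB, Function.Injective φ)
    (hX2 : ∑ v, Module.finrank k (HH1 (P.levv v) (P.loc I.ρA v)) ≤ 2 * n)
    [FiniteDimensional k (ShaH1 P I.ρA)] [FiniteDimensional k (ShaH1 P I.ρB)]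
    (hA : Module.finrank k (ShaH1 P I.ρA) ≤ m) (hB : Module.finrank k (ShaH1 P I.ρB) ≤ m) :
    Module.finrank k (ShaH1 P I.ρA) = m ∧ Module.finrank k (ShaH1 P I.ρB) = m ∧
      (∀ x : (∀ v, HH1 (P.levv v) (P.loc I.ρA v)),
        (∀ y, ∑ v, countLocPair P T I hI v (x v) (countLocv P I.ρB v y) = 0) →
          ∃ h, ∀ v, countLocv P I.ρA v h = x v) := by
  have hKA : Module.rank k (LinearMap.ker (LinearMap.pi (countLocv P I.ρA))) ≤ (m : Cardinal) := by
    rw [← (countShaEquiv P I.ρA).rank_eq, ← Module.finrank_eq_rank]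
    exact_mod_cast hA
  have hKB : Module.rank k (LinearMap.ker (LinearMap.pi (countLocv P I.ρB))) ≤ (m : Cardinal) := by
    rw [← (countShaEquiv P I.ρB).rank_eq, ← Module.finrank_eq_rank]
    exact_mod_cast hB
  obtain ⟨e1, e2, e3⟩ := count_abstract (fun v => (hLD v).finA) (fun v => (hLD v).finB)
    (countLocPair P T I hI) (countLocPair_left P T I hI hLD) (countLocPair_right P T I hI hLD)
    (countLocv P I.ρA) (countLocv P I.ρB) (countLocPair_orth P T I hI)
    n m hKA hKB hX2 hX1A hX1B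
  rw [← (countShaEquiv P I.ρA).finrank_eq] at e1
  rw [← (countShaEquiv P I.ρB).finrank_eq] at e2
  exact ⟨e1, e2, e3⟩

/-- translation of the exactness statement to cocycles -/
theorem count_ME
    (e3 : ∀ x : (∀ v, HH1 (P.levv v) (P.loc I.ρA v)),
        (∀ y, ∑ v, countLocPair P T I hI v (x v) (countLocv P I.ρB v y) = 0) →
          ∃ h, ∀ v, countLocv P I.ρA v h = x v)
    (b : ∀ v : P.ι, P.Gv v → I.A) (hb : ∀ v, b v ∈ Z1 (P.levv v) (P.loc I.ρA v))
    (hy : ∀ y ∈ Z1 P.lev I.ρB,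
        ∑ v, T.τ v (cup11 (P.loc I.ρB v) I.φ (b v) (res1 (k := k) (P.r v) y)) = 0) :
    ∃ x ∈ Z1 P.lev I.ρA, ∀ v, b v - res1 (k := k) (P.r v) x ∈ B1 (P.loc I.ρA v) := by
  obtain ⟨h, hh⟩ := e3 (fun v => Submodule.Quotient.mk ⟨b v, hb v⟩) (fun y => by
    induction y using Submodule.Quotient.induction_on with
    | H y => exact hy y y.2)
  induction h using Submodule.Quotient.induction_on with
  | H x =>
    refine ⟨x, x.2, fun v => ?_⟩
    have h2 := hh v
    rw [countLocv_mk] at h2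
    have h3 := (Submodule.Quotient.eq _).1 h2.symm
    exact h3

end countCore

include hI hLD

/-- the numerical input for the dual pair `I`, and the conclusion of the counting argument -/
theorem count_main (h1L : A1L P T I) (h1R : A1R P T I) (n m : ℕ)
    (hX1A : ∃ φ : (Fin (n + m) → k) →ₗ[k] HH1 P.lev I.ρA, Function.Injective φ)
    (hX1B : ∃ φ : (Fin (n + m) → k) →ₗ[k] HH1 P.lev I.ρB, Function.Injective φ)
    (hX2 : ∑ v, Module.finrank k (HH1 (P.levv v) (P.loc I.ρA v)) ≤ 2 * n)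
    (hX3A : Module.rank k (ShaH2 P I.ρA) ≤ (m : Cardinal))
    (hX3B : Module.rank k (ShaH2 P I.ρB) ≤ (m : Cardinal)) :
    -- all inequalities are equalities
    (FiniteDimensional k (ShaH1 P I.ρA) ∧ FiniteDimensional k (ShaH1 P I.ρB) ∧
      FiniteDimensional k (ShaH2 P I.ρA) ∧ FiniteDimensional k (ShaH2 P I.ρB) ∧
      Module.finrank k (ShaH1 P I.ρA) = m ∧ Module.finrank k (ShaH1 P I.ρB) = m ∧
      Module.finrank k (ShaH2 P I.ρA) = m ∧ Module.finrank k (ShaH2 P I.ρB) = m) ∧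
    -- (ME) the image of `H¹(A)` in `P¹(A)` is the exact annihilator of the image of `H¹(B)`
    (∀ b : (∀ v : P.ι, P.Gv v → I.A), (∀ v, b v ∈ Z1 (P.levv v) (P.loc I.ρA v)) →
      (∀ y ∈ Z1 P.lev I.ρB,
        ∑ v, T.τ v (cup11 (P.loc I.ρB v) I.φ (b v) (res1 (k := k) (P.r v) y)) = 0) →
      ∃ x ∈ Z1 P.lev I.ρA, ∀ v, b v - res1 (k := k) (P.r v) x ∈ B1 (P.loc I.ρA v)) := by
  have hfA2 : FiniteDimensional k (ShaH2 P I.ρA) := count_finite_of_rank_le hX3A
  have hfB2 : FiniteDimensional k (ShaH2 P I.ρB) := count_finite_of_rank_le hX3B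
  have hA2 : Module.finrank k (ShaH2 P I.ρA) ≤ m := Module.finrank_le_of_rank_le hX3A
  have hB2 : Module.finrank k (ShaH2 P I.ρB) ≤ m := Module.finrank_le_of_rank_le hX3B
  obtain ⟨hfA1, hA1⟩ := countSha1A_le P T I hI hLD h1L
  obtain ⟨hfB1, hB1⟩ := countSha1B_le P T I hI hLD h1R
  obtain ⟨e1, e2, e3⟩ := count_core P T I hI hLD n m hX1A hX1B hX2 (hA1.trans hB2) (hB1.trans hA2)
  exact ⟨⟨hfA1, hfB1, hfA2, hfB2, e1, e2, by omega, by omega⟩, count_ME P T I hI e3⟩

end Fermat.Agent.S55
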