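import Fermat.Agent.S55.T.Basic

/-!
# S55-T : level-constancy of cup products, compatibility with `res` and `push`
-/

set_option autoImplicit false

namespace Fermat.Agent.S55

section LCcup

variable {k : Type} [CommRing k] {H : Type} [Group H] {𝒰 : Lev H}
variable {A B M : Type} [AddCommGroup A] [Module k A] [AddCommGroup B] [Module k B]
  [AddCommGroup M] [Module k M]
variable {ρB : Representation k H B} (φ : A →ₗ[k] B →ₗ[k] M)

theorem LC1_cup01 (a : A) {y : H → B} (hy : LC1 𝒰 y) : LC1 𝒰 (cup01 φ a y) := by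
  obtain ⟨U, hU, h⟩ := hy
  exact ⟨U, hU, fun g s hs => by simp only [cup01_apply, h g s hs]⟩
theorem LC2_cup02 (a : A) {y : H × H → B} (hy : LC2 𝒰 y) : LC2 𝒰 (cup02 φ a y) := by
  obtain ⟨U, hU, h⟩ := hy
  exact ⟨U, hU, fun g g' s s' hs hs' => by simp only [cup02_apply, h g g' s s' hs hs']⟩
theorem LC1_cup10 (hB : Smooth ρB 𝒰) {x : H → A} (hx : LC1 𝒰 x) (b : B) :
    LC1 𝒰 (cup10 ρB φ x b) := by
  obtain ⟨U, hU, hB⟩ := hB
  obtain ⟨V, hV, hx⟩ := hx
  obtain ⟨W, hW, hWU, hWV⟩ := 𝒰.directed U hU V hV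
  refine ⟨W, hW, fun g s hs => ?_⟩
  simp only [cup10_apply, hx g s (hWV hs), map_mul, hB s (hWU hs), mul_one]
theorem LC2_cup11 (hB : Smooth ρB 𝒰) {x : H → A} (hx : LC1 𝒰 x) {y : H → B} (hy : LC1 𝒰 y) :
    LC2 𝒰 (cup11 ρB φ x y) := by
  obtain ⟨U, hU, hB⟩ := hB
  obtain ⟨V, hV, hx⟩ := hx
  obtain ⟨V', hV', hy⟩ := hy
  obtain ⟨W₀, hW₀, hW₀U, hW₀V⟩ := 𝒰.directed U hU V hV
  obtain ⟨W, hW, hWW₀, hWV'⟩ := 𝒰.directed W₀ hW₀ V' hV'
  refine ⟨W, hW, fun g g' s s' hs hs' => ?_⟩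
  simp only [cup11_apply, hx g s (hW₀V (hWW₀ hs)), hy g' s' (hWV' hs'), map_mul,
    hB s (hW₀U (hWW₀ hs)), mul_one]
theorem LC2_cup20 (hB : Smooth ρB 𝒰) {x : H × H → A} (hx : LC2 𝒰 x) (b : B) :
    LC2 𝒰 (cup20 ρB φ x b) := by
  obtain ⟨U, hU, hB⟩ := hB
  obtain ⟨V, hV, hx⟩ := hx
  obtain ⟨W, hW, hWU, hWV⟩ := 𝒰.directed U hU V hV
  refine ⟨W, hW, fun g g' s s' hs hs' => ?_⟩
  simp only [cup20_apply, hx g g' s s' (hWV hs) (hWV hs'), map_mul, hB s (hWU hs),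
    hB s' (hWU hs'), mul_one]
theorem LC3_cup12 (hB : Smooth ρB 𝒰) {x : H → A} (hx : LC1 𝒰 x) {y : H × H → B}
    (hy : LC2 𝒰 y) : LC3 𝒰 (cup12 ρB φ x y) := by
  obtain ⟨U, hU, hB⟩ := hB
  obtain ⟨V, hV, hx⟩ := hx
  obtain ⟨V', hV', hy⟩ := hy
  obtain ⟨W₀, hW₀, hW₀U, hW₀V⟩ := 𝒰.directed U hU V hV
  obtain ⟨W, hW, hWW₀, hWV'⟩ := 𝒰.directed W₀ hW₀ V' hV'
  refine ⟨W, hW, fun g g' g'' s s' s'' hs hs' hs'' => ?_⟩
  simp only [cup12_apply, hx g s (hW₀V (hWW₀ hs)), hy g' g'' s' s'' (hWV' hs') (hWV' hs''),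
    map_mul, hB s (hW₀U (hWW₀ hs)), mul_one]
theorem LC3_cup21 (hB : Smooth ρB 𝒰) {x : H × H → A} (hx : LC2 𝒰 x) {y : H → B}
    (hy : LC1 𝒰 y) : LC3 𝒰 (cup21 ρB φ x y) := by
  obtain ⟨U, hU, hB⟩ := hB
  obtain ⟨V, hV, hx⟩ := hx
  obtain ⟨V', hV', hy⟩ := hy
  obtain ⟨W₀, hW₀, hW₀U, hW₀V⟩ := 𝒰.directed U hU V hV
  obtain ⟨W, hW, hWW₀, hWV'⟩ := 𝒰.directed W₀ hW₀ V' hV'
  refine ⟨W, hW, fun g g' g'' s s' s'' hs hs' hs'' => ?_⟩
  simp only [cup21_apply, hx g g' s s' (hW₀V (hWW₀ hs)) (hW₀V (hWW₀ hs')), hy g'' s'' (hWV' hs''),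
    map_mul, hB s (hW₀U (hWW₀ hs)), hB s' (hW₀U (hWW₀ hs')), mul_one]

end LCcup

section rescup

variable {k : Type} [CommRing k] {H G : Type} [Group H] [Group G] (r : H →* G)
variable {A B M : Type} [AddCommGroup A] [Module k A] [AddCommGroup B] [Module k B]
  [AddCommGroup M] [Module k M]
variable (ρB : Representation k G B) (φ : A →ₗ[k] B →ₗ[k] M)

theorem res1_cup01 (a : A) (y : G → B) :
    res1 (k := k) r (cup01 φ a y) = cup01 φ a (res1 (k := k) r y) := by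
  rfl
theorem res2_cup02 (a : A) (y : G × G → B) :
    res2 (k := k) r (cup02 φ a y) = cup02 φ a (res2 (k := k) r y) := by
  rfl
theorem res1_cup10 (x : G → A) (b : B) :
    res1 (k := k) r (cup10 ρB φ x b) = cup10 (ρB.comp r) φ (res1 (k := k) r x) b := by
  rfl
theorem res2_cup11 (x : G → A) (y : G → B) :
    res2 (k := k) r (cup11 ρB φ x y) =
      cup11 (ρB.comp r) φ (res1 (k := k) r x) (res1 (k := k) r y) := by
  rfl
theorem res2_cup20 (x : G × G → A) (b : B) :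
    res2 (k := k) r (cup20 ρB φ x b) = cup20 (ρB.comp r) φ (res2 (k := k) r x) b := by
  ext p
  simp only [res2_apply, cup20_apply, MonoidHom.comp_apply, map_mul]

end rescup

section natcup

/-! naturality: `u : A → A'`, `w : B' → B` adjoint (`φ' (u a) b' = φ a (w b')`), `w` equivariant -/

variable {k : Type} [CommRing k] {H : Type} [Group H]
variable {A B A' B' M : Type} [AddCommGroup A] [Module k A] [AddCommGroup B] [Module k B]
  [AddCommGroup A'] [Module k A'] [AddCommGroup B'] [Module k B'] [AddCommGroup M] [Module k M]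
variable {ρB : Representation k H B} {ρB' : Representation k H B'}
variable {φ : A →ₗ[k] B →ₗ[k] M} {φ' : A' →ₗ[k] B' →ₗ[k] M}
variable {u : A →ₗ[k] A'} {w : B' →ₗ[k] B} (hadj : ∀ a b, φ' (u a) b = φ a (w b))
include hadj

theorem nat_cup01 (a : A) (y : H → B') : cup01 φ' (u a) y = cup01 φ a (push w y) := by
  ext g
  simp only [cup01_apply, push_apply, hadj]
theorem nat_cup02 (a : A) (y : H × H → B') : cup02 φ' (u a) y = cup02 φ a (push w y) := by
  ext g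
  simp only [cup02_apply, push_apply, hadj]

variable (hw : ∀ g b, w (ρB' g b) = ρB g (w b))
include hw

theorem nat_cup10 (x : H → A) (b : B') : cup10 ρB' φ' (push u x) b = cup10 ρB φ x (w b) := by
  ext g
  simp only [cup10_apply, push_apply, hadj, hw]
theorem nat_cup11 (x : H → A) (y : H → B') :
    cup11 ρB' φ' (push u x) y = cup11 ρB φ x (push w y) := by
  ext g
  simp only [cup11_apply, push_apply, hadj, hw]
theorem nat_cup12 (x : H → A) (y : H × H → B') :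
    cup12 ρB' φ' (push u x) y = cup12 ρB φ x (push w y) := by
  ext g
  simp only [cup12_apply, push_apply, hadj, hw]
theorem nat_cup20 (x : H × H → A) (b : B') :
    cup20 ρB' φ' (push u x) b = cup20 ρB φ x (w b) := by
  ext g
  simp only [cup20_apply, push_apply, hadj, hw]
theorem nat_cup21 (x : H × H → A) (y : H → B') :
    cup21 ρB' φ' (push u x) y = cup21 ρB φ x (push w y) := by
  ext g
  simp only [cup21_apply, push_apply, hadj, hw]

end natcup

end Fermat.Agent.S55
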