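import Fermat.Agent.S55.Concrete

/-!
# S55-T, final bridge, part 1 : dictionary between the frozen cochain predicates and `Defs.lean`,
and the averaging argument (cohomology of a finite group of invertible order vanishes).
-/

set_option autoImplicit false

open CategoryTheory groupCohomology ExtCitation

namespace Fermat.Agent.S55

section dict

variable {k : Type} [CommRing k] (S : Finset Nat.Primes) (M : Rep k GQ)

lemma final_d₁₂_eq {G : Type} [Group G] (A : Rep k G) : (d₁₂ A).hom = d1 A.ρ := rfl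
lemma final_d₂₃_eq {G : Type} [Group G] (A : Rep k G) : (d₂₃ A).hom = d2 A.ρ := rfl
lemma final_d₀₁_eq {G : Type} [Group G] (A : Rep k G) : (d₀₁ A).hom = d0 A.ρ := rfl

lemma final_lc1S_iff {X : Type*} (f : GQ → X) : LC1 (levS S) f ↔ IsLevelConstantS₁ S f := by
  constructor
  · rintro ⟨_, ⟨F, hF, rfl⟩, h⟩
    exact ⟨F, hF, h⟩
  · rintro ⟨F, hF, h⟩
    exact ⟨_, ⟨F, hF, rfl⟩, h⟩

lemma final_lc2S_iff {X : Type*} (f : GQ × GQ → X) : LC2 (levS S) f ↔ IsLevelConstantS₂ S f := by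
  constructor
  · rintro ⟨_, ⟨F, hF, rfl⟩, h⟩
    exact ⟨F, hF, h⟩
  · rintro ⟨F, hF, h⟩
    exact ⟨_, ⟨F, hF, rfl⟩, h⟩

lemma final_lc1_comap_iff {H : Type} [Group H] (r : H →* GQ) {X : Type*} (f : H → X) :
    LC1 (levAll.comap r) f ↔ IsLevelConstant₁ r f := by
  constructor
  · rintro ⟨_, ⟨_, ⟨F, hF, rfl⟩, rfl⟩, h⟩
    exact ⟨F, hF, h⟩
  · rintro ⟨F, hF, h⟩
    exact ⟨_, ⟨_, ⟨F, hF, rfl⟩, rfl⟩, h⟩

lemma final_lc2_comap_iff {H : Type} [Group H] (r : H →* GQ) {X : Type*} (f : H × H → X) :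
    LC2 (levAll.comap r) f ↔ IsLevelConstant₂ r f := by
  constructor
  · rintro ⟨_, ⟨_, ⟨F, hF, rfl⟩, rfl⟩, h⟩
    exact ⟨F, hF, h⟩
  · rintro ⟨F, hF, h⟩
    exact ⟨_, ⟨_, ⟨F, hF, rfl⟩, rfl⟩, h⟩

lemma final_Z2_eq : levelCocyclesS₂ S M = Z2 (levS S) M.ρ := by
  ext f
  rw [mem_levelCocyclesS₂_iff, mem_Z2, ← final_lc2S_iff, and_comm]
  rfl

lemma final_B2_eq : levelCoboundariesS₂ S M = B2 (levS S) M.ρ := by
  ext f
  rw [mem_levelCoboundariesS₂_iff, mem_B2]
  simp only [final_lc1S_iff]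
  rfl

lemma final_locRes₂S_eq_zero_iff {H : Type} [Group H] (r : H →* GQ) (f : ↥(levelCocyclesS₂ S M)) :
    locRes₂S S M r (continuousH2Sπ S M f) = 0 ↔
      res2 (k := k) r (f : GQ × GQ → M) ∈ B2 (levAll.comap r) (M.ρ.comp r) := by
  have : locRes₂S S M r (continuousH2Sπ S M f) = continuousH2π r (Rep.res r M)
      (levelCocycles₂Map (rH := MonoidHom.id _) (rG := r) r (fun _ => rfl)
        (LinearMap.id : M →ₗ[k] Rep.res r M) (fun _ _ => rfl)
        (levelCocyclesS₂ToLevelCocycles₂ S M f)) := rfl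
  rw [this, continuousH2π_eq_zero_iff, mem_levelCoboundaries₂_iff, mem_B2]
  simp only [final_lc1_comap_iff]
  rfl

end dict

section dictField

variable {k : Type} [Field k] (M : Rep k GQ)

lemma final_locRes_eq_zero_iff {ι : Type} {Γv : ι → Type} [∀ v, Group (Γv v)]
    (loc : ∀ v, Γv v →* GQ) (v : ι) (c : cocycles₁ M) :
    (locRes loc M v).hom ((H1π M).hom c) = 0 ↔
      res1 (k := k) (loc v) (c : GQ → M) ∈ B1 (M.ρ.comp (loc v)) := by
  have h := H1π_comp_map_apply (loc v) (𝟙 (Rep.res (loc v) M)) c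
  have h' : (locRes loc M v).hom ((H1π M).hom c) =
      (H1π (Rep.res (loc v) M)).hom ((mapCocycles₁ (loc v) (𝟙 (Rep.res (loc v) M))).hom c) := h
  rw [h']
  have h2 := H1π_eq_zero_iff (A := Rep.res (loc v) M)
    ((mapCocycles₁ (loc v) (𝟙 (Rep.res (loc v) M))).hom c)
  refine h2.trans ?_
  rfl

end dictField

section averaging

variable {k : Type} [CommRing k] {H : Type} [Group H] [Finite H]
variable {A : Type} [AddCommGroup A] [Module k A] (ρ : Representation k H A)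

/-- `H¹(H, A) = 0` if `|H|` is invertible. -/
lemma final_avg1 (c : k) (hc : c * (Nat.card H : k) = 1) (x : H → A) (hx : d1 ρ x = 0) :
    x ∈ B1 ρ := by
  classical
  have := Fintype.ofFinite H
  refine ⟨-(c • ∑ h, x h), ?_⟩
  ext g
  have h1 : ∀ h, ρ g (x h) - x (g * h) + x g = 0 := fun h => congrFun hx (g, h)
  have h2 : ∑ h, (ρ g (x h) - x (g * h) + x g) = 0 := Finset.sum_eq_zero fun h _ => h1 h
  rw [Finset.sum_add_distrib, Finset.sum_sub_distrib, Finset.sum_const, Finset.card_univ,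
    ← Nat.card_eq_fintype_card, Fintype.sum_equiv (Equiv.mulLeft g) (fun h => x (g * h)) x
      (fun _ => rfl), ← map_sum] at h2
  have h3 : x g = c • ((Nat.card H : k) • x g) := by rw [smul_smul, hc, one_smul]
  have h4 : Nat.card H • x g = -(ρ g (∑ h, x h) - ∑ h, x h) := by
    rw [eq_neg_iff_add_eq_zero, add_comm]; exact h2
  rw [d0_apply, h3, Nat.cast_smul_eq_nsmul, h4, map_neg, map_smul, smul_neg, smul_sub]
  abel

/-- `H²(H, A) = 0` if `|H|` is invertible (level-constant version). -/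
lemma final_avg2 (𝒰 : Lev H) (c : k) (hc : c * (Nat.card H : k) = 1) (f : H × H → A)
    (hf : f ∈ Z2 𝒰 ρ) : f ∈ B2 𝒰 ρ := by
  classical
  have := Fintype.ofFinite H
  obtain ⟨⟨U, hU, hlc⟩, hd⟩ := hf
  refine ⟨fun g => c • ∑ j, f (g, j), ⟨U, hU, fun g s hs => ?_⟩, ?_⟩
  · have : ∀ j, f (g * s, j) = f (g, j) := fun j => by
      simpa using hlc g j s 1 hs U.one_mem
    simp only [this]
  · ext ⟨g, h⟩
    have h1 : ∀ j, ρ g (f (h, j)) - f (g * h, j) + f (g, h * j) - f (g, h) = 0 :=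
      fun j => congrFun hd (g, h, j)
    have h2 : ∑ j, (ρ g (f (h, j)) - f (g * h, j) + f (g, h * j) - f (g, h)) = 0 :=
      Finset.sum_eq_zero fun j _ => h1 j
    rw [Finset.sum_sub_distrib, Finset.sum_add_distrib, Finset.sum_sub_distrib, Finset.sum_const,
      Finset.card_univ, ← Nat.card_eq_fintype_card,
      Fintype.sum_equiv (Equiv.mulLeft h) (fun j => f (g, h * j)) (fun j => f (g, j))
        (fun _ => rfl), ← map_sum, sub_eq_zero] at h2
    have h3 : f (g, h) = c • ((Nat.card H : k) • f (g, h)) := by rw [smul_smul, hc, one_smul]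
    rw [d1_apply, h3, Nat.cast_smul_eq_nsmul, ← h2, map_smul, smul_add, smul_sub]

end averaging

end Fermat.Agent.S55
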