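import Fermat.Agent.S55.T.Final1

/-!
# S55-T, final bridge, part 2 : `Sha¹`, `Sha²` of `Defs.lean` (cocycle level, finite places only)
versus the frozen `sha₁`, `sha₂` (classes, with the archimedean place), for `p` odd.
-/

set_option autoImplicit false

open CategoryTheory groupCohomology ExtCitation

namespace Fermat.Agent.S55

lemma final_arch_finite : Finite ↥archimedeanDecomposition := by
  have h : IsOfFinOrder complexConjugation :=
    isOfFinOrder_iff_pow_eq_one.2 ⟨2, by norm_num, complexConjugation_sq⟩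
  exact Set.finite_coe_iff.2 (finite_zpowers.2 h)

lemma final_arch_card {p : ℕ} [Fact p.Prime] (hp2 : p ≠ 2) :
    ∃ c : ZMod p, c * (Nat.card ↥archimedeanDecomposition : ZMod p) = 1 := by
  have h1 : Nat.card ↥archimedeanDecomposition ∣ 2 := by
    have : Nat.card ↥archimedeanDecomposition = orderOf complexConjugation :=
      Nat.card_zpowers complexConjugation
    rw [this]
    exact orderOf_dvd_of_pow_eq_one complexConjugation_sq
  have h2 : (Nat.card ↥archimedeanDecomposition : ZMod p) ≠ 0 := by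
    intro h0
    rw [ZMod.natCast_eq_zero_iff] at h0
    have h3 : p ∣ 2 := h0.trans h1
    exact hp2 ((Nat.prime_dvd_prime_iff_eq (Fact.out) Nat.prime_two).1 h3)
  exact ⟨_, inv_mul_cancel₀ h2⟩

section mem

variable {k : Type} [CommRing k] {A : Type} [AddCommGroup A] [Module k A]

lemma final_mem_Sha1_gen (P : Sys) (ρ : Representation k P.G A) (y : P.G → A) :
    y ∈ Sha1 P ρ ↔ (LC1 P.lev y ∧ d1 ρ y = 0) ∧
      ∀ v, res1 (k := k) (P.r v) y ∈ B1 (P.loc ρ v) := by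
  simp only [Sha1, Submodule.mem_inf, Submodule.mem_iInf, Submodule.mem_comap]
  rfl

lemma final_mem_Sha2_gen (P : Sys) (ρ : Representation k P.G A) (f : P.G × P.G → A) :
    f ∈ Sha2 P ρ ↔ (LC2 P.lev f ∧ d2 ρ f = 0) ∧
      ∀ v, res2 (k := k) (P.r v) f ∈ B2 (P.levv v) (P.loc ρ v) := by
  simp only [Sha2, Submodule.mem_inf, Submodule.mem_iInf, Submodule.mem_comap]
  rfl

variable (S : Finset Nat.Primes) (ρ : Representation k GQ A)

lemma final_mem_Sha1 (y : GQ → A) :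
    y ∈ Sha1 (sysS S) ρ ↔ (LC1 (levS S) y ∧ d1 ρ y = 0) ∧
      ∀ q : ↥S, res1 (k := k) (primeLocalToGlobal q.1) y ∈ B1 (ρ.comp (primeLocalToGlobal q.1)) :=
  final_mem_Sha1_gen (sysS S) ρ y

lemma final_mem_Sha2 (f : GQ × GQ → A) :
    f ∈ Sha2 (sysS S) ρ ↔ (LC2 (levS S) f ∧ d2 ρ f = 0) ∧
      ∀ q : ↥S, res2 (k := k) (primeLocalToGlobal q.1) f ∈
        B2 (levAll.comap (primeLocalToGlobal q.1)) (ρ.comp (primeLocalToGlobal q.1)) :=
  final_mem_Sha2_gen (sysS S) ρ f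

end mem

section maps

variable {p : ℕ} [Fact p.Prime] (hp2 : p ≠ 2) (S : Finset Nat.Primes) (A : Rep (ZMod p) GQ)

lemma final_d1_res1 {k : Type} [CommRing k] {H G : Type} [Group H] [Group G] (r : H →* G)
    {V : Type} [AddCommGroup V] [Module k V] (ρ : Representation k G V) (y : G → V) :
    d1 (ρ.comp r) (res1 (k := k) r y) = res2 (k := k) r (d1 ρ y) := by
  ext ⟨g, h⟩
  simp

lemma final_d2_res2 {k : Type} [CommRing k] {H G : Type} [Group H] [Group G] (r : H →* G)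
    {V : Type} [AddCommGroup V] [Module k V] (ρ : Representation k G V) (f : G × G → V) :
    d2 (ρ.comp r) (res2 (k := k) r f) = res3 (k := k) r (d2 ρ f) := by
  ext ⟨g, h, j⟩
  simp

include hp2 in
lemma final_arch1 (y : GQ → A) (hy : d1 A.ρ y = 0) :
    res1 (k := ZMod p) archimedeanLoc y ∈ B1 (A.ρ.comp archimedeanLoc) := by
  have := final_arch_finite
  obtain ⟨c, hc⟩ := final_arch_card hp2
  refine final_avg1 _ c hc _ ?_
  rw [final_d1_res1, hy, map_zero]

include hp2 in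
lemma final_arch2 (f : GQ × GQ → A) (hlc : LC2 (levS S) f) (hf : d2 A.ρ f = 0) :
    res2 (k := ZMod p) archimedeanLoc f ∈
      B2 (levAll.comap archimedeanLoc) (A.ρ.comp archimedeanLoc) := by
  have := final_arch_finite
  obtain ⟨c, hc⟩ := final_arch_card hp2
  refine final_avg2 _ _ c hc _ ⟨?_, ?_⟩
  · obtain ⟨_, ⟨F, hF, rfl⟩, h⟩ := hlc
    exact ⟨_, ⟨_, ⟨F, hF.1, rfl⟩, rfl⟩, fun g g' s s' hs hs' => by
      simpa using h (archimedeanLoc g) (archimedeanLoc g') (archimedeanLoc s) (archimedeanLoc s')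
        hs hs'⟩
  · show d2 _ _ = 0
    rw [final_d2_res2, hf, map_zero]

lemma final_Sha1_le : Sha1 (sysS S) A.ρ ≤ cocycles₁ A := fun y hy =>
  ((final_mem_Sha1 S A.ρ y).1 hy).1.2

include hp2 in
lemma final_H1π_mem (y : ↥(Sha1 (sysS S) A.ρ)) :
    (H1π A).hom (Submodule.inclusion (final_Sha1_le S A) y) ∈ sha₁ S A := by
  obtain ⟨⟨hlc, hd⟩, hloc⟩ := (final_mem_Sha1 S A.ρ _).1 y.2
  refine Submodule.mem_inf.2
    ⟨(mem_continuousH1S_iff S A _).2 ⟨_, (final_lc1S_iff S _).1 hlc, rfl⟩, LinearMap.mem_ker.2 ?_⟩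
  funext v
  refine (final_locRes_eq_zero_iff A (extArithLoc S) v _).2 ?_
  rcases v with u | q
  · exact final_arch1 hp2 A _ hd
  · exact hloc q

include hp2 in
theorem final_exists_π1 : ∃ π : ↥(Sha1 (sysS S) A.ρ) →ₗ[ZMod p] ↥(sha₁ S A),
    Function.Surjective π ∧ ∀ y, π y = 0 ↔ y.1 ∈ B1 A.ρ := by
  refine ⟨LinearMap.codRestrict (sha₁ S A)
    ((H1π A).hom ∘ₗ Submodule.inclusion (final_Sha1_le S A)) (final_H1π_mem hp2 S A), ?_, ?_⟩
  · rintro ⟨x, hx⟩
    obtain ⟨hx1, hx2⟩ := Submodule.mem_inf.1 hx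
    obtain ⟨c, hc, rfl⟩ := (mem_continuousH1S_iff S A _).1 hx1
    have hmem : (c : GQ → A) ∈ Sha1 (sysS S) A.ρ := by
      refine (final_mem_Sha1 S A.ρ _).2 ⟨⟨(final_lc1S_iff S _).2 hc, c.2⟩, fun q => ?_⟩
      exact (final_locRes_eq_zero_iff A (extArithLoc S) (Sum.inr q) c).1
        (congrFun (LinearMap.mem_ker.1 hx2) (Sum.inr q))
    exact ⟨⟨c, hmem⟩, Subtype.ext rfl⟩
  · intro y
    rw [← Subtype.coe_inj]
    exact H1π_eq_zero_iff (A := A) (Submodule.inclusion (final_Sha1_le S A) y)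

lemma final_Sha2_le : Sha2 (sysS S) A.ρ ≤ levelCocyclesS₂ S A := fun f hf => by
  rw [final_Z2_eq]
  exact ((final_mem_Sha2 S A.ρ f).1 hf).1

include hp2 in
lemma final_H2π_mem (f : ↥(Sha2 (sysS S) A.ρ)) :
    continuousH2Sπ S A (Submodule.inclusion (final_Sha2_le S A) f) ∈ sha₂ S A := by
  obtain ⟨⟨hlc, hd⟩, hloc⟩ := (final_mem_Sha2 S A.ρ _).1 f.2
  refine LinearMap.mem_ker.2 ?_
  funext v
  refine (final_locRes₂S_eq_zero_iff S A (extArithLoc S v) _).2 ?_
  rcases v with u | q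
  · exact final_arch2 hp2 S A _ hlc hd
  · exact hloc q

include hp2 in
theorem final_exists_π2 : ∃ π : ↥(Sha2 (sysS S) A.ρ) →ₗ[ZMod p] ↥(sha₂ S A),
    Function.Surjective π ∧ ∀ f, π f = 0 ↔ f.1 ∈ B2 (levS S) A.ρ := by
  refine ⟨LinearMap.codRestrict (sha₂ S A)
    (continuousH2Sπ S A ∘ₗ Submodule.inclusion (final_Sha2_le S A)) (final_H2π_mem hp2 S A),
    ?_, ?_⟩
  · rintro ⟨x, hx⟩
    obtain ⟨f, rfl⟩ := Submodule.mkQ_surjective _ x
    have hmem : (f : GQ × GQ → A) ∈ Sha2 (sysS S) A.ρ := by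
      have hf : (f : GQ × GQ → A) ∈ Z2 (levS S) A.ρ := (final_Z2_eq S A) ▸ f.2
      refine (final_mem_Sha2 S A.ρ _).2 ⟨hf, fun q => ?_⟩
      have key : ∀ v : extArithIndex S, res2 (k := ZMod p) (extArithLoc S v) (f : GQ × GQ → A) ∈
          B2 (levAll.comap (extArithLoc S v)) (A.ρ.comp (extArithLoc S v)) := fun v =>
        (final_locRes₂S_eq_zero_iff S A (extArithLoc S v) f).1
          (congrFun (LinearMap.mem_ker.1 hx) v)
      exact key (Sum.inr q)
    exact ⟨⟨f.1, hmem⟩, Subtype.ext rfl⟩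
  · intro f
    rw [← Subtype.coe_inj, ← final_B2_eq]
    exact continuousH2Sπ_eq_zero_iff S A (Submodule.inclusion (final_Sha2_le S A) f)

end maps

end Fermat.Agent.S55
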