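import Fermat.Agent.S55.T.Final2

/-!
# S55-T, final bridge, part 3 : descent of the pairing to classes, the dual pair `(M, M^*(1))`,
smoothness, and the reduction of the frozen statement to the abstract duality statement.
-/

set_option autoImplicit false

open CategoryTheory groupCohomology ExtCitation

namespace Fermat.Agent.S55

/-- the conclusion of `sha_pairing` (`T/ShaPair.lean`), as a predicate. -/
def ShaDuality {k : Type} [Field k] (P : Sys) {ρμ : Representation k P.G k}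
    (D : DualPair k P.G ρμ) : Prop :=
  ∃ Bil : ↥(Sha1 P D.ρB) →ₗ[k] ↥(Sha2 P D.ρA) →ₗ[k] k,
    (∀ (y : ↥(Sha1 P D.ρB)) (x : ↥(Sha2 P D.ρA)), (y : P.G → D.B) ∈ B1 D.ρB → Bil y x = 0) ∧
    (∀ (y : ↥(Sha1 P D.ρB)) (x : ↥(Sha2 P D.ρA)),
      (x : P.G × P.G → D.A) ∈ B2 P.lev D.ρA → Bil y x = 0) ∧
    (∀ y, (∀ x, Bil y x = 0) → (y : P.G → D.B) ∈ B1 D.ρB) ∧
    (∀ x, (∀ y, Bil y x = 0) → (x : P.G × P.G → D.A) ∈ B2 P.lev D.ρA)

section descent

variable {k : Type} [Field k] {X₁ X₂ Y₁ Y₂ : Type*}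
  [AddCommGroup X₁] [Module k X₁] [AddCommGroup X₂] [Module k X₂]
  [AddCommGroup Y₁] [Module k Y₁] [AddCommGroup Y₂] [Module k Y₂]

/-- a pairing which is non-degenerate modulo the kernels of two surjections descends. -/
theorem final_descent (π₁ : X₁ →ₗ[k] Y₁) (π₂ : X₂ →ₗ[k] Y₂)
    (h₁ : Function.Surjective π₁) (h₂ : Function.Surjective π₂)
    (B : X₁ →ₗ[k] X₂ →ₗ[k] k)
    (v₁ : ∀ y x, π₁ y = 0 → B y x = 0) (v₂ : ∀ y x, π₂ x = 0 → B y x = 0)
    (n₁ : ∀ y, (∀ x, B y x = 0) → π₁ y = 0) (n₂ : ∀ x, (∀ y, B y x = 0) → π₂ x = 0) :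
    ∃ B' : Y₁ →ₗ[k] Y₂ →ₗ[k] k,
      (∀ y, (∀ x, B' y x = 0) → y = 0) ∧ (∀ x, (∀ y, B' y x = 0) → x = 0) := by
  obtain ⟨s₁, hs₁⟩ := π₁.exists_rightInverse_of_surjective (LinearMap.range_eq_top.2 h₁)
  obtain ⟨s₂, hs₂⟩ := π₂.exists_rightInverse_of_surjective (LinearMap.range_eq_top.2 h₂)
  have e₁ : ∀ y, π₁ (s₁ y) = y := fun y => LinearMap.congr_fun hs₁ y
  have e₂ : ∀ x, π₂ (s₂ x) = x := fun x => LinearMap.congr_fun hs₂ x
  have key : ∀ y x, B (s₁ (π₁ y)) (s₂ (π₂ x)) = B y x := by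
    intro y x
    have a : B (s₁ (π₁ y) - y) (s₂ (π₂ x)) = 0 := v₁ _ _ (by rw [map_sub, e₁, sub_self])
    have b : B y (s₂ (π₂ x) - x) = 0 := v₂ _ _ (by rw [map_sub, e₂, sub_self])
    rw [map_sub, LinearMap.sub_apply, sub_eq_zero] at a
    rw [map_sub, sub_eq_zero] at b
    rw [a, b]
  refine ⟨B.compl₁₂ s₁ s₂, fun y hy => ?_, fun x hx => ?_⟩
  · rw [← e₁ y]
    refine n₁ _ fun x => ?_
    have := hy (π₂ x)
    rw [LinearMap.compl₁₂_apply] at this
    rw [← key, e₁]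
    exact this
  · rw [← e₂ x]
    refine n₂ _ fun y => ?_
    have := hx (π₁ y)
    rw [LinearMap.compl₁₂_apply] at this
    rw [← key, e₂]
    exact this

/-- packaged version of `final_descent` -/
theorem final_descent_ex (P₁ : X₁ → Prop) (P₂ : X₂ → Prop)
    (h₁ : ∃ π : X₁ →ₗ[k] Y₁, Function.Surjective π ∧ ∀ y, π y = 0 ↔ P₁ y)
    (h₂ : ∃ π : X₂ →ₗ[k] Y₂, Function.Surjective π ∧ ∀ x, π x = 0 ↔ P₂ x)
    (hB : ∃ B : X₁ →ₗ[k] X₂ →ₗ[k] k, (∀ y x, P₁ y → B y x = 0) ∧ (∀ y x, P₂ x → B y x = 0) ∧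
      (∀ y, (∀ x, B y x = 0) → P₁ y) ∧ (∀ x, (∀ y, B y x = 0) → P₂ x)) :
    ∃ B' : Y₁ →ₗ[k] Y₂ →ₗ[k] k,
      (∀ y, (∀ x, B' y x = 0) → y = 0) ∧ (∀ x, (∀ y, B' y x = 0) → x = 0) := by
  obtain ⟨Bil, v₁, v₂, n₁, n₂⟩ := hB
  obtain ⟨π₁, s₁, k₁⟩ := h₁
  obtain ⟨π₂, s₂, k₂⟩ := h₂
  exact final_descent π₁ π₂ s₁ s₂ Bil (fun y x h => v₁ y x ((k₁ y).1 h))
    (fun y x h => v₂ y x ((k₂ x).1 h)) (fun y h => (k₁ y).2 (n₁ y h))
    (fun x h => (k₂ x).2 (n₂ x h))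

end descent

section dualPair

variable {p : ℕ} [Fact p.Prime] (M : Rep (ZMod p) GQ) [FiniteDimensional (ZMod p) M]

/-- the dual pair `(M, M^*(1))` -/
noncomputable def final_dualPair : DualPair (ZMod p) GQ (muRep p) where
  A := M
  B := Module.Dual (ZMod p) M
  ρA := M.ρ
  ρB := (M.dualTwist (cycloChar p)).ρ
  φ := Module.Dual.eval (ZMod p) M
  equiv g a b := by
    rw [Rep.dualTwist_ρ_apply, muRep_apply]
    simp
  left a h := (Module.forall_dual_apply_eq_zero_iff (ZMod p) a).1 h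
  right b h := LinearMap.ext h

end dualPair

section smooth

variable {k : Type} [Field k] (S : Finset Nat.Primes)
  {V : Type} [AddCommGroup V] [Module k V] [FiniteDimensional k V] (ρ : Representation k GQ V)

/-- pointwise smoothness gives a number field whose Galois group acts trivially. -/
theorem final_exists_field
    (hsm : ∀ m : V, ∃ F : IntermediateField ℚ (AlgebraicClosure ℚ), FiniteDimensional ℚ F ∧
      ∀ s ∈ F.fixingSubgroup, ρ s m = m) :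
    ∃ F : IntermediateField ℚ (AlgebraicClosure ℚ), FiniteDimensional ℚ F ∧
      ∀ s ∈ F.fixingSubgroup, ρ s = 1 := by
  choose F hF hFs using hsm
  let b := Module.finBasis k V
  refine ⟨⨆ i, F (b i), ?_, fun s hs => ?_⟩
  · have : ∀ i, FiniteDimensional ℚ (F (b i)) := fun i => hF _
    exact IntermediateField.finiteDimensional_iSup_of_finite
  · refine b.ext fun i => ?_
    exact hFs (b i) s (IntermediateField.fixingSubgroup_antitone (le_iSup (fun i => F (b i)) i) hs)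

theorem final_smooth
    (hsm : ∀ m : V, ∃ F : IntermediateField ℚ (AlgebraicClosure ℚ), FiniteDimensional ℚ F ∧
      ∀ s ∈ F.fixingSubgroup, ρ s m = m)
    (hur : ∀ q : Nat.Primes, q ∉ S → ∀ A : ValuationSubring (AlgebraicClosure ℚ),
      A.LiesOverPrime (q : ℕ) → ∀ g ∈ A.inertiaSubgroupIn ℚ, ρ g = 1) :
    Smooth ρ (levS S) := by
  have : Algebra.IsAlgebraic ℚ (AlgebraicClosure ℚ) := AlgebraicClosure.isAlgebraic ℚ
  have : Normal ℚ (AlgebraicClosure ℚ) := SH.gqLevels_normal_Qb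
  have : IsGalois ℚ (AlgebraicClosure ℚ) := ⟨⟩
  obtain ⟨F₀, hF₀, h₀⟩ := final_exists_field ρ hsm
  have hle : F₀.fixingSubgroup ≤ MonoidHom.ker ρ := fun s hs => MonoidHom.mem_ker.2 (h₀ s hs)
  have hopen : IsOpen ((MonoidHom.ker ρ : Subgroup GQ) : Set GQ) :=
    Subgroup.isOpen_mono hle (IntermediateField.fixingSubgroup_isOpen F₀)
  have hclosed : IsClosed ((MonoidHom.ker ρ : Subgroup GQ) : Set GQ) :=
    Subgroup.isClosed_of_isOpen _ hopen
  have hfix : (IntermediateField.fixedField (MonoidHom.ker ρ)).fixingSubgroup = MonoidHom.ker ρ :=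
    InfiniteGalois.fixingSubgroup_fixedField ⟨MonoidHom.ker ρ, hclosed⟩
  have hFle : IntermediateField.fixedField (MonoidHom.ker ρ) ≤ F₀ := by
    have := IntermediateField.fixedField_antitone hle
    rwa [InfiniteGalois.fixedField_fixingSubgroup] at this
  refine ⟨_, ⟨IntermediateField.fixedField (MonoidHom.ker ρ), ⟨?_, ?_⟩, rfl⟩, fun s hs => ?_⟩
  · exact FiniteDimensional.of_injective (IntermediateField.inclusion hFle).toLinearMap
      (IntermediateField.inclusion_injective hFle)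
  · intro q hq A hA g hg
    rw [hfix]
    exact MonoidHom.mem_ker.2 (hur q hq A hA g hg)
  · rw [hfix] at hs
    exact MonoidHom.mem_ker.1 hs

end smooth

section final

variable {p : ℕ} [Fact p.Prime]

/-- `M^*(1)` is smooth if `M` and `μ` are. -/
theorem final_smooth_dual (S : Finset Nat.Primes) (hμ : Smooth (muRep p) (levS S))
    (M : Rep (ZMod p) GQ) (hM : Smooth M.ρ (levS S)) :
    Smooth (M.dualTwist (cycloChar p)).ρ (levS S) := by
  obtain ⟨U₁, hU₁, h₁⟩ := hM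
  obtain ⟨U₂, hU₂, h₂⟩ := hμ
  obtain ⟨W, hW, hW₁, hW₂⟩ := (levS S).directed U₁ hU₁ U₂ hU₂
  refine ⟨W, hW, fun s hs => ?_⟩
  have a : M.ρ s⁻¹ = 1 := h₁ _ (hW₁ (W.inv_mem hs))
  have b : ((cycloChar p s : (ZMod p)ˣ) : ZMod p) = 1 := by
    have := LinearMap.congr_fun (h₂ s (hW₂ hs)) 1
    simpa using this
  refine LinearMap.ext fun f => ?_
  rw [Rep.dualTwist_ρ_apply, a, b, one_smul]
  rfl

/-- `ShaDuality` for the dual pair `(M, M^*(1))`, unfolded. -/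
theorem final_unfold (S : Finset Nat.Primes) (M : Rep (ZMod p) GQ) [FiniteDimensional (ZMod p) M]
    (h : ShaDuality (sysS S) (final_dualPair M)) :
    ∃ Bil : ↥(Sha1 (sysS S) (M.dualTwist (cycloChar p)).ρ) →ₗ[ZMod p]
        ↥(Sha2 (sysS S) M.ρ) →ₗ[ZMod p] ZMod p,
      (∀ y x, y.1 ∈ B1 (M.dualTwist (cycloChar p)).ρ → Bil y x = 0) ∧
      (∀ y x, x.1 ∈ B2 (levS S) M.ρ → Bil y x = 0) ∧
      (∀ y, (∀ x, Bil y x = 0) → y.1 ∈ B1 (M.dualTwist (cycloChar p)).ρ) ∧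
      (∀ x, (∀ y, Bil y x = 0) → x.1 ∈ B2 (levS S) M.ρ) := h

/-- **The frozen statement S55 follows from the abstract duality theorem** for the system
`sysS S` and the coefficient module `muRep p`. -/
theorem final_result_of (hp2 : p ≠ 2) (S : Finset Nat.Primes)
    (hμ : Smooth (muRep p) (levS S))
    (hmain : ∀ D : DualPair (ZMod p) GQ (muRep p), D.IsSmooth (levS S) → ShaDuality (sysS S) D)
    (M : Rep (ZMod p) (AlgebraicClosure ℚ ≃ₐ[ℚ] AlgebraicClosure ℚ))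
    [FiniteDimensional (ZMod p) M]
    (hsm : ∀ m : M, ∃ F : IntermediateField ℚ (AlgebraicClosure ℚ), FiniteDimensional ℚ F ∧
      ∀ s ∈ F.fixingSubgroup, M.ρ s m = m)
    (hMur : ∀ q : Nat.Primes, q ∉ S → ∀ A : ValuationSubring (AlgebraicClosure ℚ),
      A.LiesOverPrime (q : ℕ) → ∀ g ∈ A.inertiaSubgroupIn ℚ, M.ρ g = 1) :
    ∃ B : sha₁ S (M.dualTwist (cycloChar p)) →ₗ[ZMod p] sha₂ S M →ₗ[ZMod p] ZMod p,
      (∀ y, (∀ x, B y x = 0) → y = 0) ∧ (∀ x, (∀ y, B y x = 0) → x = 0) := by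
  have hM : Smooth M.ρ (levS S) := final_smooth S M.ρ hsm hMur
  have hD : (final_dualPair M).IsSmooth (levS S) := ⟨hM, final_smooth_dual S hμ M hM⟩
  exact final_descent_ex _ _ (final_exists_π1 hp2 S (M.dualTwist (cycloChar p)))
    (final_exists_π2 hp2 S M) (final_unfold S M (hmain _ hD))

end final

end Fermat.Agent.S55
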