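import Fermat.Agent.S55.T.CupLC

/-!
# S55-T : Leibniz rules, graded commutativity in total degree 2
-/

set_option autoImplicit false

namespace Fermat.Agent.S55

section leibniz

variable {k : Type} [CommRing k] {H : Type} [Group H] {𝒰 : Lev H}
variable {A B M : Type} [AddCommGroup A] [Module k A] [AddCommGroup B] [Module k B]
  [AddCommGroup M] [Module k M]
variable {ρA : Representation k H A} {ρB : Representation k H B} {ρM : Representation k H M}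
variable {φ : A →ₗ[k] B →ₗ[k] M} (hφ : ∀ g a b, φ (ρA g a) (ρB g b) = ρM g (φ a b))
include hφ

/-- `d(a ∪ b) = da ∪ b + a ∪ db` -/
theorem leib00 (a : A) (b : B) :
    d0 ρM (φ a b) = cup10 ρB φ (d0 ρA a) b + cup01 φ a (d0 ρB b) := by
  ext g
  simp only [d0_apply, Pi.add_apply, cup10_apply, cup01_apply, ← hφ, map_sub,
    LinearMap.sub_apply]
  abel
/-- `d(a ∪ y) = da ∪ y + a ∪ dy` -/
theorem leib01 (a : A) (y : H → B) :
    d1 ρM (cup01 φ a y) = cup11 ρB φ (d0 ρA a) y + cup02 φ a (d1 ρB y) := by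
  ext p
  simp only [d0_apply, d1_apply, Pi.add_apply, cup11_apply, cup01_apply, cup02_apply, ← hφ,
    map_sub, map_add, LinearMap.sub_apply]
  abel
/-- `d(x ∪ b) = dx ∪ b - x ∪ db` -/
theorem leib10 (x : H → A) (b : B) :
    d1 ρM (cup10 ρB φ x b) = cup20 ρB φ (d1 ρA x) b - cup11 ρB φ x (d0 ρB b) := by
  ext p
  simp only [d0_apply, d1_apply, Pi.sub_apply, cup11_apply, cup10_apply, cup20_apply, ← hφ,
    map_sub, map_add, LinearMap.sub_apply, LinearMap.add_apply, map_mul, Module.End.mul_apply]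
  abel
/-- `d(a ∪ f) = da ∪ f` for a cocycle `f` -/
theorem leib02 (a : A) {f : H × H → B} (hf : d2 ρB f = 0) :
    d2 ρM (cup02 φ a f) = cup12 ρB φ (d0 ρA a) f := by
  ext p
  have h := congrArg (φ a) (congrFun hf p)
  simp only [d2_apply, Pi.zero_apply, map_sub, map_add, map_zero] at h
  simp only [d0_apply, d2_apply, cup12_apply, cup02_apply, ← hφ, map_sub,
    LinearMap.sub_apply]
  rw [← sub_eq_zero, ← h]
  abel
/-- `d(x ∪ y) = dx ∪ y - x ∪ dy` -/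
theorem leib11 (x : H → A) (y : H → B) :
    d2 ρM (cup11 ρB φ x y) = cup21 ρB φ (d1 ρA x) y - cup12 ρB φ x (d1 ρB y) := by
  ext p
  simp only [d1_apply, d2_apply, Pi.sub_apply, cup11_apply, cup12_apply, cup21_apply, ← hφ,
    map_sub, map_add, LinearMap.sub_apply, LinearMap.add_apply, map_mul, Module.End.mul_apply]
  abel
/-- `d(f ∪ b) = f ∪ db` for a cocycle `f` -/
theorem leib20 {f : H × H → A} (hf : d2 ρA f = 0) (b : B) :
    d2 ρM (cup20 ρB φ f b) = cup21 ρB φ f (d0 ρB b) := by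
  ext p
  have h := congrArg (fun t => φ t (ρB p.1 (ρB p.2.1 (ρB p.2.2 b)))) (congrFun hf p)
  simp only [d2_apply, Pi.zero_apply, map_sub, map_add, map_zero, LinearMap.sub_apply,
    LinearMap.add_apply, LinearMap.zero_apply] at h
  simp only [d0_apply, d2_apply, cup20_apply, cup21_apply, ← hφ, map_sub,
    map_mul, Module.End.mul_apply]
  rw [← sub_eq_zero, ← h]
  abel

/-- cup products of cocycles are cocycles (total degree 2) -/
theorem cup02_mem_Z2 {a : A} (ha : a ∈ Z0 ρA) {f : H × H → B} (hf : f ∈ Z2 𝒰 ρB) :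
    cup02 φ a f ∈ Z2 𝒰 ρM := by
  rw [mem_Z2] at hf ⊢
  refine ⟨LC2_cup02 φ a hf.1, ?_⟩
  have ha' : d0 ρA a = 0 := ha
  rw [leib02 hφ a hf.2, ha', map_zero, LinearMap.zero_apply]
theorem cup11_mem_Z2 (hB : Smooth ρB 𝒰) {x : H → A} (hx : x ∈ Z1 𝒰 ρA) {y : H → B}
    (hy : y ∈ Z1 𝒰 ρB) : cup11 ρB φ x y ∈ Z2 𝒰 ρM := by
  rw [mem_Z1] at hx hy
  rw [mem_Z2]
  refine ⟨LC2_cup11 φ hB hx.1 hy.1, ?_⟩
  rw [leib11 hφ, hx.2, hy.2, map_zero, map_zero, LinearMap.zero_apply, sub_zero]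
theorem cup20_mem_Z2 (hB : Smooth ρB 𝒰) {f : H × H → A} (hf : f ∈ Z2 𝒰 ρA) {b : B}
    (hb : b ∈ Z0 ρB) : cup20 ρB φ f b ∈ Z2 𝒰 ρM := by
  rw [mem_Z2] at hf ⊢
  refine ⟨LC2_cup20 φ hB hf.1 b, ?_⟩
  have hb' : d0 ρB b = 0 := hb
  rw [leib20 hφ hf.2 b, hb', map_zero]

/-- cup products with a coboundary are coboundaries (total degree 2) -/
theorem cup02_mem_B2 {a : A} (ha : a ∈ Z0 ρA) {f : H × H → B} (hf : f ∈ B2 𝒰 ρB) :
    cup02 φ a f ∈ B2 𝒰 ρM := by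
  rw [mem_B2] at hf ⊢
  obtain ⟨y, hy, rfl⟩ := hf
  have ha' : d0 ρA a = 0 := ha
  refine ⟨cup01 φ a y, LC1_cup01 φ a hy, ?_⟩
  rw [leib01 hφ, ha', map_zero, LinearMap.zero_apply, zero_add]
theorem cup11_mem_B2_left (hB : Smooth ρB 𝒰) {x : H → A} (hx : x ∈ B1 ρA) {y : H → B}
    (hy : y ∈ Z1 𝒰 ρB) : cup11 ρB φ x y ∈ B2 𝒰 ρM := by
  rw [mem_B1] at hx
  rw [mem_Z1] at hy
  rw [mem_B2]
  obtain ⟨a, rfl⟩ := hx
  refine ⟨cup01 φ a y, LC1_cup01 φ a hy.1, ?_⟩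
  rw [leib01 hφ, hy.2, map_zero, add_zero]
theorem cup11_mem_B2_right (hB : Smooth ρB 𝒰) {x : H → A} (hx : x ∈ Z1 𝒰 ρA) {y : H → B}
    (hy : y ∈ B1 ρB) : cup11 ρB φ x y ∈ B2 𝒰 ρM := by
  rw [mem_Z1] at hx
  rw [mem_B1] at hy
  obtain ⟨b, rfl⟩ := hy
  have h : cup11 ρB φ x (d0 ρB b) = - d1 ρM (cup10 ρB φ x b) := by
    rw [leib10 hφ, hx.2, map_zero, LinearMap.zero_apply, zero_sub, neg_neg]
  rw [h]
  exact (B2 𝒰 ρM).neg_mem (mem_B2.2 ⟨_, LC1_cup10 φ hB hx.1 b, rfl⟩)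
theorem cup20_mem_B2 (hB : Smooth ρB 𝒰) {f : H × H → A} (hf : f ∈ B2 𝒰 ρA) {b : B}
    (hb : b ∈ Z0 ρB) : cup20 ρB φ f b ∈ B2 𝒰 ρM := by
  rw [mem_B2] at hf ⊢
  obtain ⟨x, hx, rfl⟩ := hf
  have hb' : d0 ρB b = 0 := hb
  refine ⟨cup10 ρB φ x b, LC1_cup10 φ hB hx b, ?_⟩
  rw [leib10 hφ, hb', map_zero, sub_zero]

/-- graded commutativity in degree (1,1): `x ∪ y + y ∪ x = -d(g ↦ φ (x g) (y g))` -/
theorem cup11_comm {x : H → A} (hx : d1 ρA x = 0) {y : H → B} (hy : d1 ρB y = 0) :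
    cup11 ρB φ x y + cup11 ρA φ.flip y x = - d1 ρM (fun g => φ (x g) (y g)) := by
  ext p
  simp only [d1_apply, Pi.add_apply, Pi.neg_apply, cup11_apply, LinearMap.flip_apply, ← hφ,
    Z1_mul hx, Z1_mul hy, map_add, LinearMap.add_apply]
  abel
theorem cup11_comm_mem_B2 {x : H → A} (hx : x ∈ Z1 𝒰 ρA) {y : H → B} (hy : y ∈ Z1 𝒰 ρB) :
    cup11 ρB φ x y + cup11 ρA φ.flip y x ∈ B2 𝒰 ρM := by
  rw [mem_Z1] at hx hy
  rw [cup11_comm hφ hx.2 hy.2]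
  refine (B2 𝒰 ρM).neg_mem (mem_B2.2 ⟨_, ?_, rfl⟩)
  obtain ⟨U, hU, h⟩ := hx.1
  obtain ⟨U', hU', h'⟩ := hy.1
  obtain ⟨W, hW, hWU, hWU'⟩ := 𝒰.directed U hU U' hU'
  exact ⟨W, hW, fun g s hs => by simp only [h g s (hWU hs), h' g s (hWU' hs)]⟩

end leibniz

section comm20

variable {k : Type} [CommRing k] {H : Type} [Group H]
variable {A B M : Type} [AddCommGroup A] [Module k A] [AddCommGroup B] [Module k B]
  [AddCommGroup M] [Module k M]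
variable {ρB : Representation k H B} {φ : A →ₗ[k] B →ₗ[k] M}

/-- commutativity in degree (2,0)/(0,2), on the nose for invariant `b` -/
theorem cup20_eq_cup02 (f : H × H → A) {b : B} (hb : b ∈ Z0 ρB) :
    cup20 ρB φ f b = cup02 φ.flip b f := by
  ext p
  simp only [cup20_apply, cup02_apply, LinearMap.flip_apply, mem_Z0.1 hb]

end comm20

end Fermat.Agent.S55
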