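import Fermat.Agent.S55.T.Leibniz
import Fermat.Agent.S55.T.LinAlg
import Fermat.Agent.S55.T.Quot

/-!
# S55-T : local duality, surjectivity statements deduced from `LPerfect`
-/

set_option autoImplicit false

namespace Fermat.Agent.S55

variable {k : Type} [Field k] {H : Type} [Group H] {𝒱 : Lev H} {ρμ : Representation k H k}
  {τ : (H × H → k) →ₗ[k] k} (hτ : ∀ f ∈ B2 𝒱 ρμ, τ f = 0)
  {D : DualPair k H ρμ} (hD : D.IsSmooth 𝒱) (h : LPerfect 𝒱 τ D)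

theorem LPerfect.swap (h : LPerfect 𝒱 τ D) : LPerfect 𝒱 τ D.swap where
  q0 := h.q0'
  q1 := h.q1'
  q2 := h.q2'
  q0' := by
    intro a ha hf
    refine h.q0 a ha (fun f hf' => ?_)
    have := hf f hf'
    simpa only [LinearMap.flip_flip] using this
  q1' := by
    intro a ha hf
    refine h.q1 a ha (fun f hf' => ?_)
    have := hf f hf'
    simpa only [LinearMap.flip_flip] using this
  q2' := by
    intro a ha hf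
    refine h.q2 a ha (fun f hf' => ?_)
    have := hf f hf'
    simpa only [LinearMap.flip_flip] using this
  finA := h.finB
  finB := h.finA

include hτ hD h

/-- `H⁰(A) → H²(B)^*` is onto -/
theorem LPerfect.surj0 (l : (H × H → D.B) →ₗ[k] k) (hl : ∀ f ∈ B2 𝒱 D.ρB, l f = 0) :
    ∃ e ∈ Z0 D.ρA, ∀ f ∈ Z2 𝒱 D.ρB, τ (cup02 D.φ e f) = l f := by
  have hnd : ∀ y ∈ Z2 𝒱 D.ρB, (∀ x ∈ Z0 D.ρA, ((cup02 D.φ).compr₂ τ) x y = 0) →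
      y ∈ B2 𝒱 D.ρB := by
    intro y hy hx
    refine h.q2' y hy (fun b hb => ?_)
    have h1 := hx b hb
    have h2 : cup20 D.ρA D.φ.flip y b = cup02 D.φ.flip.flip b y := cup20_eq_cup02 y hb
    rw [LinearMap.flip_flip] at h2
    change τ (cup20 D.ρA D.φ.flip y b) = 0
    rw [h2]
    exact h1
  haveI : FiniteDimensional k (↥(Z2 𝒱 D.ρB) ⧸ (B2 𝒱 D.ρB).comap (Z2 𝒱 D.ρB).subtype) :=
    (finite_of_nondeg ((cup02 D.φ).compr₂ τ) (Z0 D.ρA) ⊥ (Z2 𝒱 D.ρB) (B2 𝒱 D.ρB)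
      (by
        intro x hx y _
        rw [(Submodule.mem_bot k).1 hx, map_zero, LinearMap.zero_apply]) hnd).1
  exact surj_of_nondeg ((cup02 D.φ).compr₂ τ) (Z0 D.ρA) (Z2 𝒱 D.ρB) (B2 𝒱 D.ρB)
    (fun x hx y hy => hτ _ (cup02_mem_B2 D.equiv hx hy)) hnd l hl

/-- right non-degeneracy of `H¹(A) × H¹(B) → k` (auxiliary copy placed before `surj1`) -/
private theorem localsurj_q1_right : ∀ y ∈ Z1 𝒱 D.ρB,
    (∀ x ∈ Z1 𝒱 D.ρA, τ (cup11 D.ρB D.φ x y) = 0) → y ∈ B1 D.ρB := by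
  intro y hy hx
  refine h.q1' y hy (fun x hx' => ?_)
  have h1 := hτ _ (cup11_comm_mem_B2 D.equiv hx' hy)
  rw [map_add, hx x hx', zero_add] at h1
  exact h1

/-- `H¹(A) → H¹(B)^*` is onto -/
theorem LPerfect.surj1 (l : (H → D.B) →ₗ[k] k) (hl : ∀ y ∈ B1 D.ρB, l y = 0) :
    ∃ x ∈ Z1 𝒱 D.ρA, ∀ y ∈ Z1 𝒱 D.ρB, τ (cup11 D.ρB D.φ x y) = l y := by
  haveI : FiniteDimensional k (↥(Z1 𝒱 D.ρB) ⧸ (B1 D.ρB).comap (Z1 𝒱 D.ρB).subtype) := h.finB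
  exact surj_of_nondeg ((cup11 D.ρB D.φ).compr₂ τ) (Z1 𝒱 D.ρA) (Z1 𝒱 D.ρB) (B1 D.ρB)
    (fun x hx y hy => hτ _ (cup11_mem_B2_right D.equiv hD.2 hx hy))
    (localsurj_q1_right hτ hD h) l hl

/-- `H⁰(B) → H²(A)^*` is onto -/
theorem LPerfect.surj2 (l : (H × H → D.A) →ₗ[k] k) (hl : ∀ f ∈ B2 𝒱 D.ρA, l f = 0) :
    ∃ e ∈ Z0 D.ρB, ∀ f ∈ Z2 𝒱 D.ρA, τ (cup20 D.ρB D.φ f e) = l f := by
  obtain ⟨e, he, hf⟩ := LPerfect.surj0 hτ hD.swap h.swap l hl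
  refine ⟨e, he, fun f hf' => ?_⟩
  rw [cup20_eq_cup02 f he]
  exact hf f hf'

/-- right non-degeneracy of `H¹(A) × H¹(B) → k` -/
theorem LPerfect.q1_right : ∀ y ∈ Z1 𝒱 D.ρB,
    (∀ x ∈ Z1 𝒱 D.ρA, τ (cup11 D.ρB D.φ x y) = 0) → y ∈ B1 D.ρB :=
  localsurj_q1_right hτ hD h

/-- `dim H¹(A) = dim H¹(B)` -/
theorem LPerfect.finrank_eq :
    Module.finrank k (HH1 𝒱 D.ρA) = Module.finrank k (HH1 𝒱 D.ρB) := by
  haveI : FiniteDimensional k (↥(Z1 𝒱 D.ρB) ⧸ (B1 D.ρB).comap (Z1 𝒱 D.ρB).subtype) := h.finB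
  haveI : FiniteDimensional k (↥(Z1 𝒱 D.ρA) ⧸ (B1 D.ρA).comap (Z1 𝒱 D.ρA).subtype) := h.finA
  apply le_antisymm
  · exact (finite_of_nondeg ((cup11 D.ρB D.φ).compr₂ τ).flip (Z1 𝒱 D.ρB) (B1 D.ρB)
      (Z1 𝒱 D.ρA) (B1 D.ρA)
      (fun x hx y hy => hτ _ (cup11_mem_B2_right D.equiv hD.2 hy hx))
      (fun y hy hx => h.q1 y hy hx)).2
  · exact (finite_of_nondeg ((cup11 D.ρB D.φ).compr₂ τ) (Z1 𝒱 D.ρA) (B1 D.ρA)
      (Z1 𝒱 D.ρB) (B1 D.ρB)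
      (fun x hx y hy => hτ _ (cup11_mem_B2_left D.equiv hD.2 hx hy))
      (localsurj_q1_right hτ hD h)).2

end Fermat.Agent.S55
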