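import Fermat.Agent.S55.T.Leibniz
import Fermat.Agent.S55.T.Cone

/-!
# S55-T : cochain identities for the global pairings `L1`, `L2`, `R1` (cone Leibniz rules, naturality)
-/

set_option autoImplicit false

namespace Fermat.Agent.S55

section pairings

variable {k : Type} [Field k] (P : Sys) {ρμ : Representation k P.G k}
  (D : DualPair k P.G ρμ)

/-! ### the four "cone Leibniz rules" -/

/-- `L2 (d j) y - L1 j (d y) = d (j ∪ y)` -/
theorem L2_coneD1_sub (j : (P.G → D.A) × (P.ι → D.A)) (y : P.G → D.B) :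
    L2 P D (coneD1 P D.ρA j) y - L1 P D j (d1 D.ρB y) =
      coneD2 P ρμ (cup11 D.ρB D.φ j.1 y,
        fun v => cup01 D.φ (j.2 v) (res1 (k := k) (P.r v) y)) := by
  rw [L2_apply, L1_apply, coneD2_apply, coneD1_apply]
  refine Prod.ext ?_ ?_
  · exact (leib11 D.equiv j.1 y).symm
  · funext v
    simp only [Prod.snd_sub, Pi.sub_apply]
    rw [res2_cup11, leib01 (ρA := P.loc D.ρA v) (ρB := P.loc D.ρB v) (ρM := P.loc ρμ v)
      (fun g => D.equiv (P.r v g)), ← res2_d1, map_sub, LinearMap.sub_apply]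
    abel

/-- `L1 (d a) y = d (a ∪ y)` for a cocycle `y` -/
theorem L1_coneD0 (a : D.A) {y : P.G × P.G → D.B} (hy : d2 D.ρB y = 0) :
    L1 P D (coneD0 P D.ρA a) y = coneD2 P ρμ (cup02 D.φ a y, 0) := by
  rw [L1_apply, coneD2_apply, coneD0_apply]
  refine Prod.ext ?_ ?_
  · exact (leib02 D.equiv a hy).symm
  · funext v
    simp only [Pi.zero_apply, map_zero, sub_zero]
    rw [res2_cup02]

/-- `L2 x (d b) = d (x ∪ b)` for a cone cocycle `x` -/
theorem L2_d0 {x : (P.G × P.G → D.A) × (∀ v : P.ι, P.Gv v → D.A)}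
    (hx : coneD2 P D.ρA x = 0) (b : D.B) :
    L2 P D x (d0 D.ρB b) = coneD2 P ρμ (cup20 D.ρB D.φ x.1 b,
        fun v => cup10 (P.loc D.ρB v) D.φ (x.2 v) b) := by
  rw [coneD2_apply] at hx
  have hx1 : d2 D.ρA x.1 = 0 := congrArg Prod.fst hx
  have hx2 : ∀ v, res2 (k := k) (P.r v) x.1 = d1 (P.loc D.ρA v) (x.2 v) := fun v =>
    sub_eq_zero.mp (congrFun (congrArg Prod.snd hx) v)
  rw [L2_apply, coneD2_apply]
  refine Prod.ext ?_ ?_
  · exact (leib20 D.equiv hx1 b).symm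
  · funext v
    simp only
    rw [res2_cup20, leib10 (ρA := P.loc D.ρA v) (ρB := P.loc D.ρB v) (ρM := P.loc ρμ v)
      (fun g => D.equiv (P.r v g)), hx2 v, res1_d0]
    abel

/-- `R1 (d α) y = d (α ∪ y)` for a cone cocycle `y` -/
theorem R1_d1 (α : P.G → D.A) {y : (P.G → D.B) × (P.ι → D.B)} (hy : coneD1 P D.ρB y = 0) :
    R1 P D (d1 D.ρA α) y = coneD2 P ρμ (cup11 D.ρB D.φ α y.1,
        fun v => - cup10 (P.loc D.ρB v) D.φ (res1 (k := k) (P.r v) α) (y.2 v)) := by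
  rw [coneD1_apply] at hy
  have hy1 : d1 D.ρB y.1 = 0 := congrArg Prod.fst hy
  have hy2 : ∀ v, res1 (k := k) (P.r v) y.1 = d0 (P.loc D.ρB v) (y.2 v) := fun v =>
    sub_eq_zero.mp (congrFun (congrArg Prod.snd hy) v)
  rw [R1_apply, coneD2_apply]
  refine Prod.ext ?_ ?_
  · simp only
    rw [leib11 D.equiv α y.1, hy1, map_zero, sub_zero]
  · funext v
    simp only
    rw [res2_cup11, map_neg, leib10 (ρA := P.loc D.ρA v) (ρB := P.loc D.ρB v)
      (ρM := P.loc ρμ v) (fun g => D.equiv (P.r v g)), hy2 v, res2_d1]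
    abel

/-- `R1 a (d b) = d (a ∪ b)` for a cocycle `a` -/
theorem R1_coneD0 {a : P.G × P.G → D.A} (ha : d2 D.ρA a = 0) (b : D.B) :
    R1 P D a (coneD0 P D.ρB b) = coneD2 P ρμ (cup20 D.ρB D.φ a b, 0) := by
  rw [R1_apply, coneD2_apply, coneD0_apply]
  refine Prod.ext ?_ ?_
  · exact (leib20 D.equiv ha b).symm
  · funext v
    simp only [Pi.zero_apply, map_zero, sub_zero]
    rw [res2_cup20]

/-- `L2 x y.1 - R1 x.1 y = d (0, x.2 ∪ y.2)` for cone cocycles `x`, `y` -/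
theorem L2_sub_R1 {x : (P.G × P.G → D.A) × (∀ v : P.ι, P.Gv v → D.A)}
    (hx : coneD2 P D.ρA x = 0) {y : (P.G → D.B) × (P.ι → D.B)} (hy : coneD1 P D.ρB y = 0) :
    L2 P D x y.1 - R1 P D x.1 y =
      coneD2 P ρμ (0, fun v => cup10 (P.loc D.ρB v) D.φ (x.2 v) (y.2 v)) := by
  rw [coneD2_apply] at hx
  have hx2 : ∀ v, res2 (k := k) (P.r v) x.1 = d1 (P.loc D.ρA v) (x.2 v) := fun v =>
    sub_eq_zero.mp (congrFun (congrArg Prod.snd hx) v)
  rw [coneD1_apply] at hy
  have hy2 : ∀ v, res1 (k := k) (P.r v) y.1 = d0 (P.loc D.ρB v) (y.2 v) := fun v =>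
    sub_eq_zero.mp (congrFun (congrArg Prod.snd hy) v)
  rw [L2_apply, R1_apply, coneD2_apply]
  refine Prod.ext ?_ ?_
  · simp only [Prod.fst_sub, sub_self, map_zero]
  · funext v
    simp only [Prod.snd_sub, Pi.sub_apply, map_zero, zero_sub]
    rw [leib10 (ρA := P.loc D.ρA v) (ρB := P.loc D.ρB v)
      (ρM := P.loc ρμ v) (fun g => D.equiv (P.r v g)), hx2 v, hy2 v]
    abel

end pairings

section naturality

variable {k : Type} [Field k] (P : Sys) {ρμ : Representation k P.G k}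
  {D I : DualPair k P.G ρμ} (e : DualPair.Emb D I)

theorem L1_nat (x : (P.G → D.A) × (P.ι → D.A)) (y : P.G × P.G → I.B) :
    L1 P I (pushc1 P e.i x) y = L1 P D x (push e.p y) := by
  rw [L1_apply, L1_apply, pushc1_apply]
  refine Prod.ext ?_ ?_
  · exact nat_cup12 e.adj e.p_equiv x.1 y
  · funext v
    exact nat_cup02 e.adj (x.2 v) (res2 (k := k) (P.r v) y)
theorem L2_nat (x : (P.G × P.G → D.A) × (∀ v : P.ι, P.Gv v → D.A)) (y : P.G → I.B) :
    L2 P I (pushc2 P e.i x) y = L2 P D x (push e.p y) := by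
  rw [L2_apply, L2_apply, pushc2_apply]
  refine Prod.ext ?_ ?_
  · exact nat_cup21 e.adj e.p_equiv x.1 y
  · funext v
    exact nat_cup11 (ρB := P.loc D.ρB v) (ρB' := P.loc I.ρB v) e.adj
      (fun g b => e.p_equiv (P.r v g) b) (x.2 v) (res1 (k := k) (P.r v) y)

end naturality

section naturality'

variable {k : Type} [Field k] (P : Sys) {ρμ : Representation k P.G k}
  {D I Q : DualPair k P.G ρμ} (e : DualPair.SES D I Q)

theorem L1_nat' (x : (P.G → I.A) × (P.ι → I.A)) (y : P.G × P.G → Q.B) :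
    L1 P Q (pushc1 P e.π x) y = L1 P I x (push e.j y) := by
  rw [L1_apply, L1_apply, pushc1_apply]
  refine Prod.ext ?_ ?_
  · exact nat_cup12 e.adj' e.j_equiv x.1 y
  · funext v
    exact nat_cup02 e.adj' (x.2 v) (res2 (k := k) (P.r v) y)

end naturality'

section naturalityR

/-! naturality of `R1` for an embedding `e : Emb D.swap I'` of the SWAPPED pair, i.e.
`e.i : D.B → I'.A` injective, `e.p : I'.B → D.A`; the pairing `R1` is taken for `I'.swap`. -/

variable {k : Type} [Field k] (P : Sys) {ρμ : Representation k P.G k}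
  {D I' : DualPair k P.G ρμ} (e : DualPair.Emb D.swap I')

theorem R1_nat (a : P.G × P.G → I'.B) (y : (P.G → D.B) × (P.ι → D.B)) :
    R1 P I'.swap a (pushc1 P e.i y) = R1 P D (push e.p a) y := by
  have hadj : ∀ (a : I'.B) (b : D.B), D.φ (e.p a) b = I'.swap.φ a (e.i b) :=
    fun a b => (e.adj b a).symm
  rw [R1_apply, R1_apply, pushc1_apply]
  refine Prod.ext ?_ ?_
  · exact (nat_cup21 (ρB := I'.swap.ρB) (ρB' := D.ρB) (φ := I'.swap.φ) (φ' := D.φ) (u := e.p)
      (w := e.i) hadj e.i_equiv a y.1).symm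
  · funext v
    exact (nat_cup20 (ρB := P.loc I'.swap.ρB v) (ρB' := P.loc D.ρB v) (φ := I'.swap.φ) (φ' := D.φ)
      (u := e.p) (w := e.i) hadj (fun g b => e.i_equiv (P.r v g) b)
      (res2 (k := k) (P.r v) a) (y.2 v)).symm

end naturalityR

end Fermat.Agent.S55
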