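import Fermat.Agent.S55.T.PairId

/-!
# S55-T : consequences of the cone Leibniz rules for the trace functional `T.t`
-/

set_option autoImplicit false

namespace Fermat.Agent.S55

section pairings

variable {k : Type} [Field k] (P : Sys) {ρμ : Representation k P.G k}
  (D : DualPair k P.G ρμ)

variable (T : Trace P ρμ)

private theorem pairt_t_coneD2 {α : P.G × P.G → k} {β : ∀ v : P.ι, P.Gv v → k}
    (hα : LC2 P.lev α) (hβ : ∀ v, LC1 (P.levv v) (β v)) : T.t (coneD2 P ρμ (α, β)) = 0 :=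
  T.t_B3c _ (Submodule.mem_map_of_mem (show (α, β) ∈ CC2 k P k from ⟨hα, fun v _ => hβ v⟩))

private theorem pairt_LC1_zero {H : Type} [Group H] (𝒰 : Lev H) : LC1 𝒰 (0 : H → k) :=
  (C1 k 𝒰 k).zero_mem

private theorem pairt_LC2_zero {H : Type} [Group H] (𝒰 : Lev H) : LC2 𝒰 (0 : H × H → k) :=
  (C2 k 𝒰 k).zero_mem

private theorem pairt_LC1_res {X : Type} [AddCommGroup X] [Module k X] (v : P.ι) {y : P.G → X}
    (hy : LC1 P.lev y) : LC1 (P.levv v) (res1 (k := k) (P.r v) y) :=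
  LC1_res (P.r v) (P.compat v) hy

variable (hD : D.IsSmooth P.lev)
include hD

/-! ### consequences for `T.t` -/

/-- δ-compatibility -/
theorem t_L2_coneD1 {j : (P.G → D.A) × (P.ι → D.A)} (hj : j ∈ CC1 k P D.A) {y : P.G → D.B}
    (hy : LC1 P.lev y) :
    T.t (L2 P D (coneD1 P D.ρA j) y) = T.t (L1 P D j (d1 D.ρB y)) := by
  rw [← sub_eq_zero, ← map_sub, L2_coneD1_sub]
  exact pairt_t_coneD2 P T (LC2_cup11 D.φ hD.2 hj.1 hy)
    (fun v => LC1_cup01 D.φ _ (pairt_LC1_res P v hy))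

theorem t_L1_B1c {x} (hx : x ∈ B1c P D.ρA) {y} (hy : y ∈ Z2 P.lev D.ρB) :
    T.t (L1 P D x y) = 0 := by
  obtain ⟨a, rfl⟩ := hx
  rw [L1_coneD0 P D a hy.2]
  exact pairt_t_coneD2 P T (LC2_cup02 D.φ a hy.1) (fun v => pairt_LC1_zero _)

theorem t_L1_B2 {x} (hx : x ∈ Z1c P D.ρA) {y} (hy : y ∈ B2 P.lev D.ρB) :
    T.t (L1 P D x y) = 0 := by
  obtain ⟨y', hy', rfl⟩ := hy
  rw [← t_L2_coneD1 P D T hD hx.1 hy']
  have h0 : coneD1 P D.ρA x = 0 := hx.2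
  rw [h0, map_zero, LinearMap.zero_apply, map_zero]

theorem t_L2_B2c {x} (hx : x ∈ B2c P D.ρA) {y} (hy : y ∈ Z1 P.lev D.ρB) :
    T.t (L2 P D x y) = 0 := by
  obtain ⟨j, hj, rfl⟩ := hx
  rw [t_L2_coneD1 P D T hD hj hy.1]
  have h0 : d1 D.ρB y = 0 := hy.2
  rw [h0, map_zero, map_zero]

theorem t_L2_B1 {x} (hx : x ∈ Z2c P D.ρA) {y} (hy : y ∈ B1 D.ρB) :
    T.t (L2 P D x y) = 0 := by
  obtain ⟨b, rfl⟩ := hy
  rw [L2_d0 P D hx.2 b]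
  exact pairt_t_coneD2 P T (LC2_cup20 D.φ hD.2 hx.1.1 b)
    (fun v => LC1_cup10 D.φ (P.smooth_loc hD.2 v) (hx.1.2 v trivial) b)

theorem t_R1_B2 {a} (ha : a ∈ B2 P.lev D.ρA) {y} (hy : y ∈ Z1c P D.ρB) :
    T.t (R1 P D a y) = 0 := by
  obtain ⟨α, hα, rfl⟩ := ha
  rw [R1_d1 P D α hy.2]
  exact pairt_t_coneD2 P T (LC2_cup11 D.φ hD.2 hα hy.1.1)
    (fun v => (C1 k (P.levv v) k).neg_mem
      (LC1_cup10 D.φ (P.smooth_loc hD.2 v) (pairt_LC1_res P v hα) _))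

theorem t_R1_B1c {a} (ha : a ∈ Z2 P.lev D.ρA) {y} (hy : y ∈ B1c P D.ρB) :
    T.t (R1 P D a y) = 0 := by
  obtain ⟨b, rfl⟩ := hy
  rw [R1_coneD0 P D ha.2 b]
  exact pairt_t_coneD2 P T (LC2_cup20 D.φ hD.2 ha.1 b) (fun v => pairt_LC1_zero _)

theorem t_L2_eq_R1 {x} (hx : x ∈ Z2c P D.ρA) {y} (hy : y ∈ Z1c P D.ρB) :
    T.t (L2 P D x y.1) = T.t (R1 P D x.1 y) := by
  rw [← sub_eq_zero, ← map_sub, L2_sub_R1 P D hx.2 hy.2]
  exact pairt_t_coneD2 P T (pairt_LC2_zero _)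
    (fun v => LC1_cup10 D.φ (P.smooth_loc hD.2 v) (hx.1.2 v trivial) _)

/-- on elements `(0,b)` the pairings are sums of local pairings -/
theorem t_L1_zero {b : P.ι → D.A} (hb : ∀ v, b v ∈ Z0 (P.loc D.ρA v)) {y}
    (hy : y ∈ Z2 P.lev D.ρB) :
    T.t (L1 P D (0, b) y) = ∑ v, T.τ v (cup02 D.φ (b v) (res2 (k := k) (P.r v) y)) := by
  rw [L1_apply, map_zero, LinearMap.zero_apply]
  exact T.t_loc _ (fun v => cup02_mem_Z2 (ρA := P.loc D.ρA v) (ρB := P.loc D.ρB v)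
    (ρM := P.loc ρμ v) (fun g a b => D.equiv (P.r v g) a b) (hb v)
    (res2_mem_Z2 (P.r v) (P.compat v) hy))

theorem t_L2_zero {b : ∀ v : P.ι, P.Gv v → D.A} (hb : ∀ v, b v ∈ Z1 (P.levv v) (P.loc D.ρA v)) {y}
    (hy : y ∈ Z1 P.lev D.ρB) :
    T.t (L2 P D (0, b) y) =
      ∑ v, T.τ v (cup11 (P.loc D.ρB v) D.φ (b v) (res1 (k := k) (P.r v) y)) := by
  rw [L2_apply, map_zero, LinearMap.zero_apply]
  exact T.t_loc _ (fun v => cup11_mem_Z2 (ρA := P.loc D.ρA v) (ρB := P.loc D.ρB v)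
    (ρM := P.loc ρμ v) (fun g a b => D.equiv (P.r v g) a b) (P.smooth_loc hD.2 v) (hb v)
    (res1_mem_Z1 (P.r v) (P.compat v) hy))

theorem t_R1_zero {a} (ha : a ∈ Z2 P.lev D.ρA) {c : P.ι → D.B}
    (hc : ∀ v, c v ∈ Z0 (P.loc D.ρB v)) :
    T.t (R1 P D a (0, c)) =
      ∑ v, T.τ v (cup20 (P.loc D.ρB v) D.φ (res2 (k := k) (P.r v) a) (c v)) := by
  rw [R1_apply, map_zero]
  exact T.t_loc _ (fun v => cup20_mem_Z2 (ρA := P.loc D.ρA v) (ρB := P.loc D.ρB v)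
    (ρM := P.loc ρμ v) (fun g a b => D.equiv (P.r v g) a b) (P.smooth_loc hD.2 v)
    (res2_mem_Z2 (P.r v) (P.compat v) ha) (hc v))

/-- reciprocity for `H¹ × H¹` -/
theorem recip11 {x} (hx : x ∈ Z1 P.lev D.ρA) {y} (hy : y ∈ Z1 P.lev D.ρB) :
    ∑ v, T.τ v (cup11 (P.loc D.ρB v) D.φ (res1 (k := k) (P.r v) x) (res1 (k := k) (P.r v) y)) = 0 := by
  have hZ : cup11 D.ρB D.φ x y ∈ Z2 P.lev ρμ := cup11_mem_Z2 D.equiv hD.2 hx hy
  rw [← T.t_loc _ (fun v => cup11_mem_Z2 (ρA := P.loc D.ρA v) (ρB := P.loc D.ρB v)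
    (ρM := P.loc ρμ v) (fun g a b => D.equiv (P.r v g) a b) (P.smooth_loc hD.2 v)
    (res1_mem_Z1 (P.r v) (P.compat v) hx) (res1_mem_Z1 (P.r v) (P.compat v) hy))]
  have e : ((0 : P.G × P.G × P.G → k), fun v => cup11 (P.loc D.ρB v) D.φ
      (res1 (k := k) (P.r v) x) (res1 (k := k) (P.r v) y)) =
      coneD2 P ρμ (cup11 D.ρB D.φ x y, 0) := by
    rw [coneD2_apply]
    have h0 : d2 ρμ (cup11 D.ρB D.φ x y) = 0 := hZ.2
    refine Prod.ext h0.symm ?_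
    funext v
    show _ = res2 (k := k) (P.r v) (cup11 D.ρB D.φ x y) - d1 (P.loc ρμ v) 0
    rw [map_zero, sub_zero, res2_cup11]
  rw [e]
  exact pairt_t_coneD2 P T hZ.1 (fun v => pairt_LC1_zero _)

end pairings

end Fermat.Agent.S55
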