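import Fermat.Agent.S55.T.PairT
import Fermat.Agent.S55.T.LocalSurj

/-!
# S55-T : from `α^i` injective to non-degeneracy on `Sha`, and (S4) the final abstract pairing
-/

set_option autoImplicit false

namespace Fermat.Agent.S55

variable {k : Type} [Field k] (P : Sys) {ρμ : Representation k P.G k}
  (T : Trace P ρμ) (D : DualPair k P.G ρμ) (hD : D.IsSmooth P.lev)
  (hLD : ∀ v, LPerfect (P.levv v) (T.τ v) (D.res (P.r v)))
include hD hLD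

omit hLD in
private theorem shapair_smooth_res (v : P.ι) : (D.res (P.r v)).IsSmooth (P.levv v) :=
  ⟨P.smooth_loc hD.1 v, P.smooth_loc hD.2 v⟩

/-- `Sha¹(A) ↪ Sha²(B)^*` via `L1` -/
theorem sha_left_L1 (h : A1L P T D) : ∀ x ∈ Z1c P D.ρA,
    (∀ y ∈ Sha2 P D.ρB, T.t (L1 P D x y) = 0) → x.1 ∈ B1 D.ρA := by
  intro x hx hkill
  obtain ⟨l', hl'B, hl'⟩ := exists_local_functionals
    (fun v => (res2 (P.r v) : (P.G × P.G → D.B) →ₗ[k] _)) (Z2 P.lev D.ρB)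
    (fun v => B2 (P.levv v) (P.loc D.ρB v)) (T.t.comp (L1 P D x))
    (fun z hz hzB => hkill z ((mem_Sha2 P).2 ⟨hz, hzB⟩))
  have hex : ∀ v, ∃ e ∈ Z0 (P.loc D.ρA v), ∀ f ∈ Z2 (P.levv v) (P.loc D.ρB v),
      T.τ v (cup02 D.φ e f) = l' v f := fun v =>
    LPerfect.surj0 (T.τ_B2 v) (shapair_smooth_res P D hD v) (hLD v) (l' v) (hl'B v)
  choose e he0 he using hex
  have h0e : ((0 : P.G → D.A), e) ∈ Z1c P D.ρA := by
    rw [mem_Z1c]
    refine ⟨zero_mem _, fun v => ?_⟩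
    rw [map_zero]
    exact (LinearMap.mem_ker.1 (he0 v)).symm
  have hB : x - (0, e) ∈ B1c P D.ρA := by
    refine h _ (sub_mem hx h0e) fun y hy => ?_
    rw [map_sub, LinearMap.sub_apply, map_sub, t_L1_zero P D T hD he0 hy]
    have h1 := hl' y hy
    rw [LinearMap.comp_apply] at h1
    rw [h1, sub_eq_zero]
    exact Finset.sum_congr rfl fun v _ => (he v _ (res2_mem_Z2 (P.r v) (P.compat v) hy)).symm
  obtain ⟨a, ha⟩ := (mem_B1c P).1 hB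
  refine ⟨a, ?_⟩
  have := congrArg Prod.fst ha
  simpa using this.symm

/-- `Sha¹(B) ↪ Sha²(A)^*` via `R1` -/
theorem sha_right_R1 (h : A1R P T D) : ∀ y ∈ Z1c P D.ρB,
    (∀ a ∈ Sha2 P D.ρA, T.t (R1 P D a y) = 0) → y.1 ∈ B1 D.ρB := by
  intro y hy hkill
  obtain ⟨l', hl'B, hl'⟩ := exists_local_functionals
    (fun v => (res2 (P.r v) : (P.G × P.G → D.A) →ₗ[k] _)) (Z2 P.lev D.ρA)
    (fun v => B2 (P.levv v) (P.loc D.ρA v)) (T.t.comp ((R1 P D).flip y))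
    (fun z hz hzB => hkill z ((mem_Sha2 P).2 ⟨hz, hzB⟩))
  have hex : ∀ v, ∃ e ∈ Z0 (P.loc D.ρB v), ∀ f ∈ Z2 (P.levv v) (P.loc D.ρA v),
      T.τ v (cup20 (P.loc D.ρB v) D.φ f e) = l' v f := fun v =>
    LPerfect.surj2 (T.τ_B2 v) (shapair_smooth_res P D hD v) (hLD v) (l' v) (hl'B v)
  choose e he0 he using hex
  have h0e : ((0 : P.G → D.B), e) ∈ Z1c P D.ρB := by
    rw [mem_Z1c]
    refine ⟨zero_mem _, fun v => ?_⟩
    rw [map_zero]
    exact (LinearMap.mem_ker.1 (he0 v)).symm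
  have hB : y - (0, e) ∈ B1c P D.ρB := by
    refine h _ (sub_mem hy h0e) fun a ha => ?_
    rw [map_sub, map_sub, t_R1_zero P D T hD ha he0]
    have h1 := hl' a ha
    rw [LinearMap.comp_apply, LinearMap.flip_apply] at h1
    rw [h1, sub_eq_zero]
    exact Finset.sum_congr rfl fun v _ => (he v _ (res2_mem_Z2 (P.r v) (P.compat v) ha)).symm
  obtain ⟨b, hb⟩ := (mem_B1c P).1 hB
  refine ⟨b, ?_⟩
  have := congrArg Prod.fst hb
  simpa using this.symm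

/-- `Sha²(A) ↪ Sha¹(B)^*` via `L2` -/
theorem sha_left_L2 (h : A2 P T D) : ∀ x ∈ Z2c P D.ρA,
    (∀ y ∈ Sha1 P D.ρB, T.t (L2 P D x y) = 0) → x.1 ∈ B2 P.lev D.ρA := by
  intro x hx hkill
  obtain ⟨l', hl'B, hl'⟩ := exists_local_functionals
    (fun v => (res1 (P.r v) : (P.G → D.B) →ₗ[k] _)) (Z1 P.lev D.ρB)
    (fun v => B1 (P.loc D.ρB v)) (T.t.comp (L2 P D x))
    (fun z hz hzB => hkill z ((mem_Sha1 P).2 ⟨hz, hzB⟩))
  have hex : ∀ v, ∃ z ∈ Z1 (P.levv v) (P.loc D.ρA v), ∀ y ∈ Z1 (P.levv v) (P.loc D.ρB v),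
      T.τ v (cup11 (P.loc D.ρB v) D.φ z y) = l' v y := fun v =>
    LPerfect.surj1 (T.τ_B2 v) (shapair_smooth_res P D hD v) (hLD v) (l' v) (hl'B v)
  choose z hz0 hz using hex
  have h0z : ((0 : P.G × P.G → D.A), z) ∈ Z2c P D.ρA := by
    rw [mem_Z2c]
    refine ⟨zero_mem _, fun v => (hz0 v).1, fun v => ?_⟩
    rw [map_zero]
    exact (LinearMap.mem_ker.1 (hz0 v).2).symm
  have hB : x - (0, z) ∈ B2c P D.ρA := by
    refine h _ (sub_mem hx h0z) fun y hy => ?_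
    rw [map_sub, LinearMap.sub_apply, map_sub, t_L2_zero P D T hD hz0 hy]
    have h1 := hl' y hy
    rw [LinearMap.comp_apply] at h1
    rw [h1, sub_eq_zero]
    exact Finset.sum_congr rfl fun v _ => (hz v _ (res1_mem_Z1 (P.r v) (P.compat v) hy)).symm
  obtain ⟨α, β, hα, hαβ⟩ := (mem_B2c P).1 hB
  refine ⟨α, hα, ?_⟩
  have := congrArg Prod.fst hαβ
  simpa using this.symm

/-- (S4) the abstract Poitou–Tate pairing `Sha¹(B) × Sha²(A) → k` -/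
theorem sha_pairing (h2 : A2 P T D) (h1 : A1R P T D) :
    ∃ Bil : ↥(Sha1 P D.ρB) →ₗ[k] ↥(Sha2 P D.ρA) →ₗ[k] k,
      (∀ (y : ↥(Sha1 P D.ρB)) (x : ↥(Sha2 P D.ρA)), (y : P.G → D.B) ∈ B1 D.ρB → Bil y x = 0) ∧
      (∀ (y : ↥(Sha1 P D.ρB)) (x : ↥(Sha2 P D.ρA)),
        (x : P.G × P.G → D.A) ∈ B2 P.lev D.ρA → Bil y x = 0) ∧
      (∀ y, (∀ x, Bil y x = 0) → (y : P.G → D.B) ∈ B1 D.ρB) ∧
      (∀ x, (∀ y, Bil y x = 0) → (x : P.G × P.G → D.A) ∈ B2 P.lev D.ρA) := by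
  -- the first projection `Z2c → Sha2`
  let pr : ↥(Z2c P D.ρA) →ₗ[k] ↥(Sha2 P D.ρA) :=
    ((LinearMap.fst k _ _).comp (Z2c P D.ρA).subtype).codRestrict (Sha2 P D.ρA)
      (fun x => (mem_Sha2_iff_exists P).2 ⟨x.1.2, x.2⟩)
  have hpr : LinearMap.range pr = ⊤ := by
    rw [LinearMap.range_eq_top]
    intro x
    obtain ⟨b, hb⟩ := (mem_Sha2_iff_exists P).1 x.2
    exact ⟨⟨(x.1, b), hb⟩, Subtype.ext rfl⟩
  obtain ⟨s, hs⟩ := LinearMap.exists_rightInverse_of_surjective pr hpr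
  have hs1 : ∀ x : ↥(Sha2 P D.ρA),
      ((s x : ↥(Z2c P D.ρA)) : (P.G × P.G → D.A) × (∀ v : P.ι, P.Gv v → D.A)).1
        = (x : P.G × P.G → D.A) := fun x =>
    congrArg Subtype.val (LinearMap.congr_fun hs x)
  refine ⟨(((L2 P D).compr₂ T.t).flip).compl₁₂ (Sha1 P D.ρB).subtype
    ((Z2c P D.ρA).subtype.comp s), ?_, ?_, ?_, ?_⟩
  · intro y x hy
    show T.t (L2 P D (s x) y) = 0
    exact t_L2_B1 P D T hD (s x).2 hy
  · intro y x hx
    show T.t (L2 P D (s x) y) = 0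
    obtain ⟨α, hα, hαx⟩ := hx
    have hα' : LC1 P.lev α := hα
    have hyZ := ((mem_Sha1 P).1 y.2).1
    have hyB := ((mem_Sha1 P).1 y.2).2
    have hc : coneD1 P D.ρA (α, 0) ∈ B2c P D.ρA := ⟨(α, 0), ⟨hα', trivial⟩, rfl⟩
    have hgoal : ∀ sx : (P.G × P.G → D.A) × (∀ v : P.ι, P.Gv v → D.A), sx ∈ Z2c P D.ρA →
        sx.1 = (x : P.G × P.G → D.A) → T.t (L2 P D sx y) = 0 := by
      intro sx hsxZ hsx1
      have hw : sx - coneD1 P D.ρA (α, 0) ∈ Z2c P D.ρA :=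
        sub_mem hsxZ (B2c_le_Z2c P hD.1 hc)
      obtain ⟨z, hz⟩ : ∃ z, sx - coneD1 P D.ρA (α, 0) = (0, z) := by
        refine ⟨(sx - coneD1 P D.ρA (α, 0)).2, ?_⟩
        apply Prod.ext
        · show sx.1 - d1 D.ρA α = 0
          rw [hsx1, hαx, sub_self]
        · rfl
      rw [hz] at hw
      have hzZ : ∀ v, z v ∈ Z1 (P.levv v) (P.loc D.ρA v) := by
        intro v
        obtain ⟨-, hLC, hd⟩ := (mem_Z2c P).1 hw
        refine ⟨hLC v, ?_⟩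
        have := hd v
        rw [map_zero] at this
        exact this.symm
      have hsx : sx = coneD1 P D.ρA (α, 0) + (0, z) := by
        rw [← hz]; abel
      rw [hsx, map_add, LinearMap.add_apply, map_add, t_L2_B2c P D T hD hc hyZ, zero_add,
        t_L2_zero P D T hD hzZ hyZ]
      refine Finset.sum_eq_zero fun v _ => T.τ_B2 v _ ?_
      exact cup11_mem_B2_right (ρA := P.loc D.ρA v) (fun g a b => D.equiv (P.r v g) a b)
        (P.smooth_loc hD.2 v) (hzZ v) (hyB v)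
    exact hgoal _ (s x).2 (hs1 x)
  · intro y hy
    obtain ⟨c, hc⟩ := (mem_Sha1_iff_exists P).1 y.2
    refine sha_right_R1 P T D hD hLD h1 (y.1, c) hc fun a ha => ?_
    have h3 := t_L2_eq_R1 P D T hD (s ⟨a, ha⟩).2 hc
    rw [hs1 ⟨a, ha⟩] at h3
    rw [← h3]
    exact hy ⟨a, ha⟩
  · intro x hx
    rw [← hs1 x]
    exact sha_left_L2 P T D hD hLD h2 _ (s x).2 fun y hy => hx ⟨y, hy⟩

end Fermat.Agent.S55
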