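import Fermat.Agent.S55.Concrete
import Fermat.Agent.S55.DIC.Unram4

/-!
# S55-T : `μ_p` is trivial on an `S`-level (`p ∈ S`)
-/

set_option autoImplicit false

open ExtCitation

namespace Fermat.Agent.S55

/-- an automorphism fixing a primitive `p`-th root of unity has trivial cyclotomic character -/
private theorem smoothmu_cycloChar_eq_one (p : ℕ) [Fact p.Prime] (ζ : AlgebraicClosure ℚ)
    (hζ : IsPrimitiveRoot ζ p) (σ : GQ) (hσ : σ ζ = ζ) : cycloChar p σ = 1 := by
  have : NeZero p := ⟨(Fact.out : p.Prime).ne_zero⟩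
  have h1 : cycloChar p σ = modularCyclotomicCharacter (AlgebraicClosure ℚ)
      (card_rootsOfUnity_eq_self p) (σ : AlgebraicClosure ℚ ≃+* AlgebraicClosure ℚ) := rfl
  rw [h1]
  apply Units.ext
  have h2 := modularCyclotomicCharacter.unique (AlgebraicClosure ℚ)
    (card_rootsOfUnity_eq_self p) (σ : AlgebraicClosure ℚ ≃+* AlgebraicClosure ℚ) (c := 1) ?_
  · exact h2.symm
  · intro t ht
    have ht' : (t : AlgebraicClosure ℚ) ^ p = 1 := by
      have := (mem_rootsOfUnity p t).1 ht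
      have h4 := congrArg Units.val this
      rwa [Units.val_pow_eq_pow_val, Units.val_one] at h4
    obtain ⟨i, -, hi⟩ := hζ.eq_pow_of_pow_eq_one ht'
    have h3 : (σ : AlgebraicClosure ℚ ≃+* AlgebraicClosure ℚ) (t : AlgebraicClosure ℚ)
        = σ (t : AlgebraicClosure ℚ) := rfl
    rw [h3, ← hi, map_pow, hσ]
    have hp1 : (1 : ZMod p).val = 1 := by
      have : Fact (1 < p) := ⟨(Fact.out : p.Prime).one_lt⟩
      exact ZMod.val_one p
    rw [hp1, pow_one]

theorem smooth_muRep (p : ℕ) [Fact p.Prime] (S : Finset Nat.Primes) (hpS : pPrime p ∈ S) :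
    Smooth (muRep p) (sysS S).lev := by
  have : NeZero p := ⟨(Fact.out : p.Prime).ne_zero⟩
  have : NeZero ((p : ℕ) : AlgebraicClosure ℚ) :=
    ⟨by exact_mod_cast (Fact.out : p.Prime).ne_zero⟩
  obtain ⟨ζ, hζ⟩ := HasEnoughRootsOfUnity.exists_primitiveRoot (AlgebraicClosure ℚ) p
  refine ⟨(IntermediateField.adjoin ℚ {ζ}).fixingSubgroup,
    ⟨IntermediateField.adjoin ℚ {ζ}, ?_, rfl⟩, ?_⟩
  · refine DIC.isUnramifiedOutside_adjoin_rootOfUnity S p (Fact.out : p.Prime).ne_zero ?_ ζ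
      hζ.pow_eq_one
    intro ℓ hℓ
    have h1 : (ℓ : ℕ) = p := (Nat.prime_dvd_prime_iff_eq ℓ.2 (Fact.out : p.Prime)).1 hℓ
    have h2 : ℓ = pPrime p := Subtype.ext h1
    rw [h2]; exact hpS
  · intro σ hσ
    have hfix : σ ζ = ζ := by
      have := (IntermediateField.mem_fixingSubgroup_iff _ σ).1 hσ ζ
        (IntermediateField.mem_adjoin_simple_self ℚ ζ)
      exact this
    have h1 := smoothmu_cycloChar_eq_one p ζ hζ σ hfix
    ext
    simp [muRep_apply, h1]

end Fermat.Agent.S55
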