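import Fermat.Agent.S55.T.Cone

/-!
# S55-T : existence of the trace functional
-/

set_option autoImplicit false

namespace Fermat.Agent.S55

section trace

variable {k : Type} [Field k] (P : Sys) {ρμ : Representation k P.G k}

/-- linear algebra: a functional on `W` which vanishes on `W ⊓ B` extends to a functional on the
whole space which vanishes on `B`. -/
private theorem trace_exists_glue {V : Type*} [AddCommGroup V] [Module k V] (W B : Submodule k V)
    (l : V →ₗ[k] k) (h : ∀ x ∈ W, x ∈ B → l x = 0) :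
    ∃ t : V →ₗ[k] k, (∀ x ∈ W, t x = l x) ∧ ∀ x ∈ B, t x = 0 := by
  let f : ↥W →ₗ[k] V ⧸ B := B.mkQ.comp W.subtype
  have hl : l.comp W.subtype ∈ (LinearMap.ker f).dualAnnihilator := by
    rw [Submodule.mem_dualAnnihilator]
    intro w hw
    have hw' : (w : V) ∈ B := by
      have : B.mkQ (w : V) = 0 := hw
      rwa [Submodule.mkQ_apply, Submodule.Quotient.mk_eq_zero] at this
    exact h w w.2 hw'
  rw [← LinearMap.range_dualMap_eq_dualAnnihilator_ker] at hl
  obtain ⟨g, hg⟩ := hl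
  refine ⟨g.comp B.mkQ, fun x hx => ?_, fun x hx => ?_⟩
  · exact DFunLike.congr_fun hg (⟨x, hx⟩ : ↥W)
  · have : B.mkQ x = 0 := by
      rwa [Submodule.mkQ_apply, Submodule.Quotient.mk_eq_zero]
    rw [LinearMap.comp_apply, this, map_zero]

/-- existence of the trace functional from reciprocity (R): pure linear algebra
(`t` is defined on `{(0,z)} + B3c` and extended arbitrarily). -/
theorem exists_trace (hμ : Smooth ρμ P.lev)
    (τ : ∀ v : P.ι, (P.Gv v × P.Gv v → k) →ₗ[k] k)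
    (τ_B2 : ∀ v, ∀ f ∈ B2 (P.levv v) (P.loc ρμ v), τ v f = 0)
    (recip : ∀ y ∈ Z2 P.lev ρμ, ∑ v, τ v (res2 (k := k) (P.r v) y) = 0) :
    ∃ T : Trace P ρμ, T.τ = τ := by
  let l0 : X3 k P →ₗ[k] k :=
    ∑ v, ((τ v).comp (LinearMap.proj v)).comp (LinearMap.snd k _ _)
  have hl0 : ∀ x : X3 k P, l0 x = ∑ v, τ v (x.2 v) := by
    intro x
    simp [l0, LinearMap.sum_apply]
  let W0 : Submodule k (X3 k P) := LinearMap.ker (LinearMap.fst k _ _)
  have hW0 : ∀ x : X3 k P, x ∈ W0 ↔ x.1 = 0 := fun x => Iff.rfl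
  obtain ⟨t, ht1, ht2⟩ := trace_exists_glue W0 (B3c P ρμ) l0 (by
    intro x hx hxB
    obtain ⟨α, β, hα, hβ, rfl⟩ := (mem_B3c P).mp hxB
    have hαZ : α ∈ Z2 P.lev ρμ := mem_Z2.mpr ⟨hα, (hW0 _).mp hx⟩
    rw [hl0]
    simp only [map_sub, Finset.sum_sub_distrib]
    rw [recip α hαZ, zero_sub, neg_eq_zero]
    exact Finset.sum_eq_zero fun v _ => τ_B2 v _ (mem_B2.mpr ⟨β v, hβ v, rfl⟩))
  exact ⟨{ τ := τ
           τ_B2 := τ_B2
           t := t
           t_B3c := ht2
           t_loc := fun z _ => by rw [ht1 (0, z) ((hW0 _).mpr rfl), hl0] }, rfl⟩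

end trace

end Fermat.Agent.S55
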